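import Fermat.Agent.S52.Skeleton
import Fermat.Agent.EFrob.Main
import Fermat.Agent.S54.Frobenius

/-!
# S52, row CONGR (helper36): `IfaceCongr`

Curves with isomorphic mod-`p` Galois representations have congruent `a_ℓ` at all common good
primes `ℓ ≠ p`: the equivariant additive bijection is `ZMod p`-linear and conjugates the two
Galois actions, so the traces of every `σ` agree; at a Frobenius element the traces are `a_ℓ`
(P-EFROB).
-/

set_option autoImplicit false

namespace Fermat.Agent.S52

open WeierstrassCurve WeierstrassCurve.Affine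

/-- the traces of the two mod-`p` representations agree. -/
theorem h36_galoisTrace_eq_of_sameModRep (p : ℕ) (W W' : WeierstrassCurve ℤ)
    (h : SameModRep p W W') (σ : AlgebraicClosure ℚ ≃ₐ[ℚ] AlgebraicClosure ℚ) :
    Point.galoisTrace (K := AlgebraicClosure ℚ) ℚ (W'.map (Int.castRingHom ℚ)).toAffine p σ =
      Point.galoisTrace (K := AlgebraicClosure ℚ) ℚ (W.map (Int.castRingHom ℚ)).toAffine p σ := by
  obtain ⟨e, he⟩ := h
  let E : h86_Tors W p ≃ₗ[ZMod p] h86_Tors W' p :=
    { e with map_smul' := fun c x => ZMod.map_smul e.toAddMonoidHom c x }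
  have hE : ∀ x, E x = e x := fun _ => rfl
  have hconj : Point.galoisRepModuleEnd (K := AlgebraicClosure ℚ) ℚ
      (W'.map (Int.castRingHom ℚ)).toAffine p σ =
      E.conj (Point.galoisRepModuleEnd (K := AlgebraicClosure ℚ) ℚ
        (W.map (Int.castRingHom ℚ)).toAffine p σ) := by
    apply LinearMap.ext
    intro y
    rw [LinearEquiv.conj_apply_apply, Point.galoisRepModuleEnd_apply,
      Point.galoisRepModuleEnd_apply, hE, he, ← hE, LinearEquiv.apply_symm_apply]
  rw [Point.galoisTrace_def, Point.galoisTrace_def, hconj, LinearMap.trace_conj']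

/-- **(CONGR)** -/
theorem ifaceCongr : IfaceCongr := by
  intro p hp W W' h ℓ hℓ hg hg' hne
  obtain ⟨A, σ, hA, hσ⟩ := Fermat.Agent.S54.exists_isFrobeniusAt ℓ hℓ
  have h1 := Fermat.Agent.EFrob.galoisTrace_frobenius W hℓ hp hne hg A hA σ hσ
  have h2 := Fermat.Agent.EFrob.galoisTrace_frobenius W' hℓ hp hne hg' A hA σ hσ
  have h3 := h36_galoisTrace_eq_of_sameModRep p W W' h σ
  rw [h1, h2] at h3
  exact (ZMod.intCast_eq_intCast_iff_dvd_sub _ _ p).1 h3.symm

end Fermat.Agent.S52
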