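import Mathlib
import Fermat.Agent.Cheb.Final
import Fermat.Prelude.Def_GaloisRep_ComplexConjugation

/-!
# S52, step (C3): the auxiliary prime `r ≡ 7 mod 12` (Galois / Chebotarev half)

Let `t ∈ ℚ̄` be a root of `P ∈ ℤ[X]` fixed by complex conjugation, and let `τ ∈ Gal(ℚ̄/ℚ)` fix `t`
and the square roots of `-1` and move a square root of `-3`.  Then `σ₀ := c τ` fixes `t`, moves
`i` and fixes `√-3`; weak Chebotarev applied to `σ₀` on the normal closure of `ℚ(t, i, √-3)` gives
a prime `r ∉ S`, `r ≡ 7 mod 12`, and an integer `t₁` with `r ∣ P(t₁)`; moreover `r ∤ Q(t₁)` for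
any prescribed `Q ∈ ℤ[X]` with `Q(t) ≠ 0`.

* `h19g_conj_of_sq_neg`: the Prelude complex conjugation negates square roots of negative
  rationals.
* `h19g_exists_aux_prime`: the main statement.
-/

set_option autoImplicit false

namespace Fermat.Agent.S52

open Polynomial

/-- A complex number whose square is a negative real is negated by conjugation. -/
theorem h19g_conj_eq_neg_of_sq {z : ℂ} {a : ℝ} (ha : 0 < a) (hz : z ^ 2 = -(a : ℂ)) :
    (starRingEnd ℂ) z = -z := by
  have hre : z.re * z.re - z.im * z.im = -a := by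
    have := congrArg Complex.re hz
    simpa [sq, Complex.mul_re] using this
  have him : z.re * z.im + z.im * z.re = 0 := by
    have := congrArg Complex.im hz
    simpa [sq, Complex.mul_im] using this
  have h0 : z.re = 0 := by
    have h2 : z.re * z.im = 0 := by linarith
    rcases mul_eq_zero.mp h2 with h | h
    · exact h
    · exfalso
      rw [h] at hre
      nlinarith [mul_self_nonneg z.re]
  apply Complex.ext
  · simp [h0]
  · simp

/-- The Prelude complex conjugation negates every square root of a negative rational number. -/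
theorem h19g_conj_of_sq_neg (x : AlgebraicClosure ℚ) (a : ℚ) (ha : 0 < a)
    (hx : x ^ 2 = -(algebraMap ℚ (AlgebraicClosure ℚ) a)) : complexConjugation x = -x := by
  apply complexEmbedding.toRingHom.injective
  show complexEmbedding (complexConjugation x) = complexEmbedding (-x)
  rw [complexEmbedding_complexConjugation, map_neg]
  apply h19g_conj_eq_neg_of_sq (a := (a : ℝ)) (by exact_mod_cast ha)
  rw [← map_pow, hx, map_neg, AlgHom.commutes]
  simp

/-! ### Local facts at a valuation subring of `ℚ̄` over a prime -/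

/-- Integral elements lie in every valuation subring. -/
theorem h19g_mem_of_isIntegral {L : Type*} [Field L] (A : ValuationSubring L) {x : L}
    (hx : IsIntegral ℤ x) : x ∈ A := by
  have h : IsIntegral A x := hx.tower_top
  obtain ⟨y, rfl⟩ := (IsIntegrallyClosed.isIntegral_iff (R := A) (K := L)).mp h
  exact y.2

section Local

variable {L : Type*} [Field L] (A : ValuationSubring L)

/-- Membership in the maximal ideal, through the residue map. -/
theorem h19g_sub_mem_nonunits_iff {x y : L} (hx : x ∈ A) (hy : y ∈ A) :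
    x - y ∈ A.nonunits ↔
      IsLocalRing.residue A ⟨x, hx⟩ = IsLocalRing.residue A ⟨y, hy⟩ := by
  rw [ValuationSubring.mem_nonunits_iff_exists_mem_maximalIdeal, ← sub_eq_zero, ← map_sub,
    IsLocalRing.residue_eq_zero_iff]
  constructor
  · rintro ⟨h, hm⟩
    exact hm
  · intro hm
    exact ⟨sub_mem hx hy, hm⟩

/-- An element of `A` outside the maximal ideal has its inverse in `A`. -/
theorem h19g_inv_mem {x : L} (hx : x ∈ A) (hx' : x ∉ A.nonunits) : x⁻¹ ∈ A := by
  rw [ValuationSubring.mem_nonunits_iff] at hx'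
  rw [← A.valuation_le_one_iff] at hx ⊢
  have h1 : A.valuation x = 1 := le_antisymm hx (not_lt.mp hx')
  rw [map_inv₀, h1, inv_one]

variable {A} {p : ℕ}

/-- The residue field of a valuation subring over `p` has characteristic `p`. -/
theorem h19g_charP (hp : p.Prime) (hA : A.LiesOverPrime p) :
    CharP (IsLocalRing.ResidueField A) p := by
  rw [CharP.charP_iff_prime_eq_zero hp]
  have h1 : ((p : A) : L) ∈ A.nonunits := by
    have : ((p : A) : L) = (p : L) := by push_cast; rfl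
    rw [this]; exact hA
  rw [ValuationSubring.mem_nonunits_iff_exists_mem_maximalIdeal] at h1
  obtain ⟨h, hm⟩ := h1
  have h2 : IsLocalRing.residue A (p : A) = 0 := by
    rw [IsLocalRing.residue_eq_zero_iff]
    exact hm
  rw [← h2, map_natCast]

/-- An integer lies in the maximal ideal of a valuation subring over `p` iff `p` divides it. -/
theorem h19g_intCast_mem_nonunits_iff (hp : p.Prime) (hA : A.LiesOverPrime p) (n : ℤ) :
    (n : L) ∈ A.nonunits ↔ (p : ℤ) ∣ n := by
  have := h19g_charP hp hA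
  have hn : (n : L) ∈ A := intCast_mem A n
  have h0 : (0 : L) ∈ A := zero_mem A
  have e : (n : L) ∈ A.nonunits ↔ (n : L) - 0 ∈ A.nonunits := by rw [sub_zero]
  rw [e, h19g_sub_mem_nonunits_iff A hn h0]
  have e1 : (⟨(n : L), hn⟩ : A) = (n : A) := by
    apply Subtype.ext; push_cast; rfl
  have e2 : (⟨(0 : L), h0⟩ : A) = 0 := rfl
  rw [e1, e2, map_intCast, map_zero, CharP.intCast_eq_zero_iff (IsLocalRing.ResidueField A) p]

/-- The inverse of an integer prime to `p` lies in a valuation subring over `p`. -/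
theorem h19g_inv_intCast_mem (hp : p.Prime) (hA : A.LiesOverPrime p) {n : ℤ}
    (hn : ¬ (p : ℤ) ∣ n) : ((n : L))⁻¹ ∈ A :=
  h19g_inv_mem A (intCast_mem A n) (fun h => hn ((h19g_intCast_mem_nonunits_iff hp hA n).mp h))

/-- A root of an integer polynomial whose leading coefficient is prime to `p` lies in every
valuation subring over `p`. -/
theorem h19g_mem_of_root [CharZero L] (hp : p.Prime) (hA : A.LiesOverPrime p) {P : ℤ[X]} {t : L}
    (hP : aeval t P = 0) (hlc : ¬ (p : ℤ) ∣ P.leadingCoeff) : t ∈ A := by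
  have h1 : IsIntegral ℤ (P.leadingCoeff • t) := isIntegral_leadingCoeff_smul P t hP
  have h2 : P.leadingCoeff • t ∈ A := h19g_mem_of_isIntegral A h1
  have h3 : ((P.leadingCoeff : ℤ) : L)⁻¹ ∈ A := h19g_inv_intCast_mem hp hA hlc
  have h0 : ((P.leadingCoeff : ℤ) : L) ≠ 0 := by
    intro h
    apply hlc
    have : P.leadingCoeff = 0 := by exact_mod_cast h
    rw [this]; exact dvd_zero _
  have e : t = ((P.leadingCoeff : ℤ) : L)⁻¹ * (P.leadingCoeff • t) := by
    rw [zsmul_eq_mul, ← mul_assoc, inv_mul_cancel₀ h0, one_mul]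
  rw [e]
  exact mul_mem h3 h2

/-- Values of integer polynomials at elements of `A` lie in `A`, and the residue map commutes
with evaluation. -/
theorem h19g_residue_aeval (A : ValuationSubring L) {t : L} (ht : t ∈ A) (R : ℤ[X]) :
    ∃ h : aeval t R ∈ A, IsLocalRing.residue A ⟨aeval t R, h⟩ =
      R.eval₂ (Int.castRingHom (IsLocalRing.ResidueField A)) (IsLocalRing.residue A ⟨t, ht⟩) := by
  have e : aeval t R = ((R.eval₂ (Int.castRingHom A) ⟨t, ht⟩ : A) : L) := by
    have := Polynomial.hom_eval₂ R (Int.castRingHom A) A.subtype ⟨t, ht⟩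
    rw [show A.subtype (R.eval₂ (Int.castRingHom A) ⟨t, ht⟩) =
      ((R.eval₂ (Int.castRingHom A) ⟨t, ht⟩ : A) : L) from rfl] at this
    rw [this, aeval_def]
    congr 1
  have h : aeval t R ∈ A := by rw [e]; exact Subtype.property _
  refine ⟨h, ?_⟩
  have e' : (⟨aeval t R, h⟩ : A) = R.eval₂ (Int.castRingHom A) ⟨t, ht⟩ := Subtype.ext e
  rw [e', Polynomial.hom_eval₂]
  congr 1

/-- If the residue class of `t` is the class of the integer `n`, the residue class of `R(t)` is
that of `R(n)`. -/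
theorem h19g_residue_aeval_int (A : ValuationSubring L) {t : L} (ht : t ∈ A) (R : ℤ[X]) (n : ℤ)
    (hn : IsLocalRing.residue A ⟨t, ht⟩ = (n : IsLocalRing.ResidueField A)) :
    ∃ h : aeval t R ∈ A, IsLocalRing.residue A ⟨aeval t R, h⟩ =
      ((R.eval n : ℤ) : IsLocalRing.ResidueField A) := by
  obtain ⟨h, e⟩ := h19g_residue_aeval A ht R
  refine ⟨h, ?_⟩
  rw [e, hn, Polynomial.eval₂_at_intCast]
  simp

/-- A Frobenius element acts as the `p`-th power on residues. -/
theorem h19g_residue_frob {K : Type*} [Field K] [Algebra K L] {σ : L ≃ₐ[K] L}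
    (hσ : A.IsFrobeniusAt σ p) {z : L} (hz : z ∈ A) :
    ∃ h : σ z ∈ A, IsLocalRing.residue A ⟨σ z, h⟩ = (IsLocalRing.residue A ⟨z, hz⟩) ^ p := by
  obtain ⟨h1, h2⟩ := Fermat.Agent.Cheb.F1_frob_sub_mem_nonunits A hσ hz
  refine ⟨h1, ?_⟩
  rw [h19g_sub_mem_nonunits_iff A h1 (pow_mem hz p)] at h2
  rw [h2, ← map_pow]
  rfl

/-- An element of a field of characteristic `p` fixed by the `p`-th power map is the class of
an integer. -/
theorem h19g_exists_int_of_pow_eq {k : Type*} [Field k] (hp : p.Prime) [CharP k p] {x : k}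
    (hx : x ^ p = x) : ∃ n : ℤ, (n : k) = x := by
  have : Fact p.Prime := ⟨hp⟩
  exact (mem_bot_iff_intCast p k).mp ((Subfield.mem_bot_iff_pow_eq_self k p).mpr hx)

end Local

/-! ### Congruence conditions read off from the residue field -/

section Residue

variable {k : Type*} [Field k] {p : ℕ}

/-- If `i ^ 2 = -1` and `i ^ p = -i` in a field of odd characteristic `p`, then `p ≡ 3 mod 4`. -/
theorem h19g_mod_four (hp : p.Prime) (hp2 : p ≠ 2) [CharP k p] {i : k} (hi : i ^ 2 = -1)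
    (hip : i ^ p = -i) : p % 4 = 3 := by
  have hodd : p % 2 = 1 := by
    rcases hp.eq_two_or_odd with h | h
    · exact absurd h hp2
    · exact h
  have h4 : p % 4 = 1 ∨ p % 4 = 3 := by omega
  rcases h4 with h | h
  · exfalso
    have hi4 : i ^ 4 = 1 := by
      have : i ^ 4 = (i ^ 2) ^ 2 := by ring
      rw [this, hi]; ring
    have e : i ^ p = i := by
      conv_lhs => rw [← Nat.div_add_mod p 4, h, pow_add, pow_mul, hi4, one_pow, one_mul, pow_one]
    rw [e] at hip
    have hi0 : i ≠ 0 := by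
      intro h0
      rw [h0] at hi
      simp at hi
    have h2 : (2 : k) * i = 0 := by linear_combination hip
    have h2' : (2 : k) = 0 := by
      rcases mul_eq_zero.mp h2 with h' | h'
      · exact h'
      · exact absurd h' hi0
    have h3 : ((2 : ℕ) : k) = 0 := by exact_mod_cast h2'
    rw [CharP.cast_eq_zero_iff k p] at h3
    have := (Nat.prime_dvd_prime_iff_eq hp Nat.prime_two).mp h3
    exact hp2 this
  · exact h

/-- If `s ^ 2 = -3` and `s ^ p = s` in a field of characteristic `p ≠ 2, 3`, then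
`p ≡ 1 mod 3`. -/
theorem h19g_mod_three (hp : p.Prime) (hp2 : p ≠ 2) (hp3 : p ≠ 3) [CharP k p] {s : k}
    (hs : s ^ 2 = -3) (hsp : s ^ p = s) : p % 3 = 1 := by
  have : Fact p.Prime := ⟨hp⟩
  have h2 : (2 : k) ≠ 0 := by
    intro h
    have h3 : ((2 : ℕ) : k) = 0 := by exact_mod_cast h
    rw [CharP.cast_eq_zero_iff k p] at h3
    exact hp2 ((Nat.prime_dvd_prime_iff_eq hp Nat.prime_two).mp h3)
  have h3 : (3 : k) ≠ 0 := by
    intro h
    have h3 : ((3 : ℕ) : k) = 0 := by exact_mod_cast h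
    rw [CharP.cast_eq_zero_iff k p] at h3
    exact hp3 ((Nat.prime_dvd_prime_iff_eq hp Nat.prime_three).mp h3)
  set ω : k := (-1 + s) / 2 with hω
  have hωmem : ω ∈ (⊥ : Subfield k) := by
    have hsmem : s ∈ (⊥ : Subfield k) := (Subfield.mem_bot_iff_pow_eq_self k p).mpr hsp
    have h1 : (-1 : k) ∈ (⊥ : Subfield k) := neg_mem (one_mem _)
    have h2m : (2 : k) ∈ (⊥ : Subfield k) := by
      have : (2 : k) = 1 + 1 := by norm_num
      rw [this]; exact add_mem (one_mem _) (one_mem _)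
    exact div_mem (add_mem h1 hsmem) h2m
  have hωp : ω ^ p = ω := (Subfield.mem_bot_iff_pow_eq_self k p).mp hωmem
  have hω2 : ω ^ 2 + ω + 1 = 0 := by
    rw [hω]
    field_simp
    linear_combination hs
  have hω3 : ω ^ 3 = 1 := by linear_combination (ω - 1) * hω2
  have hω1 : ω ≠ 1 := by
    intro h
    rw [h] at hω2
    apply h3
    linear_combination hω2
  have hω0 : ω ≠ 0 := by
    intro h
    rw [h] at hω2
    simp at hω2
  have h3' : p % 3 = 0 ∨ p % 3 = 1 ∨ p % 3 = 2 := by omega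
  rcases h3' with h | h | h
  · exfalso
    have : 3 ∣ p := Nat.dvd_of_mod_eq_zero h
    exact hp3 ((Nat.prime_dvd_prime_iff_eq Nat.prime_three hp).mp this).symm
  · exact h
  · exfalso
    have e : ω ^ p = ω ^ 2 := by
      conv_lhs => rw [← Nat.div_add_mod p 3, h, pow_add, pow_mul, hω3, one_pow, one_mul]
    rw [e] at hωp
    have : ω * (ω - 1) = 0 := by linear_combination hωp
    rcases mul_eq_zero.mp this with h' | h'
    · exact hω0 h'
    · exact hω1 (sub_eq_zero.mp h')

end Residue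

/-! ### The auxiliary prime -/

section Main

/-- Powers of an automorphism fix what the automorphism fixes. -/
theorem h19g_pow_apply_fixed (σ : AlgebraicClosure ℚ ≃ₐ[ℚ] AlgebraicClosure ℚ)
    {x : AlgebraicClosure ℚ} (h : σ x = x) (n : ℕ) : (σ ^ n) x = x := by
  induction n with
  | zero => simp
  | succ n ih => rw [pow_succ, AlgEquiv.mul_apply, h, ih]

/-- Powers of an automorphism negating `x`. -/
theorem h19g_pow_apply_neg (σ : AlgebraicClosure ℚ ≃ₐ[ℚ] AlgebraicClosure ℚ)
    {x : AlgebraicClosure ℚ} (h : σ x = -x) (n : ℕ) : (σ ^ n) x = (-1) ^ n * x := by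
  induction n with
  | zero => simp
  | succ n ih => rw [pow_succ, AlgEquiv.mul_apply, h, map_neg, ih]; ring

/-- A prime outside the prime factors of a nonzero integer does not divide it. -/
theorem h19g_not_dvd_of_not_mem {p : ℕ} (hp : p.Prime) {n : ℤ} (hn : n ≠ 0)
    (h : p ∉ n.natAbs.primeFactors) : ¬ (p : ℤ) ∣ n := by
  intro hd
  apply h
  rw [Nat.mem_primeFactors]
  exact ⟨hp, Int.natCast_dvd.mp hd, Int.natAbs_ne_zero.mpr hn⟩

/-- **The auxiliary prime, abstract form.**  Let `t ∈ ℚ̄` be a root of `P ∈ ℤ[X]`, `P ≠ 0`, with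
`Q(t) ≠ 0`, and let `σ₀ ∈ Gal(ℚ̄/ℚ)` fix `t` and a square root of `-3` and negate a square root
of `-1`.  Then outside any finite set `S` there is a prime `r ≡ 7 mod 12` and an integer `t₁`
with `r ∣ P(t₁)` and `r ∤ Q(t₁)`. -/
theorem h19g_exists_aux_prime_of (P Q : ℤ[X]) (t I0 s : AlgebraicClosure ℚ) (hP0 : P ≠ 0)
    (hP : aeval t P = 0) (hQ : aeval t Q ≠ 0) (hI : I0 ^ 2 = -1) (hs : s ^ 2 = -3)
    (σ0 : AlgebraicClosure ℚ ≃ₐ[ℚ] AlgebraicClosure ℚ) (h0t : σ0 t = t) (h0i : σ0 I0 = -I0)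
    (h0s : σ0 s = s) (S : Finset ℕ) :
    ∃ r : ℕ, r.Prime ∧ r ∉ S ∧ r % 12 = 7 ∧
      ∃ t1 : ℤ, (r : ℤ) ∣ P.eval t1 ∧ ¬ (r : ℤ) ∣ Q.eval t1 := by
  classical
  have halg : Algebra.IsAlgebraic ℚ (AlgebraicClosure ℚ) := AlgebraicClosure.isAlgebraic ℚ
  have : IsAlgClosure ℚ (AlgebraicClosure ℚ) := ⟨inferInstance, inferInstance⟩
  have : Normal ℚ (AlgebraicClosure ℚ) := IsAlgClosure.normal ℚ (AlgebraicClosure ℚ)
  -- the inverse of `y := Q(t)` is a root of some nonzero integer polynomial `M`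
  set y : AlgebraicClosure ℚ := aeval t Q with hy
  have hyalg : IsAlgebraic ℤ y⁻¹ :=
    (IsFractionRing.isAlgebraic_iff ℤ ℚ (AlgebraicClosure ℚ)).mpr
      (Algebra.IsAlgebraic.isAlgebraic _)
  obtain ⟨M, hM0, hM⟩ := hyalg
  -- the field
  set L0 : IntermediateField ℚ (AlgebraicClosure ℚ) :=
    IntermediateField.adjoin ℚ {t, I0, s} with hL0
  have hfin0 : FiniteDimensional ℚ L0 :=
    IntermediateField.finiteDimensional_adjoin
      (fun x _ => (Algebra.IsAlgebraic.isAlgebraic x).isIntegral)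
  set L : IntermediateField ℚ (AlgebraicClosure ℚ) :=
    IntermediateField.normalClosure ℚ L0 (AlgebraicClosure ℚ) with hL
  have : FiniteDimensional ℚ L := normalClosure.is_finiteDimensional ℚ L0 (AlgebraicClosure ℚ)
  have : Normal ℚ L := normalClosure.normal ℚ L0 (AlgebraicClosure ℚ)
  have : IsGalois ℚ L := ⟨⟩
  have hLL : L0 ≤ L := IntermediateField.le_normalClosure L0
  have htL : t ∈ L := hLL (IntermediateField.subset_adjoin ℚ _ (by simp))
  have hIL : I0 ∈ L := hLL (IntermediateField.subset_adjoin ℚ _ (by simp))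
  have hsL : s ∈ L := hLL (IntermediateField.subset_adjoin ℚ _ (by simp))
  -- the enlarged finite set of primes
  set S' : Finset ℕ := S ∪ {2, 3} ∪ P.leadingCoeff.natAbs.primeFactors ∪
    M.leadingCoeff.natAbs.primeFactors with hS'
  obtain ⟨p, A, σ, k, hp, hpS, hA, hσ, -, hk, hσk⟩ :=
    Fermat.Agent.Cheb.WC_exists_isFrobeniusAt_pow L σ0 S'
  have hpS0 : p ∉ S := fun h => hpS (by simp [hS', h])
  have hp2 : p ≠ 2 := fun h => hpS (by simp [hS', h])
  have hp3 : p ≠ 3 := fun h => hpS (by simp [hS', h])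
  have hpP : ¬ (p : ℤ) ∣ P.leadingCoeff :=
    h19g_not_dvd_of_not_mem hp (leadingCoeff_ne_zero.mpr hP0) (fun h => hpS (by simp [hS', h]))
  have hpM : ¬ (p : ℤ) ∣ M.leadingCoeff :=
    h19g_not_dvd_of_not_mem hp (leadingCoeff_ne_zero.mpr hM0) (fun h => hpS (by simp [hS', h]))
  -- `k` is odd
  have hkodd : Odd k := by
    set r := AlgEquiv.restrictNormalHom L σ0 with hr
    have h1 : AlgEquiv.restrictNormalHom L (σ0 ^ orderOf r) =
        AlgEquiv.restrictNormalHom L (1 : AlgebraicClosure ℚ ≃ₐ[ℚ] AlgebraicClosure ℚ) := by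
      rw [MonoidHom.map_pow, ← hr, pow_orderOf_eq_one, MonoidHom.map_one]
    have h2 : (σ0 ^ orderOf r) I0 = I0 :=
      Fermat.Agent.Cheb.WF_apply_eq_of_restrict_eq L _ _ h1 hIL
    rw [h19g_pow_apply_neg σ0 h0i] at h2
    have hI0 : I0 ≠ 0 := by
      intro h
      rw [h] at hI
      simp at hI
    have h3 : ((-1 : AlgebraicClosure ℚ)) ^ orderOf r = 1 := by
      have : ((-1 : AlgebraicClosure ℚ) ^ orderOf r - 1) * I0 = 0 := by
        linear_combination h2
      rcases mul_eq_zero.mp this with h' | h'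
      · exact sub_eq_zero.mp h'
      · exact absurd h' hI0
    have heven : Even (orderOf r) := by
      rcases Nat.even_or_odd (orderOf r) with h | h
      · exact h
      · exfalso
        rw [h.neg_one_pow] at h3
        have : (2 : AlgebraicClosure ℚ) = 0 := by linear_combination -h3
        exact two_ne_zero this
    rcases Nat.even_or_odd k with h | h
    · exfalso
      have h2k : 2 ∣ k := h.two_dvd
      have h2o : 2 ∣ orderOf r := heven.two_dvd
      have := Nat.dvd_gcd h2k h2o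
      rw [Nat.Coprime] at hk
      rw [hk] at this
      omega
    · exact h
  -- action of the Frobenius element
  have hσt : σ t = t := by rw [hσk t htL, h19g_pow_apply_fixed σ0 h0t]
  have hσs : σ s = s := by rw [hσk s hsL, h19g_pow_apply_fixed σ0 h0s]
  have hσI : σ I0 = -I0 := by
    rw [hσk I0 hIL, h19g_pow_apply_neg σ0 h0i, hkodd.neg_one_pow]; ring
  -- integrality
  have hIA : I0 ∈ A := h19g_mem_of_isIntegral A
    (IsIntegral.of_pow (n := 2) (by norm_num) (by rw [hI]; exact isIntegral_one.neg))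
  have hsA : s ∈ A := h19g_mem_of_isIntegral A
    (IsIntegral.of_pow (n := 2) (by norm_num) (by
      rw [hs]
      have : (-3 : AlgebraicClosure ℚ) = ((-3 : ℤ) : AlgebraicClosure ℚ) := by norm_num
      rw [this]
      exact isIntegral_algebraMap (R := ℤ) (A := AlgebraicClosure ℚ) (x := (-3 : ℤ))))
  have htA : t ∈ A := h19g_mem_of_root hp hA hP hpP
  have hchar : CharP (IsLocalRing.ResidueField A) p := h19g_charP hp hA
  -- `p ≡ 3 mod 4`
  have h4 : p % 4 = 3 := by
    obtain ⟨h1, h2⟩ := h19g_residue_frob hσ hIA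
    apply h19g_mod_four hp hp2 (k := IsLocalRing.ResidueField A)
      (i := IsLocalRing.residue A ⟨I0, hIA⟩)
    · rw [← map_pow]
      have : (⟨I0, hIA⟩ : A) ^ 2 = -1 := Subtype.ext (by push_cast; exact hI)
      rw [this, map_neg, map_one]
    · rw [← h2]
      have : (⟨σ I0, h1⟩ : A) = -⟨I0, hIA⟩ := Subtype.ext (by push_cast; exact hσI)
      rw [this, map_neg]
  -- `p ≡ 1 mod 3`
  have h3 : p % 3 = 1 := by
    obtain ⟨h1, h2⟩ := h19g_residue_frob hσ hsA
    apply h19g_mod_three hp hp2 hp3 (k := IsLocalRing.ResidueField A)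
      (s := IsLocalRing.residue A ⟨s, hsA⟩)
    · rw [← map_pow]
      have : (⟨s, hsA⟩ : A) ^ 2 = -3 := Subtype.ext (by push_cast; exact hs)
      rw [this, map_neg, map_ofNat]
    · rw [← h2]
      have e : (⟨_, h1⟩ : A) = ⟨s, hsA⟩ := Subtype.ext hσs
      rw [e]
  -- the residue class of `t` is rational
  obtain ⟨t1, ht1⟩ : ∃ t1 : ℤ, (t1 : IsLocalRing.ResidueField A) =
      IsLocalRing.residue A ⟨t, htA⟩ := by
    obtain ⟨h1, h2⟩ := h19g_residue_frob hσ htA
    apply h19g_exists_int_of_pow_eq hp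
    rw [← h2]
    have e : (⟨_, h1⟩ : A) = ⟨t, htA⟩ := Subtype.ext hσt
    rw [e]
  refine ⟨p, hp, hpS0, by omega, t1, ?_, ?_⟩
  · -- `p ∣ P(t₁)`
    obtain ⟨h1, h2⟩ := h19g_residue_aeval_int A htA P t1 ht1.symm
    rw [← CharP.intCast_eq_zero_iff (IsLocalRing.ResidueField A) p, ← h2]
    have e : (⟨_, h1⟩ : A) = 0 := Subtype.ext hP
    rw [e, map_zero]
  · -- `p ∤ Q(t₁)`
    obtain ⟨h1, h2⟩ := h19g_residue_aeval_int A htA Q t1 ht1.symm
    rw [← CharP.intCast_eq_zero_iff (IsLocalRing.ResidueField A) p, ← h2]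
    -- `y = Q(t)` is a unit of `A`
    have hyinv : y⁻¹ ∈ A := h19g_mem_of_root hp hA hM hpM
    intro h0
    rw [IsLocalRing.residue_eq_zero_iff] at h0
    have hunit : IsUnit (⟨aeval t Q, h1⟩ : A) := by
      refine IsUnit.of_mul_eq_one (⟨y⁻¹, hyinv⟩ : A) ?_
      apply Subtype.ext
      show aeval t Q * y⁻¹ = 1
      exact mul_inv_cancel₀ hQ
    exact (IsLocalRing.mem_maximalIdeal _).mp h0 hunit

/-- **The auxiliary prime.**  Let `t ∈ ℚ̄` be a root of `P ∈ ℤ[X]`, `P ≠ 0`, fixed by complex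
conjugation, with `Q(t) ≠ 0`, and let `τ ∈ Gal(ℚ̄/ℚ)` fix `t` and a square root of `-1` and
negate a square root of `-3`.  Then outside any finite set `S` there is a prime `r ≡ 7 mod 12`
and an integer `t₁` with `r ∣ P(t₁)` and `r ∤ Q(t₁)`. -/
theorem h19g_exists_aux_prime (P Q : ℤ[X]) (t : AlgebraicClosure ℚ) (hP0 : P ≠ 0)
    (hP : aeval t P = 0) (hQ : aeval t Q ≠ 0) (hct : complexConjugation t = t)
    (τ : AlgebraicClosure ℚ ≃ₐ[ℚ] AlgebraicClosure ℚ) (hτt : τ t = t)
    (hτi : ∃ i : AlgebraicClosure ℚ, i ^ 2 = -1 ∧ τ i = i)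
    (hτs : ∃ s : AlgebraicClosure ℚ, s ^ 2 = -3 ∧ τ s = -s) (S : Finset ℕ) :
    ∃ r : ℕ, r.Prime ∧ r ∉ S ∧ r % 12 = 7 ∧
      ∃ t1 : ℤ, (r : ℤ) ∣ P.eval t1 ∧ ¬ (r : ℤ) ∣ Q.eval t1 := by
  obtain ⟨I0, hI, hτI⟩ := hτi
  obtain ⟨s, hs, hτs'⟩ := hτs
  have hcI : complexConjugation I0 = -I0 :=
    h19g_conj_of_sq_neg I0 1 one_pos (by rw [hI, map_one])
  have hcs : complexConjugation s = -s :=
    h19g_conj_of_sq_neg s 3 (by norm_num) (by rw [hs, map_ofNat])
  refine h19g_exists_aux_prime_of P Q t I0 s hP0 hP hQ hI hs (complexConjugation * τ) ?_ ?_ ?_ S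
  · rw [AlgEquiv.mul_apply, hτt, hct]
  · rw [AlgEquiv.mul_apply, hτI, hcI]
  · rw [AlgEquiv.mul_apply, hτs', map_neg, hcs, neg_neg]

/-- Variant of `h19g_exists_aux_prime` where `τ` is assumed to fix *every* square root of
`-1`. -/
theorem h19g_exists_aux_prime' (P Q : ℤ[X]) (t : AlgebraicClosure ℚ) (hP0 : P ≠ 0)
    (hP : aeval t P = 0) (hQ : aeval t Q ≠ 0) (hct : complexConjugation t = t)
    (τ : AlgebraicClosure ℚ ≃ₐ[ℚ] AlgebraicClosure ℚ) (hτt : τ t = t)
    (hτi : ∀ i : AlgebraicClosure ℚ, i ^ 2 = -1 → τ i = i)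
    (hτs : ∃ s : AlgebraicClosure ℚ, s ^ 2 = -3 ∧ τ s = -s) (S : Finset ℕ) :
    ∃ r : ℕ, r.Prime ∧ r ∉ S ∧ r % 12 = 7 ∧
      ∃ t1 : ℤ, (r : ℤ) ∣ P.eval t1 ∧ ¬ (r : ℤ) ∣ Q.eval t1 := by
  obtain ⟨I0, hI⟩ := IsAlgClosed.exists_pow_nat_eq (-1 : AlgebraicClosure ℚ) (n := 2) two_pos
  exact h19g_exists_aux_prime P Q t hP0 hP hQ hct τ hτt ⟨I0, hI, hτi I0 hI⟩ hτs S

end Main

end Fermat.Agent.S52
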