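import Fermat.Agent.S52.Skeleton2
import Fermat.Agent.S52.H19Galois

/-!
# S52, interface COPRIME

On the integral points of the covariant line `w_m = w₀ + m (f_v, -f_u)(w₀)` through a base point
`w₀` of the integers `(A, B)` (`H(w₀) = -A`, `T(w₀) = -B`), the values of `H` and `T` have no
common prime factor outside `30 (A³ - B²)`.

Proof.  Let `𝔄` be a valuation subring of `ℚ̄` over `p ∤ 30`, with residue field `κ`.
* `u₀, v₀ ∈ 𝔄`: otherwise, after scaling by the inverse of the larger coordinate, the residues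
  form a common zero `≠ (0, 0)` of `H` and `T` over `κ`, which does not exist.
* If `p ∣ H(w_m)` and `p ∣ T(w_m)`, the residue of `w_m` is a common zero, hence `(0, 0)`; by
  Euler's identity `12 f(w₀) = u_m f_u(w₀) + v_m f_v(w₀)` the residue of `f(w₀)` vanishes, and
  so does that of `1728 f(w₀)⁵ = B² - A³`.
-/

set_option autoImplicit false

namespace Fermat.Agent.S52

/-! ### Common zeros of `H` and `T` over a field -/

section Field

variable {κ : Type*} [Field κ]

/-- Over a field in which `2`, `3`, `5` are invertible, `H` and `T` have no common zero except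
`(0, 0)`. -/
theorem h19cp_HT_zero (h2 : (2 : κ) ≠ 0) (h3 : (3 : κ) ≠ 0) (h5 : (5 : κ) ≠ 0) {u v : κ}
    (hH : h42rr_H u v = 0) (hT : h42rr_T u v = 0) : u = 0 ∧ v = 0 := by
  have h1728 : (1728 : κ) ≠ 0 := by
    have : (1728 : κ) = 2 ^ 6 * 3 ^ 3 := by norm_num
    rw [this]
    exact mul_ne_zero (pow_ne_zero _ h2) (pow_ne_zero _ h3)
  have hf : h42rr_f u v = 0 := by
    have hrel := h42rr_klein_rel u v
    rw [hH, hT] at hrel
    have h0 : (1728 : κ) * h42rr_f u v ^ 5 = 0 := by rw [← hrel]; ring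
    rcases mul_eq_zero.mp h0 with h | h
    · exact absurd h h1728
    · exact pow_eq_zero_iff (by norm_num) |>.mp h
  have hv : v = 0 := by
    by_contra hv
    have e1 : h42rr_f (v * (u / v)) (v * 1) = v ^ 12 * h42rr_f (u / v) 1 := h42rr_f_smul _ _ _
    have e2 : h42rr_H (v * (u / v)) (v * 1) = v ^ 20 * h42rr_H (u / v) 1 := h42rr_H_smul _ _ _
    rw [mul_div_cancel₀ u hv, mul_one, hf] at e1
    rw [mul_div_cancel₀ u hv, mul_one, hH] at e2
    have hf1 : h42rr_f (u / v) 1 = 0 := by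
      rcases mul_eq_zero.mp e1.symm with h | h
      · exact absurd (pow_eq_zero_iff (by norm_num) |>.mp h) hv
      · exact h
    have hH1 : h42rr_H (u / v) 1 = 0 := by
      rcases mul_eq_zero.mp e2.symm with h | h
      · exact absurd (pow_eq_zero_iff (by norm_num) |>.mp h) hv
      · exact h
    exact h42rr_no_common_zero h5 _ hf1 hH1
  refine ⟨?_, hv⟩
  rw [hv] at hH
  unfold h42rr_H at hH
  have : u ^ 20 = 0 := by linear_combination -hH
  exact pow_eq_zero_iff (by norm_num) |>.mp this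

/-- The algebraic core of COPRIME over a field: if the point `w_m` of the covariant line through
`w` is a common zero of `H` and `T`, then `T(w)² + H(w)³ = 0`. -/
theorem h19cp_core (h2 : (2 : κ) ≠ 0) (h3 : (3 : κ) ≠ 0) (h5 : (5 : κ) ≠ 0) (u v m : κ)
    (hH : h42rr_H (u + m * h42rr_fv u v) (v + m * -h42rr_fu u v) = 0)
    (hT : h42rr_T (u + m * h42rr_fv u v) (v + m * -h42rr_fu u v) = 0) :
    h42rr_T u v ^ 2 + h42rr_H u v ^ 3 = 0 := by
  obtain ⟨hu, hv⟩ := h19cp_HT_zero h2 h3 h5 hH hT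
  have heul := h42rr_euler u v
  have h12 : (12 : κ) * h42rr_f u v = 0 := by
    rw [← heul]
    linear_combination h42rr_fu u v * hu + h42rr_fv u v * hv
  have h12' : (12 : κ) ≠ 0 := by
    have : (12 : κ) = 2 ^ 2 * 3 := by norm_num
    rw [this]
    exact mul_ne_zero (pow_ne_zero _ h2) h3
  have hf : h42rr_f u v = 0 := by
    rcases mul_eq_zero.mp h12 with h | h
    · exact absurd h h12'
    · exact h
  rw [h42rr_klein_rel, hf]
  ring

end Field

/-! ### Integrality of base points -/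

section Local

variable {L : Type*} [Field L] (A : ValuationSubring L)

/-- The coercion of `H` computed in the valuation subring. -/
theorem h19cp_coe_H (x y : A) : ((h42rr_H x y : A) : L) = h42rr_H (x : L) (y : L) :=
  h42rr_H_map A.subtype x y

/-- The coercion of `T` computed in the valuation subring. -/
theorem h19cp_coe_T (x y : A) : ((h42rr_T x y : A) : L) = h42rr_T (x : L) (y : L) :=
  h42rr_T_map A.subtype x y

/-- The coercion of `f_u` computed in the valuation subring. -/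
theorem h19cp_coe_fu (x y : A) : ((h42rr_fu x y : A) : L) = h42rr_fu (x : L) (y : L) :=
  h42rr_fu_map A.subtype x y

/-- The coercion of `f_v` computed in the valuation subring. -/
theorem h19cp_coe_fv (x y : A) : ((h42rr_fv x y : A) : L) = h42rr_fv (x : L) (y : L) :=
  h42rr_fv_map A.subtype x y

/-- Scaling lemma: if `c` lies in the maximal ideal, `c u` and `c v` are integral and `H(u, v)`,
`T(u, v)` are integral, then `c u` and `c v` lie in the maximal ideal. -/
theorem h19cp_scaled_mem_nonunits (h2 : (2 : IsLocalRing.ResidueField A) ≠ 0)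
    (h3 : (3 : IsLocalRing.ResidueField A) ≠ 0) (h5 : (5 : IsLocalRing.ResidueField A) ≠ 0)
    {c u v : L} (hc : c ∈ A.nonunits) (hu : c * u ∈ A) (hv : c * v ∈ A)
    (hH : h42rr_H u v ∈ A) (hT : h42rr_T u v ∈ A) :
    c * u ∈ A.nonunits ∧ c * v ∈ A.nonunits := by
  obtain ⟨hcA, hcm⟩ := (ValuationSubring.mem_nonunits_iff_exists_mem_maximalIdeal).mp hc
  have hρc : IsLocalRing.residue A ⟨c, hcA⟩ = 0 := (IsLocalRing.residue_eq_zero_iff _).mpr hcm
  set x : A := ⟨c * u, hu⟩ with hx
  set y : A := ⟨c * v, hv⟩ with hy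
  have eH : h42rr_H x y = (⟨c, hcA⟩ : A) ^ 20 * ⟨h42rr_H u v, hH⟩ := by
    apply Subtype.ext
    rw [h19cp_coe_H]
    show h42rr_H (c * u) (c * v) = c ^ 20 * h42rr_H u v
    exact h42rr_H_smul c u v
  have eT : h42rr_T x y = (⟨c, hcA⟩ : A) ^ 30 * ⟨h42rr_T u v, hT⟩ := by
    apply Subtype.ext
    rw [h19cp_coe_T]
    show h42rr_T (c * u) (c * v) = c ^ 30 * h42rr_T u v
    exact h42rr_T_smul c u v
  have hH0 : h42rr_H (IsLocalRing.residue A x) (IsLocalRing.residue A y) = 0 := by
    rw [← h42rr_H_map, eH, map_mul, map_pow, hρc]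
    simp
  have hT0 : h42rr_T (IsLocalRing.residue A x) (IsLocalRing.residue A y) = 0 := by
    rw [← h42rr_T_map, eT, map_mul, map_pow, hρc]
    simp
  obtain ⟨h1, h2'⟩ := h19cp_HT_zero h2 h3 h5 hH0 hT0
  rw [IsLocalRing.residue_eq_zero_iff] at h1 h2'
  exact ⟨(ValuationSubring.mem_nonunits_iff_exists_mem_maximalIdeal).mpr ⟨hu, h1⟩,
    (ValuationSubring.mem_nonunits_iff_exists_mem_maximalIdeal).mpr ⟨hv, h2'⟩⟩

/-- `1` is not in the maximal ideal. -/
theorem h19cp_one_not_mem_nonunits : (1 : L) ∉ A.nonunits := by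
  rw [ValuationSubring.mem_nonunits_iff, map_one]
  exact lt_irrefl _

/-- One half of the integrality lemma: if `v` is not larger than `u` and `H(u, v)`, `T(u, v)`
are integral then `u` and `v` are integral. -/
theorem h19cp_mem_aux {u v : L} (hle : A.valuation v ≤ A.valuation u)
    (hHT : ∀ c : L, c ∈ A.nonunits → c * u ∈ A → c * v ∈ A →
      c * u ∈ A.nonunits ∧ c * v ∈ A.nonunits) :
    u ∈ A ∧ v ∈ A := by
  by_cases hu : u ∈ A
  · exact ⟨hu, (A.valuation_le_one_iff v).mp (hle.trans ((A.valuation_le_one_iff u).mpr hu))⟩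
  · exfalso
    have hu0 : u ≠ 0 := fun h => hu (h ▸ zero_mem A)
    have hvu : 1 < A.valuation u := by
      rw [← not_le, A.valuation_le_one_iff]; exact hu
    have hvu0 : A.valuation u ≠ 0 := (A.valuation.ne_zero_iff).mpr hu0
    have hc : u⁻¹ ∈ A.nonunits := by
      rw [ValuationSubring.mem_nonunits_iff, map_inv₀]
      exact inv_lt_one_of_one_lt₀ hvu
    have h1 : u⁻¹ * u ∈ A := by rw [inv_mul_cancel₀ hu0]; exact one_mem A
    have h2' : u⁻¹ * v ∈ A := by
      rw [← A.valuation_le_one_iff, map_mul, map_inv₀]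
      calc (A.valuation u)⁻¹ * A.valuation v ≤ (A.valuation u)⁻¹ * A.valuation u :=
            by gcongr
        _ = 1 := inv_mul_cancel₀ hvu0
    obtain ⟨h3', -⟩ := hHT _ hc h1 h2'
    rw [inv_mul_cancel₀ hu0] at h3'
    exact h19cp_one_not_mem_nonunits A h3'

/-- **Integrality of base points.**  If `H(u, v)` and `T(u, v)` lie in a valuation subring whose
residue characteristic is not `2`, `3`, `5`, then so do `u` and `v`. -/
theorem h19cp_mem (h2 : (2 : IsLocalRing.ResidueField A) ≠ 0)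
    (h3 : (3 : IsLocalRing.ResidueField A) ≠ 0) (h5 : (5 : IsLocalRing.ResidueField A) ≠ 0)
    {u v : L} (hH : h42rr_H u v ∈ A) (hT : h42rr_T u v ∈ A) : u ∈ A ∧ v ∈ A := by
  rcases le_total (A.valuation v) (A.valuation u) with hle | hle
  · exact h19cp_mem_aux A hle
      (fun c hc hu hv => h19cp_scaled_mem_nonunits A h2 h3 h5 hc hu hv hH hT)
  · have := h19cp_mem_aux A (u := v) (v := u) hle
      (fun c hc hv hu => (h19cp_scaled_mem_nonunits A h2 h3 h5 hc hu hv hH hT).symm)
    exact ⟨this.2, this.1⟩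

end Local

/-! ### The interface -/

/-- **(COPRIME)** -/
theorem ifaceCoprime : IfaceCoprime := by
  intro A B u₀ v₀ hH0 hT0 p hp hpn m a b hHa hTb hab
  obtain ⟨hpa, hpb⟩ := hab
  obtain ⟨𝔄, h𝔄⟩ := Fermat.Agent.S54.exists_liesOverPrime hp
  have hchar : CharP (IsLocalRing.ResidueField 𝔄) p := h19g_charP hp h𝔄
  -- integers prime to `p` are nonzero in the residue field
  have hne : ∀ n : ℤ, n ∣ 30 → ((n : ℤ) : IsLocalRing.ResidueField 𝔄) ≠ 0 := by
    intro n hn h0
    rw [CharP.intCast_eq_zero_iff (IsLocalRing.ResidueField 𝔄) p] at h0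
    exact hpn (Dvd.dvd.mul_right (h0.trans hn) _)
  have h2 : (2 : IsLocalRing.ResidueField 𝔄) ≠ 0 := by
    have := hne 2 (by norm_num)
    exact_mod_cast this
  have h3 : (3 : IsLocalRing.ResidueField 𝔄) ≠ 0 := by
    have := hne 3 (by norm_num)
    exact_mod_cast this
  have h5 : (5 : IsLocalRing.ResidueField 𝔄) ≠ 0 := by
    have := hne 5 (by norm_num)
    exact_mod_cast this
  -- the base point is integral
  have hHmem : h42rr_H u₀ v₀ ∈ 𝔄 := by
    rw [hH0]; exact neg_mem (intCast_mem 𝔄 A)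
  have hTmem : h42rr_T u₀ v₀ ∈ 𝔄 := by
    rw [hT0]; exact neg_mem (intCast_mem 𝔄 B)
  obtain ⟨hu, hv⟩ := h19cp_mem 𝔄 h2 h3 h5 hHmem hTmem
  set x : 𝔄 := ⟨u₀, hu⟩ with hx
  set y : 𝔄 := ⟨v₀, hv⟩ with hy
  -- the identities inside the valuation ring
  have eH0 : h42rr_H x y = -(A : 𝔄) := by
    apply Subtype.ext
    rw [h19cp_coe_H]
    push_cast
    exact hH0
  have eT0 : h42rr_T x y = -(B : 𝔄) := by
    apply Subtype.ext
    rw [h19cp_coe_T]
    push_cast
    exact hT0
  have eHa : h42rr_H (x + m * h42rr_fv x y) (y + m * -h42rr_fu x y) = (a : 𝔄) := by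
    apply Subtype.ext
    rw [h19cp_coe_H]
    push_cast
    rw [h19cp_coe_fv, h19cp_coe_fu]
    exact hHa
  have eTb : h42rr_T (x + m * h42rr_fv x y) (y + m * -h42rr_fu x y) = (b : 𝔄) := by
    apply Subtype.ext
    rw [h19cp_coe_T]
    push_cast
    rw [h19cp_coe_fv, h19cp_coe_fu]
    exact hTb
  -- reduce to the residue field
  set ρ := IsLocalRing.residue 𝔄 with hρ
  have ha0 : ((a : ℤ) : IsLocalRing.ResidueField 𝔄) = 0 :=
    (CharP.intCast_eq_zero_iff (IsLocalRing.ResidueField 𝔄) p a).mpr hpa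
  have hb0 : ((b : ℤ) : IsLocalRing.ResidueField 𝔄) = 0 :=
    (CharP.intCast_eq_zero_iff (IsLocalRing.ResidueField 𝔄) p b).mpr hpb
  have rH : h42rr_H (ρ x + (m : IsLocalRing.ResidueField 𝔄) * h42rr_fv (ρ x) (ρ y))
      (ρ y + (m : IsLocalRing.ResidueField 𝔄) * -h42rr_fu (ρ x) (ρ y)) = 0 := by
    have := congrArg ρ eHa
    rw [h42rr_H_map, map_add, map_add, map_mul, map_mul, map_neg, h42rr_fv_map, h42rr_fu_map,
      map_intCast, map_intCast, ha0] at this
    exact this
  have rT : h42rr_T (ρ x + (m : IsLocalRing.ResidueField 𝔄) * h42rr_fv (ρ x) (ρ y))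
      (ρ y + (m : IsLocalRing.ResidueField 𝔄) * -h42rr_fu (ρ x) (ρ y)) = 0 := by
    have := congrArg ρ eTb
    rw [h42rr_T_map, map_add, map_add, map_mul, map_mul, map_neg, h42rr_fv_map, h42rr_fu_map,
      map_intCast, map_intCast, hb0] at this
    exact this
  have hcore := h19cp_core h2 h3 h5 (ρ x) (ρ y) (m : IsLocalRing.ResidueField 𝔄) rH rT
  rw [← h42rr_T_map, ← h42rr_H_map, eH0, eT0, map_neg, map_neg, map_intCast, map_intCast]
    at hcore
  have hAB : (((A ^ 3 - B ^ 2 : ℤ) : ℤ) : IsLocalRing.ResidueField 𝔄) = 0 := by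
    push_cast
    linear_combination -hcore
  rw [CharP.intCast_eq_zero_iff (IsLocalRing.ResidueField 𝔄) p] at hAB
  exact hpn (Dvd.dvd.mul_left hAB _)

end Fermat.Agent.S52
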