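import Mathlib
import Fermat.Prelude.Def_GaloisRep_ComplexConjugation

/-!
# S52, step (C3)(i): real points of the icosahedral line

Klein's icosahedral forms `f` (degree 12), `H` (degree 20), `T` (degree 30) with
`T ^ 2 + H ^ 3 = 1728 * f ^ 5`.  We prove, by the intermediate value theorem on explicit
polynomials, that for all real `a > 0` and `b` the form `a * H ^ 3 + b * T ^ 2` has a real
zero `(z, 1)` at which `T` and `H` do not vanish, and we transfer the statement to
`AlgebraicClosure ℚ` with the Prelude's complex conjugation.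
-/

set_option autoImplicit false

namespace Fermat.Agent.S52

/-- Klein's form of degree 12. -/
def h42rr_f {R : Type*} [CommRing R] (u v : R) : R :=
  u * v * (u ^ 10 + 11 * u ^ 5 * v ^ 5 - v ^ 10)

/-- Klein's form of degree 20. -/
def h42rr_H {R : Type*} [CommRing R] (u v : R) : R :=
  -(u ^ 20 + v ^ 20) + 228 * (u ^ 15 * v ^ 5 - u ^ 5 * v ^ 15) - 494 * u ^ 10 * v ^ 10

/-- Klein's form of degree 30. -/
def h42rr_T {R : Type*} [CommRing R] (u v : R) : R :=
  u ^ 30 + v ^ 30 + 522 * (u ^ 25 * v ^ 5 - u ^ 5 * v ^ 25)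
    - 10005 * (u ^ 20 * v ^ 10 + u ^ 10 * v ^ 20)

theorem h42rr_klein_rel {R : Type*} [CommRing R] (u v : R) :
    h42rr_T u v ^ 2 + h42rr_H u v ^ 3 = 1728 * h42rr_f u v ^ 5 := by
  unfold h42rr_T h42rr_H h42rr_f
  ring

theorem h42rr_f_smul {R : Type*} [CommRing R] (c u v : R) :
    h42rr_f (c * u) (c * v) = c ^ 12 * h42rr_f u v := by
  unfold h42rr_f; ring

theorem h42rr_H_smul {R : Type*} [CommRing R] (c u v : R) :
    h42rr_H (c * u) (c * v) = c ^ 20 * h42rr_H u v := by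
  unfold h42rr_H; ring

theorem h42rr_T_smul {R : Type*} [CommRing R] (c u v : R) :
    h42rr_T (c * u) (c * v) = c ^ 30 * h42rr_T u v := by
  unfold h42rr_T; ring

theorem h42rr_f_map {R S F : Type*} [CommRing R] [CommRing S] [FunLike F R S]
    [RingHomClass F R S] (φ : F) (u v : R) :
    φ (h42rr_f u v) = h42rr_f (φ u) (φ v) := by
  simp [h42rr_f, map_ofNat]

theorem h42rr_H_map {R S F : Type*} [CommRing R] [CommRing S] [FunLike F R S]
    [RingHomClass F R S] (φ : F) (u v : R) :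
    φ (h42rr_H u v) = h42rr_H (φ u) (φ v) := by
  simp [h42rr_H, map_ofNat]

theorem h42rr_T_map {R S F : Type*} [CommRing R] [CommRing S] [FunLike F R S]
    [RingHomClass F R S] (φ : F) (u v : R) :
    φ (h42rr_T u v) = h42rr_T (φ u) (φ v) := by
  simp [h42rr_T, map_ofNat]

/-- `f` and `H` have no common zero `(z, 1)` (in characteristic different from `5`). -/
theorem h42rr_no_common_zero {K : Type*} [Field K] (h5 : (5 : K) ≠ 0) (z : K)
    (hf : h42rr_f z 1 = 0) (hH : h42rr_H z 1 = 0) : False := by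
  unfold h42rr_f at hf
  unfold h42rr_H at hH
  have h3125 : (3125 : K) ≠ 0 := by
    have : (3125 : K) = 5 ^ 5 := by norm_num
    rw [this]; exact pow_ne_zero _ h5
  rcases mul_eq_zero.mp hf with hz | hq
  · rcases mul_eq_zero.mp hz with hz | h1
    · subst hz
      norm_num at hH
    · exact one_ne_zero h1
  · apply h3125
    linear_combination
      (3125 * 121 + (-z ^ 10 + 239 * z ^ 5 - 3124) * (11 * z ^ 5 + 122)) * hq
        - (11 * z ^ 5 + 122) * hH

/-! ### Real analysis -/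

theorem h42rr_continuous_T : Continuous (fun z : ℝ => h42rr_T z 1) := by
  unfold h42rr_T; fun_prop

theorem h42rr_continuous_H : Continuous (fun z : ℝ => h42rr_H z 1) := by
  unfold h42rr_H; fun_prop

/-- A real zero of `T` in `(1/4, 1/2)`; there `f < 0`. -/
theorem h42rr_exists_zm :
    ∃ z : ℝ, 1 / 4 < z ∧ z < 1 / 2 ∧ h42rr_T z 1 = 0 ∧ h42rr_f z 1 < 0 := by
  have hcont : ContinuousOn (fun z : ℝ => h42rr_T z 1) (Set.Icc (1 / 4 : ℝ) (1 / 2)) :=
    h42rr_continuous_T.continuousOn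
  have h0 : (0 : ℝ) ∈ Set.Ioo (h42rr_T (1 / 2 : ℝ) 1) (h42rr_T (1 / 4 : ℝ) 1) := by
    constructor <;> (unfold h42rr_T; norm_num)
  obtain ⟨z, ⟨hz1, hz2⟩, hz⟩ := intermediate_value_Ioo' (by norm_num) hcont h0
  refine ⟨z, hz1, hz2, hz, ?_⟩
  have hzpos : 0 < z := by linarith
  have h5 : z ^ 5 < (1 / 2 : ℝ) ^ 5 := pow_lt_pow_left₀ hz2 hzpos.le (by norm_num)
  have h10 : z ^ 10 < (1 / 2 : ℝ) ^ 10 := pow_lt_pow_left₀ hz2 hzpos.le (by norm_num)
  unfold h42rr_f
  have hneg : z ^ 10 + 11 * z ^ 5 * 1 ^ 5 - 1 ^ 10 < 0 := by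
    norm_num at h5 h10 ⊢
    linarith
  have : z * 1 * (z ^ 10 + 11 * z ^ 5 * 1 ^ 5 - 1 ^ 10) < 0 :=
    mul_neg_of_pos_of_neg (by linarith) hneg
  exact this

/-- A real zero of `T` in `(1, 2)`; there `f > 0`. -/
theorem h42rr_exists_zp :
    ∃ z : ℝ, 1 < z ∧ z < 2 ∧ h42rr_T z 1 = 0 ∧ 0 < h42rr_f z 1 := by
  have hcont : ContinuousOn (fun z : ℝ => h42rr_T z 1) (Set.Icc (1 : ℝ) 2) :=
    h42rr_continuous_T.continuousOn
  have h0 : (0 : ℝ) ∈ Set.Ioo (h42rr_T (1 : ℝ) 1) (h42rr_T (2 : ℝ) 1) := by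
    constructor <;> (unfold h42rr_T; norm_num)
  obtain ⟨z, ⟨hz1, hz2⟩, hz⟩ := intermediate_value_Ioo (by norm_num) hcont h0
  refine ⟨z, hz1, hz2, hz, ?_⟩
  have hzpos : 0 < z := by linarith
  have h5 : (1 : ℝ) < z ^ 5 := one_lt_pow₀ hz1 (by norm_num)
  have h10 : (1 : ℝ) < z ^ 10 := one_lt_pow₀ hz1 (by norm_num)
  unfold h42rr_f
  have hpos : 0 < z ^ 10 + 11 * z ^ 5 * 1 ^ 5 - 1 ^ 10 := by
    norm_num
    linarith
  have : 0 < z * 1 * (z ^ 10 + 11 * z ^ 5 * 1 ^ 5 - 1 ^ 10) :=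
    mul_pos (by linarith) hpos
  exact this

/-- **Real points with prescribed ratio `H ^ 3 : T ^ 2`.**  For all real `a > 0` and `b`
there is a real `z` with `a * H(z,1) ^ 3 + b * T(z,1) ^ 2 = 0`; automatically
`T(z,1) ≠ 0`. -/
theorem h42rr_exists_real (a b : ℝ) (ha : 0 < a) :
    ∃ z : ℝ, a * h42rr_H z 1 ^ 3 + b * h42rr_T z 1 ^ 2 = 0 ∧ h42rr_T z 1 ≠ 0 := by
  obtain ⟨zm, -, hzm2, hTm, hfm⟩ := h42rr_exists_zm
  obtain ⟨zp, hzp1, -, hTp, hfp⟩ := h42rr_exists_zp
  have hle : zm ≤ zp := by linarith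
  have hcont : ContinuousOn (fun z : ℝ => a * h42rr_H z 1 ^ 3 + b * h42rr_T z 1 ^ 2)
      (Set.Icc zm zp) := by
    have hT := h42rr_continuous_T
    have hH := h42rr_continuous_H
    exact (by fun_prop : Continuous
      (fun z : ℝ => a * h42rr_H z 1 ^ 3 + b * h42rr_T z 1 ^ 2)).continuousOn
  have hHm : h42rr_H zm 1 ^ 3 = 1728 * h42rr_f zm 1 ^ 5 := by
    have := h42rr_klein_rel zm (1 : ℝ)
    rw [hTm] at this
    linear_combination this
  have hHp : h42rr_H zp 1 ^ 3 = 1728 * h42rr_f zp 1 ^ 5 := by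
    have := h42rr_klein_rel zp (1 : ℝ)
    rw [hTp] at this
    linear_combination this
  have hm : a * h42rr_H zm 1 ^ 3 + b * h42rr_T zm 1 ^ 2 < 0 := by
    rw [hTm, hHm]
    have h5 : h42rr_f zm 1 ^ 5 < 0 := Odd.pow_neg (by decide) hfm
    nlinarith [mul_pos ha (neg_pos.mpr h5)]
  have hp : 0 < a * h42rr_H zp 1 ^ 3 + b * h42rr_T zp 1 ^ 2 := by
    rw [hTp, hHp]
    have h5 : 0 < h42rr_f zp 1 ^ 5 := pow_pos hfp 5
    nlinarith [mul_pos ha h5]
  obtain ⟨z, -, hz⟩ := intermediate_value_Ioo hle hcont ⟨hm, hp⟩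
  refine ⟨z, hz, ?_⟩
  intro hT
  have hz' : a * h42rr_H z 1 ^ 3 + b * h42rr_T z 1 ^ 2 = 0 := hz
  rw [hT] at hz'
  have hH3 : h42rr_H z 1 ^ 3 = 0 := by
    have : a * h42rr_H z 1 ^ 3 = 0 := by linear_combination hz'
    rcases mul_eq_zero.mp this with h | h
    · exact absurd h ha.ne'
    · exact h
  have hH : h42rr_H z 1 = 0 := pow_eq_zero_iff (by norm_num) |>.mp hH3
  have hf5 : h42rr_f z 1 ^ 5 = 0 := by
    have := h42rr_klein_rel z (1 : ℝ)
    rw [hT, hH] at this
    linear_combination -this / 1728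
  have hf : h42rr_f z 1 = 0 := pow_eq_zero_iff (by norm_num) |>.mp hf5
  exact h42rr_no_common_zero (by norm_num) z hf hH

/-! ### Transfer to `AlgebraicClosure ℚ` -/

open Polynomial in
/-- Every complex root of a nonzero rational polynomial is in the range of the Prelude's
`complexEmbedding`. -/
theorem h42rr_exists_preimage (p : ℚ[X]) (hp : p ≠ 0) (x : ℂ) (hx : aeval x p = 0) :
    ∃ y : AlgebraicClosure ℚ, complexEmbedding y = x := by
  have hsplit : (p.map (algebraMap ℚ (AlgebraicClosure ℚ))).Splits :=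
    IsAlgClosed.splits _
  have hne : p.map (algebraMap ℚ (AlgebraicClosure ℚ)) ≠ 0 :=
    (Polynomial.map_ne_zero_iff (algebraMap ℚ (AlgebraicClosure ℚ)).injective).mpr hp
  have hroot : ((p.map (algebraMap ℚ (AlgebraicClosure ℚ))).map
      (complexEmbedding : AlgebraicClosure ℚ →+* ℂ)).IsRoot x := by
    rw [Polynomial.map_map]
    have hcomp : (complexEmbedding : AlgebraicClosure ℚ →+* ℂ).comp
        (algebraMap ℚ (AlgebraicClosure ℚ)) = algebraMap ℚ ℂ := by
      ext q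
      simp
    rw [hcomp, IsRoot.def, eval_map_algebraMap]
    exact hx
  obtain ⟨y, hy⟩ := hsplit.mem_range_of_isRoot hne hroot
  exact ⟨y, hy⟩

/-- An element of `AlgebraicClosure ℚ` with real image is fixed by complex conjugation. -/
theorem h42rr_fixed_of_real (y : AlgebraicClosure ℚ) (x : ℝ)
    (hy : complexEmbedding y = (x : ℂ)) : complexConjugation y = y := by
  apply complexEmbedding.toRingHom.injective
  change complexEmbedding (complexConjugation y) = complexEmbedding y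
  rw [complexEmbedding_complexConjugation, hy, Complex.conj_ofReal]

open Polynomial in
/-- Every real root of a nonzero rational polynomial comes from an element of
`AlgebraicClosure ℚ` fixed by complex conjugation. -/
theorem h42rr_exists_fixed_of_real_root (p : ℚ[X]) (hp : p ≠ 0) (x : ℝ)
    (hx : aeval x p = 0) :
    ∃ y : AlgebraicClosure ℚ, complexEmbedding y = (x : ℂ) ∧ complexConjugation y = y := by
  have hx' : aeval (x : ℂ) p = 0 := by
    have := congrArg (algebraMap ℝ ℂ) hx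
    rw [← Polynomial.aeval_algebraMap_apply, map_zero] at this
    exact this
  obtain ⟨y, hy⟩ := h42rr_exists_preimage p hp (x : ℂ) hx'
  exact ⟨y, hy, h42rr_fixed_of_real y x hy⟩

/-- Two distinct zeros `(z, 1)` of `T` in `AlgebraicClosure ℚ`, both fixed by complex
conjugation. -/
theorem h42rr_exists_fixed_roots :
    ∃ zm zp : AlgebraicClosure ℚ, zm ≠ zp ∧
      complexConjugation zm = zm ∧ complexConjugation zp = zp ∧
      h42rr_T zm 1 = 0 ∧ h42rr_T zp 1 = 0 := by
  obtain ⟨xm, -, hxm2, hTm, -⟩ := h42rr_exists_zm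
  obtain ⟨xp, hxp1, -, hTp, -⟩ := h42rr_exists_zp
  have hP : (h42rr_T (Polynomial.X : Polynomial ℚ) 1) ≠ 0 := by
    intro h
    have h1 : Polynomial.aeval (0 : ℝ) (h42rr_T (Polynomial.X : Polynomial ℚ) 1) = 0 := by
      rw [h, map_zero]
    rw [h42rr_T_map] at h1
    simp [h42rr_T] at h1
  have haev : ∀ x : ℝ, Polynomial.aeval x (h42rr_T (Polynomial.X : Polynomial ℚ) 1)
      = h42rr_T x 1 := by
    intro x
    rw [h42rr_T_map]
    simp
  obtain ⟨zm, hzm, hcm⟩ := h42rr_exists_fixed_of_real_root _ hP xm (by rw [haev, hTm])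
  obtain ⟨zp, hzp, hcp⟩ := h42rr_exists_fixed_of_real_root _ hP xp (by rw [haev, hTp])
  have hinj := complexEmbedding.toRingHom.injective
  refine ⟨zm, zp, ?_, hcm, hcp, ?_, ?_⟩
  · intro h
    rw [h, hzp] at hzm
    have : xp = xm := by exact_mod_cast hzm
    linarith
  · apply hinj
    change complexEmbedding (h42rr_T zm 1) = complexEmbedding 0
    rw [h42rr_T_map, map_zero, hzm, map_one]
    have := congrArg (algebraMap ℝ ℂ) hTm
    rw [h42rr_T_map, map_zero, map_one] at this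
    exact this
  · apply hinj
    change complexEmbedding (h42rr_T zp 1) = complexEmbedding 0
    rw [h42rr_T_map, map_zero, hzp, map_one]
    have := congrArg (algebraMap ℝ ℂ) hTp
    rw [h42rr_T_map, map_zero, map_one] at this
    exact this

/-- **Base point with real ratio.**  For nonzero rationals `A`, `B` there is a point
`(u0, v0)` of `AlgebraicClosure ℚ` with `H(u0, v0) = A`, `T(u0, v0) = B` on which complex
conjugation acts by a scalar `lam` with `lam ^ 10 = 1`.  (Then `1728 f(u0,v0)^5 = B^2 + A^3`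
by `h42rr_klein_rel`.) -/
theorem h42rr_exists_base (A B : ℚ) (hA : A ≠ 0) (hB : B ≠ 0) :
    ∃ u0 v0 lam : AlgebraicClosure ℚ,
      h42rr_H u0 v0 = (A : AlgebraicClosure ℚ) ∧ h42rr_T u0 v0 = (B : AlgebraicClosure ℚ) ∧
      lam ^ 10 = 1 ∧ complexConjugation u0 = lam * u0 ∧ complexConjugation v0 = lam * v0 := by
  have ha : (0 : ℝ) < (B : ℝ) ^ 2 := by positivity
  obtain ⟨x, hx, hTx⟩ := h42rr_exists_real ((B : ℝ) ^ 2) (-(A : ℝ) ^ 3) ha
  -- the polynomial
  set P : Polynomial ℚ := Polynomial.C (B ^ 2) * h42rr_H (Polynomial.X : Polynomial ℚ) 1 ^ 3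
    + Polynomial.C (-A ^ 3) * h42rr_T (Polynomial.X : Polynomial ℚ) 1 ^ 2 with hPdef
  have haev : ∀ y : ℝ, Polynomial.aeval y P
      = (B : ℝ) ^ 2 * h42rr_H y 1 ^ 3 + (-(A : ℝ) ^ 3) * h42rr_T y 1 ^ 2 := by
    intro y
    rw [hPdef]
    simp only [map_add, map_mul, map_pow, Polynomial.aeval_C, h42rr_H_map, h42rr_T_map,
      Polynomial.aeval_X, map_one, map_neg]
    simp
  have hP : P ≠ 0 := by
    intro h
    obtain ⟨xp, -, -, hTp, hfp⟩ := h42rr_exists_zp
    have h1 : Polynomial.aeval xp P = 0 := by rw [h, map_zero]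
    rw [haev, hTp] at h1
    have hHp : h42rr_H xp 1 ^ 3 = 1728 * h42rr_f xp 1 ^ 5 := by
      have := h42rr_klein_rel xp (1 : ℝ)
      rw [hTp] at this
      linear_combination this
    rw [hHp] at h1
    have h5 : 0 < h42rr_f xp 1 ^ 5 := pow_pos hfp 5
    nlinarith [mul_pos ha h5]
  obtain ⟨z0, hz0, hc0⟩ := h42rr_exists_fixed_of_real_root P hP x (by rw [haev]; exact hx)
  have hinj : Function.Injective (complexEmbedding : AlgebraicClosure ℚ → ℂ) :=
    complexEmbedding.toRingHom.injective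
  -- values in Qbar
  set Hq : AlgebraicClosure ℚ := h42rr_H z0 1 with hHq
  set Tq : AlgebraicClosure ℚ := h42rr_T z0 1 with hTq
  have hHqC : complexEmbedding Hq = ((h42rr_H x 1 : ℝ) : ℂ) := by
    rw [hHq, h42rr_H_map, hz0, map_one]
    have := (h42rr_H_map (algebraMap ℝ ℂ) x 1).symm
    rw [map_one] at this
    exact this
  have hTqC : complexEmbedding Tq = ((h42rr_T x 1 : ℝ) : ℂ) := by
    rw [hTq, h42rr_T_map, hz0, map_one]
    have := (h42rr_T_map (algebraMap ℝ ℂ) x 1).symm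
    rw [map_one] at this
    exact this
  have hTq0 : Tq ≠ 0 := by
    intro h
    rw [h, map_zero] at hTqC
    exact hTx (by exact_mod_cast hTqC.symm)
  have hrel : (B : AlgebraicClosure ℚ) ^ 2 * Hq ^ 3 = (A : AlgebraicClosure ℚ) ^ 3 * Tq ^ 2 := by
    apply hinj
    simp only [map_mul, map_pow, map_ratCast, hHqC, hTqC]
    have : (B : ℝ) ^ 2 * h42rr_H x 1 ^ 3 = (A : ℝ) ^ 3 * h42rr_T x 1 ^ 2 := by
      linear_combination hx
    exact_mod_cast this
  have hAq : (A : AlgebraicClosure ℚ) ≠ 0 := by exact_mod_cast hA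
  have hBq : (B : AlgebraicClosure ℚ) ≠ 0 := by exact_mod_cast hB
  have hHq0 : Hq ≠ 0 := by
    intro h
    rw [h] at hrel
    have : (A : AlgebraicClosure ℚ) ^ 3 * Tq ^ 2 = 0 := by rw [← hrel]; ring
    exact mul_ne_zero (pow_ne_zero _ hAq) (pow_ne_zero _ hTq0) this
  have hcH : complexConjugation Hq = Hq := by
    rw [hHq, h42rr_H_map, hc0, map_one]
  have hcT : complexConjugation Tq = Tq := by
    rw [hTq, h42rr_T_map, hc0, map_one]
  set mu : AlgebraicClosure ℚ := (B : AlgebraicClosure ℚ) * Hq / ((A : AlgebraicClosure ℚ) * Tq)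
    with hmu
  have hmuH : Hq * mu ^ 2 = (A : AlgebraicClosure ℚ) := by
    rw [hmu]
    field_simp
    linear_combination hrel
  have hmuT : Tq * mu ^ 3 = (B : AlgebraicClosure ℚ) := by
    rw [hmu]
    field_simp
    linear_combination hrel
  have hcmu : complexConjugation mu = mu := by
    rw [hmu, map_div₀, map_mul, map_mul, hcH, hcT, map_ratCast, map_ratCast]
  have hmu0 : mu ≠ 0 := by
    rw [hmu]
    exact div_ne_zero (mul_ne_zero hBq hHq0) (mul_ne_zero hAq hTq0)
  obtain ⟨v0, hv0⟩ := IsAlgClosed.exists_pow_nat_eq mu (n := 10) (by norm_num)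
  have hv00 : v0 ≠ 0 := by
    intro h
    rw [h] at hv0
    exact hmu0 (by rw [← hv0]; norm_num)
  refine ⟨v0 * z0, v0, complexConjugation v0 / v0, ?_, ?_, ?_, ?_, ?_⟩
  · have := h42rr_H_smul v0 z0 1
    rw [mul_one] at this
    rw [this, ← hHq]
    have : v0 ^ 20 = mu ^ 2 := by rw [← hv0]; ring
    rw [this, mul_comm]; exact hmuH
  · have := h42rr_T_smul v0 z0 1
    rw [mul_one] at this
    rw [this, ← hTq]
    have : v0 ^ 30 = mu ^ 3 := by rw [← hv0]; ring
    rw [this, mul_comm]; exact hmuT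
  · rw [div_pow, ← map_pow, hv0, hcmu]
    exact div_self hmu0
  · rw [map_mul, hc0]
    field_simp
  · field_simp

/-- **A conjugation-fixed zero of `T` on a "real" line.**  If complex conjugation acts on the
two points `(u0, v0)` and `(u1, v1)` of `AlgebraicClosure ℚ` by the same nonzero scalar
`lam`, and the points are linearly independent, then the line
`t ↦ (u0 + t * u1, v0 + t * v1)` meets the zero set of `T` at a parameter `t` fixed by complex
conjugation. -/
theorem h42rr_exists_fixed_param (u0 v0 u1 v1 lam : AlgebraicClosure ℚ) (hlam : lam ≠ 0)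
    (hu0 : complexConjugation u0 = lam * u0) (hv0 : complexConjugation v0 = lam * v0)
    (hu1 : complexConjugation u1 = lam * u1) (hv1 : complexConjugation v1 = lam * v1)
    (hdet : u0 * v1 - v0 * u1 ≠ 0) :
    ∃ t : AlgebraicClosure ℚ, complexConjugation t = t ∧
      h42rr_T (u0 + t * u1) (v0 + t * v1) = 0 ∧
      h42rr_f (u0 + t * u1) (v0 + t * v1) ≠ 0 := by
  obtain ⟨zm, zp, hne, hcm, hcp, hTm, hTp⟩ := h42rr_exists_fixed_roots
  -- a root `z` with `u1 - z * v1 ≠ 0`
  obtain ⟨z, hcz, hTz, hz⟩ : ∃ z : AlgebraicClosure ℚ, complexConjugation z = z ∧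
      h42rr_T z 1 = 0 ∧ u1 - z * v1 ≠ 0 := by
    by_cases h1 : u1 - zm * v1 = 0
    · refine ⟨zp, hcp, hTp, ?_⟩
      intro h2
      have hv : (zm - zp) * v1 = 0 := by linear_combination h2 - h1
      rcases mul_eq_zero.mp hv with h | h
      · exact hne (sub_eq_zero.mp h)
      · have hu : u1 = 0 := by rw [h] at h1; simpa using h1
        apply hdet
        rw [h, hu]; ring
    · exact ⟨zm, hcm, hTm, h1⟩
  have hfz : h42rr_f z 1 ≠ 0 := by
    intro hf
    have hH3 : h42rr_H z 1 ^ 3 = 0 := by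
      have := h42rr_klein_rel z (1 : AlgebraicClosure ℚ)
      rw [hTz, hf] at this
      linear_combination this
    have hH : h42rr_H z 1 = 0 := pow_eq_zero_iff (by norm_num) |>.mp hH3
    exact h42rr_no_common_zero (by norm_num) z hf hH
  refine ⟨(z * v0 - u0) / (u1 - z * v1), ?_, ?_⟩
  · rw [map_div₀, map_sub, map_sub, map_mul, map_mul, hcz, hu0, hv0, hu1, hv1]
    have h3 : lam * u1 - z * (lam * v1) ≠ 0 := by
      have : lam * u1 - z * (lam * v1) = lam * (u1 - z * v1) := by ring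
      rw [this]; exact mul_ne_zero hlam hz
    field_simp
  · set t := (z * v0 - u0) / (u1 - z * v1) with ht
    have hkey : u0 + t * u1 = (v0 + t * v1) * z := by
      have ht' : t * (u1 - z * v1) = z * v0 - u0 := by
        rw [ht]; field_simp
      linear_combination ht'
    have hs : v0 + t * v1 ≠ 0 := by
      intro hs
      apply hdet
      have hu : u0 + t * u1 = 0 := by rw [hkey, hs, zero_mul]
      linear_combination v1 * hu - u1 * hs
    have hT := h42rr_T_smul (v0 + t * v1) z 1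
    have hf := h42rr_f_smul (v0 + t * v1) z 1
    rw [mul_one] at hT hf
    refine ⟨by rw [hkey, hT, hTz, mul_zero], ?_⟩
    rw [hkey, hf]
    exact mul_ne_zero (pow_ne_zero _ hs) hfz

/-! ### The two covariant lines -/

/-- `∂f/∂u`. -/
def h42rr_fu {R : Type*} [CommRing R] (u v : R) : R :=
  11 * u ^ 10 * v + 66 * u ^ 5 * v ^ 6 - v ^ 11

/-- `∂f/∂v`. -/
def h42rr_fv {R : Type*} [CommRing R] (u v : R) : R :=
  u ^ 11 + 66 * u ^ 6 * v ^ 5 - 11 * u * v ^ 10

theorem h42rr_euler {R : Type*} [CommRing R] (u v : R) :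
    u * h42rr_fu u v + v * h42rr_fv u v = 12 * h42rr_f u v := by
  unfold h42rr_fu h42rr_fv h42rr_f; ring

theorem h42rr_fu_smul {R : Type*} [CommRing R] (c u v : R) :
    h42rr_fu (c * u) (c * v) = c ^ 11 * h42rr_fu u v := by
  unfold h42rr_fu; ring

theorem h42rr_fv_smul {R : Type*} [CommRing R] (c u v : R) :
    h42rr_fv (c * u) (c * v) = c ^ 11 * h42rr_fv u v := by
  unfold h42rr_fv; ring

theorem h42rr_fu_map {R S F : Type*} [CommRing R] [CommRing S] [FunLike F R S]
    [RingHomClass F R S] (φ : F) (u v : R) :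
    φ (h42rr_fu u v) = h42rr_fu (φ u) (φ v) := by
  simp [h42rr_fu, map_ofNat]

theorem h42rr_fv_map {R S F : Type*} [CommRing R] [CommRing S] [FunLike F R S]
    [RingHomClass F R S] (φ : F) (u v : R) :
    φ (h42rr_fv u v) = h42rr_fv (φ u) (φ v) := by
  simp [h42rr_fv, map_ofNat]

/-- The line `w_t = w0 + t * (f_v, -f_u)(w0)` through a base point on which complex conjugation
acts by a `10`-th root of unity carries a conjugation-fixed parameter `t` with `T(w_t) = 0`
(and `f(w_t) ≠ 0`). -/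
theorem h42rr_exists_fixed_param_line (u0 v0 lam : AlgebraicClosure ℚ) (hlam : lam ^ 10 = 1)
    (hu0 : complexConjugation u0 = lam * u0) (hv0 : complexConjugation v0 = lam * v0)
    (hf : h42rr_f u0 v0 ≠ 0) :
    ∃ t : AlgebraicClosure ℚ, complexConjugation t = t ∧
      h42rr_T (u0 + t * h42rr_fv u0 v0) (v0 + t * -h42rr_fu u0 v0) = 0 ∧
      h42rr_f (u0 + t * h42rr_fv u0 v0) (v0 + t * -h42rr_fu u0 v0) ≠ 0 := by
  have hlam0 : lam ≠ 0 := by
    intro h; rw [h] at hlam; norm_num at hlam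
  have h11 : lam ^ 11 = lam := by rw [pow_succ, hlam, one_mul]
  apply h42rr_exists_fixed_param u0 v0 _ _ lam hlam0 hu0 hv0
  · rw [h42rr_fv_map, hu0, hv0, h42rr_fv_smul, h11]
  · rw [map_neg, h42rr_fu_map, hu0, hv0, h42rr_fu_smul, h11]; ring
  · have := h42rr_euler u0 v0
    intro h0
    apply hf
    have h12 : (12 : AlgebraicClosure ℚ) * h42rr_f u0 v0 = 0 := by
      linear_combination -h0 - this
    rcases mul_eq_zero.mp h12 with h | h
    · norm_num at h
    · exact h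

/-- The same for the line `Φ_t(w0) = T(w0) • w0 + t • H(w0) • (f_v, -f_u)(w0)`. -/
theorem h42rr_exists_fixed_param_Phi (u0 v0 lam : AlgebraicClosure ℚ) (hlam : lam ^ 10 = 1)
    (hu0 : complexConjugation u0 = lam * u0) (hv0 : complexConjugation v0 = lam * v0)
    (hf : h42rr_f u0 v0 ≠ 0) (hH : h42rr_H u0 v0 ≠ 0) (hT : h42rr_T u0 v0 ≠ 0) :
    ∃ t : AlgebraicClosure ℚ, complexConjugation t = t ∧
      h42rr_T (h42rr_T u0 v0 * u0 + t * (h42rr_H u0 v0 * h42rr_fv u0 v0))
        (h42rr_T u0 v0 * v0 + t * (h42rr_H u0 v0 * -h42rr_fu u0 v0)) = 0 ∧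
      h42rr_f (h42rr_T u0 v0 * u0 + t * (h42rr_H u0 v0 * h42rr_fv u0 v0))
        (h42rr_T u0 v0 * v0 + t * (h42rr_H u0 v0 * -h42rr_fu u0 v0)) ≠ 0 := by
  have hlam0 : lam ≠ 0 := by
    intro h; rw [h] at hlam; norm_num at hlam
  have h11 : lam ^ 11 = lam := by rw [pow_succ, hlam, one_mul]
  have h20 : lam ^ 20 = 1 := by
    have : lam ^ 20 = (lam ^ 10) ^ 2 := by ring
    rw [this, hlam, one_pow]
  have h30 : lam ^ 30 = 1 := by
    have : lam ^ 30 = (lam ^ 10) ^ 3 := by ring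
    rw [this, hlam, one_pow]
  have hcT : complexConjugation (h42rr_T u0 v0) = h42rr_T u0 v0 := by
    rw [h42rr_T_map, hu0, hv0, h42rr_T_smul, h30, one_mul]
  have hcH : complexConjugation (h42rr_H u0 v0) = h42rr_H u0 v0 := by
    rw [h42rr_H_map, hu0, hv0, h42rr_H_smul, h20, one_mul]
  apply h42rr_exists_fixed_param _ _ _ _ lam hlam0
  · rw [map_mul, hcT, hu0]; ring
  · rw [map_mul, hcT, hv0]; ring
  · rw [map_mul, hcH, h42rr_fv_map, hu0, hv0, h42rr_fv_smul, h11]; ring
  · rw [map_mul, hcH, map_neg, h42rr_fu_map, hu0, hv0, h42rr_fu_smul, h11]; ring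
  · have := h42rr_euler u0 v0
    intro h0
    have h12 : h42rr_T u0 v0 * h42rr_H u0 v0 * (12 * h42rr_f u0 v0) = 0 := by
      linear_combination -h0 - h42rr_T u0 v0 * h42rr_H u0 v0 * this
    have h12' : (12 : AlgebraicClosure ℚ) ≠ 0 := by norm_num
    exact mul_ne_zero (mul_ne_zero hT hH) (mul_ne_zero h12' hf) h12

/-- **Main export.**  For nonzero rationals `A`, `B` with `B ^ 2 + A ^ 3 ≠ 0` there is a base
point `w0 = (u0, v0)` in `AlgebraicClosure ℚ` with `H(w0) = A`, `T(w0) = B` such that both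
covariant lines through `w0` contain a point with `T = 0`, `f ≠ 0` whose parameter is fixed
by complex conjugation. -/
theorem h42rr_main (A B : ℚ) (hA : A ≠ 0) (hB : B ≠ 0) (hΔ : B ^ 2 + A ^ 3 ≠ 0) :
    ∃ u0 v0 : AlgebraicClosure ℚ,
      h42rr_H u0 v0 = (A : AlgebraicClosure ℚ) ∧ h42rr_T u0 v0 = (B : AlgebraicClosure ℚ) ∧
      h42rr_f u0 v0 ≠ 0 ∧
      (∃ lam : AlgebraicClosure ℚ, lam ^ 10 = 1 ∧ complexConjugation u0 = lam * u0 ∧
        complexConjugation v0 = lam * v0) ∧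
      (∃ t : AlgebraicClosure ℚ, complexConjugation t = t ∧
        h42rr_T (u0 + t * h42rr_fv u0 v0) (v0 + t * -h42rr_fu u0 v0) = 0 ∧
        h42rr_f (u0 + t * h42rr_fv u0 v0) (v0 + t * -h42rr_fu u0 v0) ≠ 0) ∧
      (∃ t : AlgebraicClosure ℚ, complexConjugation t = t ∧
        h42rr_T (h42rr_T u0 v0 * u0 + t * (h42rr_H u0 v0 * h42rr_fv u0 v0))
          (h42rr_T u0 v0 * v0 + t * (h42rr_H u0 v0 * -h42rr_fu u0 v0)) = 0 ∧
        h42rr_f (h42rr_T u0 v0 * u0 + t * (h42rr_H u0 v0 * h42rr_fv u0 v0))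
          (h42rr_T u0 v0 * v0 + t * (h42rr_H u0 v0 * -h42rr_fu u0 v0)) ≠ 0) := by
  obtain ⟨u0, v0, lam, hH, hT, hlam, hu0, hv0⟩ := h42rr_exists_base A B hA hB
  have hAq : (A : AlgebraicClosure ℚ) ≠ 0 := by exact_mod_cast hA
  have hBq : (B : AlgebraicClosure ℚ) ≠ 0 := by exact_mod_cast hB
  have hf : h42rr_f u0 v0 ≠ 0 := by
    intro hf
    have := h42rr_klein_rel u0 v0
    rw [hH, hT, hf] at this
    apply hΔ
    have h2 : ((B ^ 2 + A ^ 3 : ℚ) : AlgebraicClosure ℚ) = 0 := by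
      push_cast
      linear_combination this
    exact_mod_cast h2
  refine ⟨u0, v0, hH, hT, hf, ⟨lam, hlam, hu0, hv0⟩,
    h42rr_exists_fixed_param_line u0 v0 lam hlam hu0 hv0 hf,
    h42rr_exists_fixed_param_Phi u0 v0 lam hlam hu0 hv0 hf ?_ ?_⟩
  · rw [hH]; exact hAq
  · rw [hT]; exact hBq

end Fermat.Agent.S52
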