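import Mathlib
import Fermat.Agent.S52.RealRoot

/-!
# S52, step (C3)(i), explicit form: the real zeros of Klein's `T` lie in `ℚ(ζ₅, i)`

If `φ ^ 2 = φ + 1` and `c ^ 2 = φ + 2` then `T(c - φ, 1) = 0`.  With `φ = -(ζ² + ζ³)` and
`c = -i (ζ - ζ⁴)` this exhibits two zeros `± c - φ` of `T` which are fixed by every field
automorphism fixing `ζ₅` and `i`, and also by complex conjugation.  Consequently the
parameter `t` of the point of a covariant line where `T` vanishes is fixed by all these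
automorphisms.
-/

set_option autoImplicit false

namespace Fermat.Agent.S52

/-- Explicit zero of `T`: if `φ ^ 2 = φ + 1` and `c ^ 2 = φ + 2` then `T(c - φ, 1) = 0`. -/
theorem h42rr_T_explicit {K : Type*} [CommRing K] (φ c : K) (hφ : φ ^ 2 = φ + 1)
    (hc : c ^ 2 = φ + 2) : h42rr_T (c - φ) 1 = 0 := by
  have e2 : (0 + (-1) * φ + (1 + 0 * φ) * c) * (0 + (-1) * φ + (1 + 0 * φ) * c) = (3 + 2 * φ + (0 + (-2) * φ) * c) := by
    linear_combination (1) * hc + ((1) + (0) * c) * hφ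
  have e4 : (3 + 2 * φ + (0 + (-2) * φ) * c) * (3 + 2 * φ + (0 + (-2) * φ) * c) = (25 + 32 * φ + ((-8) + (-20) * φ) * c) := by
    linear_combination (4 * φ ^ 2) * hc + ((16 + 4 * φ) + ((-8)) * c) * hφ
  have e5 : (25 + 32 * φ + ((-8) + (-20) * φ) * c) * (0 + (-1) * φ + (1 + 0 * φ) * c) = ((-68) + (-125) * φ + (45 + 60 * φ) * c) := by
    linear_combination ((-8) + (-20) * φ) * hc + (((-52)) + (20) * c) * hφ
  have e10 : ((-68) + (-125) * φ + (45 + 60 * φ) * c) * ((-68) + (-125) * φ + (45 + 60 * φ) * c) = (40499 + 65250 * φ + ((-21120) + (-34410) * φ) * c) := by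
    linear_combination (2025 + 5400 * φ + 3600 * φ ^ 2) * hc + ((31825 + 3600 * φ) + ((-15000)) * c) * hφ
  have e20 : (40499 + 65250 * φ + ((-21120) + (-34410) * φ) * c) * (40499 + 65250 * φ + ((-21120) + (-34410) * φ) * c) = (11795463001 + 19085364000 * φ + ((-6201182760) + (-10033806180) * φ) * c) := by
    linear_combination (446054400 + 1453478400 * φ + 1184048100 * φ ^ 2) * hc + ((9263185200 + 1184048100 * φ) + ((-4490505000)) * c) * hφ
  have e25 : (11795463001 + 19085364000 * φ + ((-6201182760) + (-10033806180) * φ) * c) * ((-68) + (-125) * φ + (45 + 60 * φ) * c) = ((-6375545788568) + (-10315851565625) * φ + (3351823875225 + 5423363437800 * φ) * c) := by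
    linear_combination ((-279053224200) + (-823592243700) * φ + (-602028370800) * φ ^ 2) * hc + (((-5015347856100) + (-602028370800) * φ) + (2399347612500) * c) * hφ
  have e30 : (11795463001 + 19085364000 * φ + ((-6201182760) + (-10033806180) * φ) * c) * (40499 + 65250 * φ + ((-21120) + (-34410) * φ) * c) = (3446048914114499 + 5575824236837250 * φ + ((-1811695107663360) + (-2931384289603230) * φ) * c) := by
    linear_combination (130968979891200 + 425296685293200 * φ + 345263270653800 * φ ^ 2) * hc + ((2706406498254600 + 345263270653800 * φ) + ((-1311433228485000)) * c) * hφ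
  have hz : c - φ = (0 + (-1) * φ + (1 + 0 * φ) * c) := by ring
  have p2 : (c - φ) ^ 2 = (3 + 2 * φ + (0 + (-2) * φ) * c) := by
    rw [← e2, ← hz]; ring
  have p4 : (c - φ) ^ 4 = (25 + 32 * φ + ((-8) + (-20) * φ) * c) := by
    rw [← e4, ← p2]; ring
  have p5 : (c - φ) ^ 5 = ((-68) + (-125) * φ + (45 + 60 * φ) * c) := by
    rw [← e5, ← p4, ← hz]; ring
  have p10 : (c - φ) ^ 10 = (40499 + 65250 * φ + ((-21120) + (-34410) * φ) * c) := by
    rw [← e10, ← p5]; ring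
  have p20 : (c - φ) ^ 20 = (11795463001 + 19085364000 * φ + ((-6201182760) + (-10033806180) * φ) * c) := by
    rw [← e20, ← p10]; ring
  have p25 : (c - φ) ^ 25 = ((-6375545788568) + (-10315851565625) * φ + (3351823875225 + 5423363437800 * φ) * c) := by
    rw [← e25, ← p20, ← p5]; ring
  have p30 : (c - φ) ^ 30 = (3446048914114499 + 5575824236837250 * φ + ((-1811695107663360) + (-2931384289603230) * φ) * c) := by
    rw [← e30, ← p20, ← p10]; ring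
  unfold h42rr_T
  simp only [one_pow, mul_one]
  rw [p30, p25, p20, p10, p5]
  ring

/-- `φ = -(ζ² + ζ³)` satisfies `φ ^ 2 = φ + 1`. -/
theorem h42rr_phi_sq {K : Type*} [CommRing K] (ζ : K)
    (hζ : ζ ^ 4 + ζ ^ 3 + ζ ^ 2 + ζ + 1 = 0) :
    (-(ζ ^ 2 + ζ ^ 3)) ^ 2 = -(ζ ^ 2 + ζ ^ 3) + 1 := by
  linear_combination (1 + (2 + ζ) * (ζ - 1)) * hζ

/-- `c = -i (ζ - ζ⁴)` satisfies `c ^ 2 = φ + 2`. -/
theorem h42rr_c_sq {K : Type*} [CommRing K] (ζ i : K)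
    (hζ : ζ ^ 4 + ζ ^ 3 + ζ ^ 2 + ζ + 1 = 0) (hi : i ^ 2 = -1) :
    (-(i * (ζ - ζ ^ 4))) ^ 2 = -(ζ ^ 2 + ζ ^ 3) + 2 := by
  linear_combination ((ζ - ζ ^ 4) ^ 2) * hi + ((2 - ζ ^ 3) * (ζ - 1)) * hζ

/-- The first explicit zero `z₁ = c - φ` of `T`. -/
def h42rr_z1 {K : Type*} [CommRing K] (ζ i : K) : K :=
  -(i * (ζ - ζ ^ 4)) - -(ζ ^ 2 + ζ ^ 3)

/-- The second explicit zero `z₂ = -c - φ` of `T`. -/
def h42rr_z2 {K : Type*} [CommRing K] (ζ i : K) : K :=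
  -(-(i * (ζ - ζ ^ 4))) - -(ζ ^ 2 + ζ ^ 3)

theorem h42rr_T_z1 {K : Type*} [CommRing K] (ζ i : K)
    (hζ : ζ ^ 4 + ζ ^ 3 + ζ ^ 2 + ζ + 1 = 0) (hi : i ^ 2 = -1) :
    h42rr_T (h42rr_z1 ζ i) 1 = 0 :=
  h42rr_T_explicit _ _ (h42rr_phi_sq ζ hζ) (h42rr_c_sq ζ i hζ hi)

theorem h42rr_T_z2 {K : Type*} [CommRing K] (ζ i : K)
    (hζ : ζ ^ 4 + ζ ^ 3 + ζ ^ 2 + ζ + 1 = 0) (hi : i ^ 2 = -1) :
    h42rr_T (h42rr_z2 ζ i) 1 = 0 := by
  refine h42rr_T_explicit _ _ (h42rr_phi_sq ζ hζ) ?_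
  rw [neg_sq]
  exact h42rr_c_sq ζ i hζ hi

theorem h42rr_z1_ne_z2 {K : Type*} [Field K] [CharZero K] (ζ i : K)
    (hζ : ζ ^ 4 + ζ ^ 3 + ζ ^ 2 + ζ + 1 = 0) (hi : i ^ 2 = -1) :
    h42rr_z1 ζ i ≠ h42rr_z2 ζ i := by
  intro h
  unfold h42rr_z1 h42rr_z2 at h
  have hc0 : -(i * (ζ - ζ ^ 4)) = 0 := by
    have h2 : (2 : K) * -(i * (ζ - ζ ^ 4)) = 0 := by linear_combination h
    rcases mul_eq_zero.mp h2 with h' | h'
    · norm_num at h'
    · exact h'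
  have hcs := h42rr_c_sq ζ i hζ hi
  rw [hc0] at hcs
  have hφ := h42rr_phi_sq ζ hζ
  have hφ2 : -(ζ ^ 2 + ζ ^ 3) = -2 := by linear_combination -hcs
  rw [hφ2] at hφ
  norm_num at hφ

theorem h42rr_z1_map {K : Type*} [CommRing K] {F : Type*} [FunLike F K K] [RingHomClass F K K]
    (σ : F) (ζ i : K) (hφ : σ (ζ ^ 2 + ζ ^ 3) = ζ ^ 2 + ζ ^ 3)
    (hc : σ (i * (ζ - ζ ^ 4)) = i * (ζ - ζ ^ 4)) : σ (h42rr_z1 ζ i) = h42rr_z1 ζ i := by
  unfold h42rr_z1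
  rw [map_sub, map_neg, map_neg, hφ, hc]

theorem h42rr_z2_map {K : Type*} [CommRing K] {F : Type*} [FunLike F K K] [RingHomClass F K K]
    (σ : F) (ζ i : K) (hφ : σ (ζ ^ 2 + ζ ^ 3) = ζ ^ 2 + ζ ^ 3)
    (hc : σ (i * (ζ - ζ ^ 4)) = i * (ζ - ζ ^ 4)) : σ (h42rr_z2 ζ i) = h42rr_z2 ζ i := by
  unfold h42rr_z2
  rw [map_sub, map_neg, map_neg, map_neg, hφ, hc]

/-! ### The parameter of a point of a line -/

/-- The parameter `t` of the point of the line `w0 + t • w1` lying over `(z : 1)`. -/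
noncomputable def h42rr_tpar {K : Type*} [Field K] (u0 v0 u1 v1 z : K) : K :=
  (z * v0 - u0) / (u1 - z * v1)

theorem h42rr_tpar_spec {K : Type*} [Field K] (u0 v0 u1 v1 z : K) (hz : u1 - z * v1 ≠ 0) :
    u0 + h42rr_tpar u0 v0 u1 v1 z * u1 = (v0 + h42rr_tpar u0 v0 u1 v1 z * v1) * z := by
  have ht' : h42rr_tpar u0 v0 u1 v1 z * (u1 - z * v1) = z * v0 - u0 := by
    unfold h42rr_tpar; field_simp
  linear_combination ht'

theorem h42rr_tpar_T {K : Type*} [Field K] (u0 v0 u1 v1 z : K) (hz : u1 - z * v1 ≠ 0)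
    (hT : h42rr_T z 1 = 0) :
    h42rr_T (u0 + h42rr_tpar u0 v0 u1 v1 z * u1) (v0 + h42rr_tpar u0 v0 u1 v1 z * v1) = 0 := by
  have := h42rr_T_smul (v0 + h42rr_tpar u0 v0 u1 v1 z * v1) z 1
  rw [mul_one] at this
  rw [h42rr_tpar_spec u0 v0 u1 v1 z hz, this, hT, mul_zero]

theorem h42rr_tpar_f {K : Type*} [Field K] (h5 : (5 : K) ≠ 0) (u0 v0 u1 v1 z : K)
    (hz : u1 - z * v1 ≠ 0) (hT : h42rr_T z 1 = 0) (hdet : u0 * v1 - v0 * u1 ≠ 0) :
    h42rr_f (u0 + h42rr_tpar u0 v0 u1 v1 z * u1) (v0 + h42rr_tpar u0 v0 u1 v1 z * v1) ≠ 0 := by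
  have hfz : h42rr_f z 1 ≠ 0 := by
    intro hf
    have hH3 : h42rr_H z 1 ^ 3 = 0 := by
      have := h42rr_klein_rel z (1 : K)
      rw [hT, hf] at this
      linear_combination this
    have hH : h42rr_H z 1 = 0 := pow_eq_zero_iff (by norm_num) |>.mp hH3
    exact h42rr_no_common_zero h5 z hf hH
  have hkey := h42rr_tpar_spec u0 v0 u1 v1 z hz
  set t := h42rr_tpar u0 v0 u1 v1 z
  have hs : v0 + t * v1 ≠ 0 := by
    intro hs
    apply hdet
    have hu : u0 + t * u1 = 0 := by rw [hkey, hs, zero_mul]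
    linear_combination v1 * hu - u1 * hs
  have hf := h42rr_f_smul (v0 + t * v1) z 1
  rw [mul_one] at hf
  rw [hkey, hf]
  exact mul_ne_zero (pow_ne_zero _ hs) hfz

/-- The parameter is fixed by every field endomorphism which fixes `z` and acts on `w0`, `w1`
by a common nonzero scalar. -/
theorem h42rr_tpar_map {K : Type*} [Field K] {F : Type*} [FunLike F K K] [RingHomClass F K K]
    (σ : F) (u0 v0 u1 v1 z lam : K) (hlam : lam ≠ 0)
    (hu0 : σ u0 = lam * u0) (hv0 : σ v0 = lam * v0)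
    (hu1 : σ u1 = lam * u1) (hv1 : σ v1 = lam * v1) (hz : σ z = z) :
    σ (h42rr_tpar u0 v0 u1 v1 z) = h42rr_tpar u0 v0 u1 v1 z := by
  unfold h42rr_tpar
  rw [map_div₀, map_sub, map_sub, map_mul, map_mul, hz, hu0, hv0, hu1, hv1]
  have e1 : z * (lam * v0) - lam * u0 = lam * (z * v0 - u0) := by ring
  have e2 : lam * u1 - z * (lam * v1) = lam * (u1 - z * v1) := by ring
  rw [e1, e2, mul_div_mul_left _ _ hlam]

/-- On every line `w0 + t • w1` with `det (w0, w1) ≠ 0` one of the two explicit zeros of `T`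
has a finite parameter. -/
theorem h42rr_exists_root_on_line {K : Type*} [Field K] [CharZero K] (ζ i : K)
    (hζ : ζ ^ 4 + ζ ^ 3 + ζ ^ 2 + ζ + 1 = 0) (hi : i ^ 2 = -1) (u0 v0 u1 v1 : K)
    (hdet : u0 * v1 - v0 * u1 ≠ 0) :
    ∃ z : K, (z = h42rr_z1 ζ i ∨ z = h42rr_z2 ζ i) ∧ h42rr_T z 1 = 0 ∧ u1 - z * v1 ≠ 0 := by
  by_cases h1 : u1 - h42rr_z1 ζ i * v1 = 0
  · refine ⟨h42rr_z2 ζ i, Or.inr rfl, h42rr_T_z2 ζ i hζ hi, ?_⟩
    intro h2
    have hv : (h42rr_z1 ζ i - h42rr_z2 ζ i) * v1 = 0 := by linear_combination h2 - h1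
    rcases mul_eq_zero.mp hv with h | h
    · exact h42rr_z1_ne_z2 ζ i hζ hi (sub_eq_zero.mp h)
    · have hu : u1 = 0 := by rw [h] at h1; simpa using h1
      apply hdet
      rw [h, hu]; ring
  · exact ⟨h42rr_z1 ζ i, Or.inl rfl, h42rr_T_z1 ζ i hζ hi, h1⟩

/-- **Explicit fixed parameter (general field).**  On a line `w0 + t • w1` with
`det (w0, w1) ≠ 0` there is a parameter `t` with `T(w_t) = 0`, `f(w_t) ≠ 0` which is fixed by
every field endomorphism `σ` that fixes `ζ² + ζ³` and `i (ζ - ζ⁴)` and acts on `w0`, `w1` by a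
common nonzero scalar. -/
theorem h42rr_explicit_param {K : Type*} [Field K] [CharZero K] (ζ i : K)
    (hζ : ζ ^ 4 + ζ ^ 3 + ζ ^ 2 + ζ + 1 = 0) (hi : i ^ 2 = -1) (u0 v0 u1 v1 : K)
    (hdet : u0 * v1 - v0 * u1 ≠ 0) :
    ∃ t : K, h42rr_T (u0 + t * u1) (v0 + t * v1) = 0 ∧
      h42rr_f (u0 + t * u1) (v0 + t * v1) ≠ 0 ∧
      ∀ (σ : K →+* K) (lam : K), lam ≠ 0 →
        σ u0 = lam * u0 → σ v0 = lam * v0 → σ u1 = lam * u1 → σ v1 = lam * v1 →
        σ (ζ ^ 2 + ζ ^ 3) = ζ ^ 2 + ζ ^ 3 → σ (i * (ζ - ζ ^ 4)) = i * (ζ - ζ ^ 4) →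
        σ t = t := by
  obtain ⟨z, hz12, hTz, hz⟩ := h42rr_exists_root_on_line ζ i hζ hi u0 v0 u1 v1 hdet
  refine ⟨h42rr_tpar u0 v0 u1 v1 z, h42rr_tpar_T u0 v0 u1 v1 z hz hTz,
    h42rr_tpar_f (by norm_num) u0 v0 u1 v1 z hz hTz hdet, ?_⟩
  intro σ lam hlam hu0 hv0 hu1 hv1 hφ hc
  have hσz : σ z = z := by
    rcases hz12 with h | h
    · rw [h]; exact h42rr_z1_map σ ζ i hφ hc
    · rw [h]; exact h42rr_z2_map σ ζ i hφ hc
  exact h42rr_tpar_map σ u0 v0 u1 v1 z lam hlam hu0 hv0 hu1 hv1 hσz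

/-! ### Complex conjugation on `ζ₅` and `i` -/

/-- The Prelude's complex conjugation maps every square root of `-1` to its negative. -/
theorem h42rr_conj_I (i : AlgebraicClosure ℚ) (hi : i ^ 2 = -1) :
    complexConjugation i = -i := by
  apply complexEmbedding.toRingHom.injective
  change complexEmbedding (complexConjugation i) = complexEmbedding (-i)
  rw [complexEmbedding_complexConjugation, map_neg]
  set w : ℂ := complexEmbedding i with hw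
  have hw2 : w ^ 2 = -1 := by
    rw [hw, ← map_pow, hi, map_neg, map_one]
  have h : (w - Complex.I) * (w + Complex.I) = 0 := by
    have hI : Complex.I ^ 2 = -1 := Complex.I_sq
    linear_combination hw2 - hI
  rcases mul_eq_zero.mp h with h1 | h1
  · have : w = Complex.I := sub_eq_zero.mp h1
    rw [this, Complex.conj_I]
  · have : w = -Complex.I := eq_neg_of_add_eq_zero_left h1
    rw [this, map_neg, Complex.conj_I]

/-- The Prelude's complex conjugation inverts every primitive fifth root of unity. -/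
theorem h42rr_conj_zeta (ζ : AlgebraicClosure ℚ) (hζ : ζ ^ 4 + ζ ^ 3 + ζ ^ 2 + ζ + 1 = 0) :
    complexConjugation ζ = ζ ^ 4 := by
  have h5 : ζ ^ 5 = 1 := by linear_combination (ζ - 1) * hζ
  apply complexEmbedding.toRingHom.injective
  change complexEmbedding (complexConjugation ζ) = complexEmbedding (ζ ^ 4)
  rw [complexEmbedding_complexConjugation, map_pow]
  set w : ℂ := complexEmbedding ζ with hw
  have hw5 : w ^ 5 = 1 := by rw [hw, ← map_pow, h5, map_one]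
  have hnorm : ‖w‖ = 1 := Complex.norm_eq_one_of_pow_eq_one hw5 (by norm_num)
  rw [← Complex.inv_eq_conj hnorm]
  have hw0 : w ≠ 0 := by
    intro h; rw [h] at hw5; norm_num at hw5
  field_simp
  linear_combination -hw5

theorem h42rr_conj_phi (ζ : AlgebraicClosure ℚ) (hζ : ζ ^ 4 + ζ ^ 3 + ζ ^ 2 + ζ + 1 = 0) :
    complexConjugation (ζ ^ 2 + ζ ^ 3) = ζ ^ 2 + ζ ^ 3 := by
  have h5 : ζ ^ 5 = 1 := by linear_combination (ζ - 1) * hζ
  rw [map_add, map_pow, map_pow, h42rr_conj_zeta ζ hζ]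
  linear_combination (ζ ^ 2 + ζ ^ 3 + ζ ^ 7) * h5

theorem h42rr_conj_c (ζ i : AlgebraicClosure ℚ) (hζ : ζ ^ 4 + ζ ^ 3 + ζ ^ 2 + ζ + 1 = 0)
    (hi : i ^ 2 = -1) :
    complexConjugation (i * (ζ - ζ ^ 4)) = i * (ζ - ζ ^ 4) := by
  have h5 : ζ ^ 5 = 1 := by linear_combination (ζ - 1) * hζ
  rw [map_mul, map_sub, map_pow, h42rr_conj_zeta ζ hζ, h42rr_conj_I i hi]
  linear_combination (i * (ζ + ζ ^ 6 + ζ ^ 11)) * h5

/-- **Explicit fixed parameter in `AlgebraicClosure ℚ`.**  Let `ζ` be a primitive fifth root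
of unity and `i ^ 2 = -1`.  On a line `w0 + t • w1` with `det (w0, w1) ≠ 0` there is a
parameter `t` with `T(w_t) = 0`, `f(w_t) ≠ 0` which is fixed by every automorphism `σ` that acts
on `w0`, `w1` by a common nonzero scalar and either fixes `ζ` and `i` or is complex
conjugation. -/
theorem h42rr_explicit_param_Qbar (ζ i : AlgebraicClosure ℚ)
    (hζ : ζ ^ 4 + ζ ^ 3 + ζ ^ 2 + ζ + 1 = 0) (hi : i ^ 2 = -1)
    (u0 v0 u1 v1 : AlgebraicClosure ℚ) (hdet : u0 * v1 - v0 * u1 ≠ 0) :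
    ∃ t : AlgebraicClosure ℚ, h42rr_T (u0 + t * u1) (v0 + t * v1) = 0 ∧
      h42rr_f (u0 + t * u1) (v0 + t * v1) ≠ 0 ∧
      ∀ (σ : AlgebraicClosure ℚ ≃ₐ[ℚ] AlgebraicClosure ℚ) (lam : AlgebraicClosure ℚ), lam ≠ 0 →
        σ u0 = lam * u0 → σ v0 = lam * v0 → σ u1 = lam * u1 → σ v1 = lam * v1 →
        ((σ ζ = ζ ∧ σ i = i) ∨ σ = complexConjugation) → σ t = t := by
  obtain ⟨t, hT, hf, hfix⟩ := h42rr_explicit_param ζ i hζ hi u0 v0 u1 v1 hdet
  refine ⟨t, hT, hf, ?_⟩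
  intro σ lam hlam hu0 hv0 hu1 hv1 hσ
  have key := hfix (σ : AlgebraicClosure ℚ →+* AlgebraicClosure ℚ) lam hlam hu0 hv0 hu1 hv1
  apply key
  · rcases hσ with ⟨h1, -⟩ | h
    · change σ (ζ ^ 2 + ζ ^ 3) = ζ ^ 2 + ζ ^ 3
      rw [map_add, map_pow, map_pow, h1]
    · rw [h]; exact h42rr_conj_phi ζ hζ
  · rcases hσ with ⟨h1, h2⟩ | h
    · change σ (i * (ζ - ζ ^ 4)) = i * (ζ - ζ ^ 4)
      rw [map_mul, map_sub, map_pow, h1, h2]
    · rw [h]; exact h42rr_conj_c ζ i hζ hi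

/-- **Main export, explicit form.**  For nonzero rationals `A`, `B` with `B ^ 2 + A ^ 3 ≠ 0`,
a primitive fifth root of unity `ζ` and `i ^ 2 = -1` in `AlgebraicClosure ℚ`, there are a base
point `w0 = (u0, v0)` with `H(w0) = A`, `T(w0) = B`, `f(w0) ≠ 0`, on which complex conjugation
acts by a scalar `lam` with `lam ^ 10 = 1`, and a parameter `t` of helper5's covariant line
`w_t = w0 + t • (f_v, -f_u)(w0)` with `T(w_t) = 0`, `f(w_t) ≠ 0`, such that `t` is fixed by complex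
conjugation and by every automorphism `τ` which fixes `ζ`, `i` and rescales `w0` by a `10`-th
root of unity. -/
theorem h42rr_main_explicit (A B : ℚ) (hA : A ≠ 0) (hB : B ≠ 0) (hΔ : B ^ 2 + A ^ 3 ≠ 0)
    (ζ i : AlgebraicClosure ℚ) (hζ : ζ ^ 4 + ζ ^ 3 + ζ ^ 2 + ζ + 1 = 0) (hi : i ^ 2 = -1) :
    ∃ u0 v0 t : AlgebraicClosure ℚ,
      h42rr_H u0 v0 = (A : AlgebraicClosure ℚ) ∧ h42rr_T u0 v0 = (B : AlgebraicClosure ℚ) ∧
      h42rr_f u0 v0 ≠ 0 ∧
      (∃ lam : AlgebraicClosure ℚ, lam ^ 10 = 1 ∧ complexConjugation u0 = lam * u0 ∧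
        complexConjugation v0 = lam * v0) ∧
      h42rr_T (u0 + t * h42rr_fv u0 v0) (v0 + t * -h42rr_fu u0 v0) = 0 ∧
      h42rr_f (u0 + t * h42rr_fv u0 v0) (v0 + t * -h42rr_fu u0 v0) ≠ 0 ∧
      complexConjugation t = t ∧
      ∀ (τ : AlgebraicClosure ℚ ≃ₐ[ℚ] AlgebraicClosure ℚ) (lam : AlgebraicClosure ℚ),
        lam ^ 10 = 1 → τ u0 = lam * u0 → τ v0 = lam * v0 → τ ζ = ζ → τ i = i → τ t = t := by
  obtain ⟨u0, v0, lam, hH, hT, hlam, hu0, hv0⟩ := h42rr_exists_base A B hA hB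
  have hf : h42rr_f u0 v0 ≠ 0 := by
    intro hf
    have := h42rr_klein_rel u0 v0
    rw [hH, hT, hf] at this
    apply hΔ
    have h2 : ((B ^ 2 + A ^ 3 : ℚ) : AlgebraicClosure ℚ) = 0 := by
      push_cast
      linear_combination this
    exact_mod_cast h2
  have hdet : u0 * -h42rr_fu u0 v0 - v0 * h42rr_fv u0 v0 ≠ 0 := by
    have := h42rr_euler u0 v0
    intro h0
    apply hf
    have h12 : (12 : AlgebraicClosure ℚ) * h42rr_f u0 v0 = 0 := by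
      linear_combination -h0 - this
    rcases mul_eq_zero.mp h12 with h | h
    · norm_num at h
    · exact h
  obtain ⟨t, htT, htf, hfix⟩ :=
    h42rr_explicit_param_Qbar ζ i hζ hi u0 v0 (h42rr_fv u0 v0) (-h42rr_fu u0 v0) hdet
  -- scalars act on `w1` like on `w0`
  have hw1 : ∀ (σ : AlgebraicClosure ℚ ≃ₐ[ℚ] AlgebraicClosure ℚ) (l : AlgebraicClosure ℚ),
      l ^ 10 = 1 → σ u0 = l * u0 → σ v0 = l * v0 →
      σ (h42rr_fv u0 v0) = l * h42rr_fv u0 v0 ∧ σ (-h42rr_fu u0 v0) = l * -h42rr_fu u0 v0 := by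
    intro σ l hl h1 h2
    have h11 : l ^ 11 = l := by rw [pow_succ, hl, one_mul]
    constructor
    · rw [h42rr_fv_map, h1, h2, h42rr_fv_smul, h11]
    · rw [map_neg, h42rr_fu_map, h1, h2, h42rr_fu_smul, h11]; ring
  have hne : ∀ l : AlgebraicClosure ℚ, l ^ 10 = 1 → l ≠ 0 := by
    intro l hl h; rw [h] at hl; norm_num at hl
  refine ⟨u0, v0, t, hH, hT, hf, ⟨lam, hlam, hu0, hv0⟩, htT, htf, ?_, ?_⟩
  · obtain ⟨h1, h2⟩ := hw1 complexConjugation lam hlam hu0 hv0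
    exact hfix complexConjugation lam (hne lam hlam) hu0 hv0 h1 h2 (Or.inr rfl)
  · intro τ l hl h1 h2 hτζ hτi
    obtain ⟨h3, h4⟩ := hw1 τ l hl h1 h2
    exact hfix τ l (hne l hl) h1 h2 h3 h4 (Or.inl ⟨hτζ, hτi⟩)

/-- **Main export, explicit form, for the line `Φ_t(w0) = T(w0) • w0 + t • H(w0) • (f_v, -f_u)(w0)`.**
Same statement as `h42rr_main_explicit` for helper86's parametrisation. -/
theorem h42rr_main_explicit_Phi (A B : ℚ) (hA : A ≠ 0) (hB : B ≠ 0) (hΔ : B ^ 2 + A ^ 3 ≠ 0)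
    (ζ i : AlgebraicClosure ℚ) (hζ : ζ ^ 4 + ζ ^ 3 + ζ ^ 2 + ζ + 1 = 0) (hi : i ^ 2 = -1) :
    ∃ u0 v0 t : AlgebraicClosure ℚ,
      h42rr_H u0 v0 = (A : AlgebraicClosure ℚ) ∧ h42rr_T u0 v0 = (B : AlgebraicClosure ℚ) ∧
      h42rr_f u0 v0 ≠ 0 ∧
      (∃ lam : AlgebraicClosure ℚ, lam ^ 10 = 1 ∧ complexConjugation u0 = lam * u0 ∧
        complexConjugation v0 = lam * v0) ∧
      h42rr_T (h42rr_T u0 v0 * u0 + t * (h42rr_H u0 v0 * h42rr_fv u0 v0))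
        (h42rr_T u0 v0 * v0 + t * (h42rr_H u0 v0 * -h42rr_fu u0 v0)) = 0 ∧
      h42rr_f (h42rr_T u0 v0 * u0 + t * (h42rr_H u0 v0 * h42rr_fv u0 v0))
        (h42rr_T u0 v0 * v0 + t * (h42rr_H u0 v0 * -h42rr_fu u0 v0)) ≠ 0 ∧
      complexConjugation t = t ∧
      ∀ (τ : AlgebraicClosure ℚ ≃ₐ[ℚ] AlgebraicClosure ℚ) (lam : AlgebraicClosure ℚ),
        lam ^ 10 = 1 → τ u0 = lam * u0 → τ v0 = lam * v0 → τ ζ = ζ → τ i = i → τ t = t := by
  obtain ⟨u0, v0, lam, hH, hT, hlam, hu0, hv0⟩ := h42rr_exists_base A B hA hB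
  have hAq : (A : AlgebraicClosure ℚ) ≠ 0 := by exact_mod_cast hA
  have hBq : (B : AlgebraicClosure ℚ) ≠ 0 := by exact_mod_cast hB
  have hf : h42rr_f u0 v0 ≠ 0 := by
    intro hf
    have := h42rr_klein_rel u0 v0
    rw [hH, hT, hf] at this
    apply hΔ
    have h2 : ((B ^ 2 + A ^ 3 : ℚ) : AlgebraicClosure ℚ) = 0 := by
      push_cast
      linear_combination this
    exact_mod_cast h2
  have hH0 : h42rr_H u0 v0 ≠ 0 := by rw [hH]; exact hAq
  have hT0 : h42rr_T u0 v0 ≠ 0 := by rw [hT]; exact hBq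
  have hdet : h42rr_T u0 v0 * u0 * (h42rr_H u0 v0 * -h42rr_fu u0 v0)
      - h42rr_T u0 v0 * v0 * (h42rr_H u0 v0 * h42rr_fv u0 v0) ≠ 0 := by
    have := h42rr_euler u0 v0
    intro h0
    have h12 : h42rr_T u0 v0 * h42rr_H u0 v0 * (12 * h42rr_f u0 v0) = 0 := by
      linear_combination -h0 - h42rr_T u0 v0 * h42rr_H u0 v0 * this
    have h12' : (12 : AlgebraicClosure ℚ) ≠ 0 := by norm_num
    exact mul_ne_zero (mul_ne_zero hT0 hH0) (mul_ne_zero h12' hf) h12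
  obtain ⟨t, htT, htf, hfix⟩ :=
    h42rr_explicit_param_Qbar ζ i hζ hi (h42rr_T u0 v0 * u0) (h42rr_T u0 v0 * v0)
      (h42rr_H u0 v0 * h42rr_fv u0 v0) (h42rr_H u0 v0 * -h42rr_fu u0 v0) hdet
  have hw : ∀ (σ : AlgebraicClosure ℚ ≃ₐ[ℚ] AlgebraicClosure ℚ) (l : AlgebraicClosure ℚ),
      l ^ 10 = 1 → σ u0 = l * u0 → σ v0 = l * v0 →
      σ (h42rr_T u0 v0 * u0) = l * (h42rr_T u0 v0 * u0) ∧
      σ (h42rr_T u0 v0 * v0) = l * (h42rr_T u0 v0 * v0) ∧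
      σ (h42rr_H u0 v0 * h42rr_fv u0 v0) = l * (h42rr_H u0 v0 * h42rr_fv u0 v0) ∧
      σ (h42rr_H u0 v0 * -h42rr_fu u0 v0) = l * (h42rr_H u0 v0 * -h42rr_fu u0 v0) := by
    intro σ l hl h1 h2
    have h11 : l ^ 11 = l := by rw [pow_succ, hl, one_mul]
    have h20 : l ^ 20 = 1 := by
      have : l ^ 20 = (l ^ 10) ^ 2 := by ring
      rw [this, hl, one_pow]
    have h30 : l ^ 30 = 1 := by
      have : l ^ 30 = (l ^ 10) ^ 3 := by ring
      rw [this, hl, one_pow]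
    have hcT : σ (h42rr_T u0 v0) = h42rr_T u0 v0 := by
      rw [h42rr_T_map, h1, h2, h42rr_T_smul, h30, one_mul]
    have hcH : σ (h42rr_H u0 v0) = h42rr_H u0 v0 := by
      rw [h42rr_H_map, h1, h2, h42rr_H_smul, h20, one_mul]
    refine ⟨?_, ?_, ?_, ?_⟩
    · rw [map_mul, hcT, h1]; ring
    · rw [map_mul, hcT, h2]; ring
    · rw [map_mul, hcH, h42rr_fv_map, h1, h2, h42rr_fv_smul, h11]; ring
    · rw [map_mul, hcH, map_neg, h42rr_fu_map, h1, h2, h42rr_fu_smul, h11]; ring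
  have hne : ∀ l : AlgebraicClosure ℚ, l ^ 10 = 1 → l ≠ 0 := by
    intro l hl h; rw [h] at hl; norm_num at hl
  refine ⟨u0, v0, t, hH, hT, hf, ⟨lam, hlam, hu0, hv0⟩, htT, htf, ?_, ?_⟩
  · obtain ⟨h1, h2, h3, h4⟩ := hw complexConjugation lam hlam hu0 hv0
    exact hfix complexConjugation lam (hne lam hlam) h1 h2 h3 h4 (Or.inr rfl)
  · intro τ l hl h1 h2 hτζ hτi
    obtain ⟨h3, h4, h5, h6⟩ := hw τ l hl h1 h2
    exact hfix τ l (hne l hl) h3 h4 h5 h6 (Or.inl ⟨hτζ, hτi⟩)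

end Fermat.Agent.S52
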