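import Fermat.Agent.S52.Skeleton3
import Fermat.Agent.S52.RealRootExplicit
import Fermat.Agent.S52.H19Galois

/-!
# S52, row FAMASM: assembly of the icosahedral family (`IfaceFamAsmZ`)

Owner: helper72.  Proves `IfaceFamAsmZ` of `Skeleton3.lean`:

`IfaceShortZ → IfaceSSNZ → IfaceRatZ → IfaceCoreSepZ → IfaceCoreIsoZ → IfaceInertia3w →
  IfaceCoprime → IfaceFam`.

Steps: base point `(u₀, v₀)` and the conjugation-fixed parameter `t` from
`h42rr_main_explicit (-c₄) (-c₆)`; rational polynomials `PH`, `PT` from `IfaceRatZ`; a common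
denominator `D ≠ 0` such that `C₄ := -PH(D X)` and `C₆ := -PT(D X)` have integer coefficients;
the three clauses of `IfaceFam` from `IfaceCoreIsoZ` + `IfaceShortZ`, `IfaceCoprime`, and
`IfaceInertia3w` + `IfaceCoreSepZ` + `h19g_exists_aux_prime'`.
-/

set_option autoImplicit false

namespace Fermat.Agent.S52

open Polynomial

/-- `SameModRep` is symmetric. -/
theorem h72f_sameModRep_symm {p : ℕ} {W W' : WeierstrassCurve ℤ} (h : SameModRep p W W') :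
    SameModRep p W' W := by
  obtain ⟨e, he⟩ := h
  refine ⟨e.symm, fun σ y => ?_⟩
  apply e.injective
  rw [he, AddEquiv.apply_symm_apply, AddEquiv.apply_symm_apply]

/-- `SameModRep` is transitive. -/
theorem h72f_sameModRep_trans {p : ℕ} {W W' W'' : WeierstrassCurve ℤ}
    (h : SameModRep p W W') (h' : SameModRep p W' W'') : SameModRep p W W'' := by
  obtain ⟨e, he⟩ := h
  obtain ⟨e', he'⟩ := h'
  refine ⟨e.trans e', fun σ x => ?_⟩
  rw [AddEquiv.trans_apply, AddEquiv.trans_apply, he, he']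

/-- Triviality of an automorphism on the `p`-torsion transfers along `SameModRep`. -/
theorem h72f_trivial_of_sameModRep {p : ℕ} {W W' : WeierstrassCurve ℤ}
    (h : SameModRep p W W') (σ : AlgebraicClosure ℚ ≃ₐ[ℚ] AlgebraicClosure ℚ)
    (hσ : ∀ x : h86_Tors W p, σ • x = x) (y : h86_Tors W' p) : σ • y = y := by
  obtain ⟨e, he⟩ := h
  have h1 := he σ (e.symm y)
  rw [hσ, AddEquiv.apply_symm_apply] at h1
  exact h1.symm

/-- A rational polynomial has a nonzero integer multiple of all its coefficients integral. -/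
theorem h72f_exists_den (P : ℚ[X]) :
    ∃ D : ℤ, D ≠ 0 ∧ ∀ k : ℕ, ∃ n : ℤ, (D : ℚ) * P.coeff k = n := by
  obtain ⟨b, hb⟩ := IsLocalization.exist_integer_multiples (nonZeroDivisors ℤ) P.support
    (fun k => P.coeff k)
  refine ⟨(b : ℤ), nonZeroDivisors.coe_ne_zero b, fun k => ?_⟩
  by_cases hk : k ∈ P.support
  · obtain ⟨n, hn⟩ := hb k hk
    refine ⟨n, ?_⟩
    have h1 : ((b : ℤ) : ℚ) * P.coeff k = (b : ℤ) • P.coeff k := by
      rw [zsmul_eq_mul]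
    have h2 : (n : ℚ) = algebraMap ℤ ℚ n := rfl
    rw [h1, h2, hn]
  · refine ⟨0, ?_⟩
    rw [Polynomial.notMem_support_iff.mp hk]
    simp

/-- Integer normalisation: if `D • P` has integral coefficients and the constant term of `P` is
integral, then `P(D X)` has integral coefficients. -/
theorem h72f_exists_int_poly (P : ℚ[X]) (c : ℤ) (h0 : P.coeff 0 = c) (D : ℤ)
    (hD : ∀ k : ℕ, ∃ n : ℤ, (D : ℚ) * P.coeff k = n) :
    ∃ C : ℤ[X], C.map (Int.castRingHom ℚ) = P.comp (Polynomial.C (D : ℚ) * X) := by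
  have hmem : P.comp (Polynomial.C (D : ℚ) * X) ∈ Polynomial.lifts (Int.castRingHom ℚ) := by
    rw [Polynomial.lifts_iff_coeff_lifts]
    intro k
    rw [Polynomial.comp_C_mul_X_coeff]
    rcases Nat.eq_zero_or_pos k with hk | hk
    · subst hk
      refine ⟨c, ?_⟩
      rw [h0]
      simp
    · obtain ⟨n, hn⟩ := hD k
      refine ⟨n * D ^ (k - 1), ?_⟩
      have hk' : k = (k - 1) + 1 := by omega
      have : (D : ℚ) ^ k = D ^ (k - 1) * D := by
        conv_lhs => rw [hk', pow_succ]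
      rw [this]
      have h3 : (Int.castRingHom ℚ) (n * D ^ (k - 1)) = (n : ℚ) * (D : ℚ) ^ (k - 1) := by
        simp
      rw [h3, ← hn]
      ring
  exact (Polynomial.mem_lifts _).mp hmem

/-- Evaluation of the integer normalisation at a point of `ℚ̄`. -/
theorem h72f_aeval_of_map (P : ℚ[X]) (C : ℤ[X]) (D : ℤ)
    (hC : C.map (Int.castRingHom ℚ) = P.comp (Polynomial.C (D : ℚ) * X))
    (s : AlgebraicClosure ℚ) :
    aeval s C = aeval ((D : AlgebraicClosure ℚ) * s) P := by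
  have h1 : aeval s C = aeval s (C.map (Int.castRingHom ℚ)) := by
    have := Polynomial.aeval_map_algebraMap (A := ℚ) (B := AlgebraicClosure ℚ) s C
    rw [← this]
    rfl
  rw [h1, hC, Polynomial.aeval_comp]
  congr 1
  simp

/-- Evaluation of an integer polynomial at an integer, seen in `ℚ̄`. -/
theorem h72f_aeval_intCast (C : ℤ[X]) (s : ℤ) :
    aeval (s : AlgebraicClosure ℚ) C = ((C.eval s : ℤ) : AlgebraicClosure ℚ) := by
  have := Polynomial.aeval_algebraMap_apply (AlgebraicClosure ℚ) s C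
  simpa using this

/-- A common nonzero integer `D` and integer polynomials `C₄ = -PH(D X)`, `C₆ = -PT(D X)`. -/
theorem h72f_exists_family (PH PT : ℚ[X]) (c₄ c₆ : ℤ) (h4 : PH.coeff 0 = -(c₄ : ℚ))
    (h6 : PT.coeff 0 = -(c₆ : ℚ)) :
    ∃ (D : ℤ) (C₄ C₆ : ℤ[X]), D ≠ 0 ∧
      (∀ s : AlgebraicClosure ℚ,
        aeval s C₄ = -aeval ((D : AlgebraicClosure ℚ) * s) PH) ∧
      (∀ s : AlgebraicClosure ℚ,
        aeval s C₆ = -aeval ((D : AlgebraicClosure ℚ) * s) PT) := by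
  obtain ⟨D1, hD1, h1⟩ := h72f_exists_den PH
  obtain ⟨D2, hD2, h2⟩ := h72f_exists_den PT
  have hA : ∀ k : ℕ, ∃ n : ℤ, ((D1 * D2 : ℤ) : ℚ) * (-PH).coeff k = n := by
    intro k
    obtain ⟨n, hn⟩ := h1 k
    refine ⟨-(D2 * n), ?_⟩
    push_cast
    rw [← hn, Polynomial.coeff_neg]
    ring
  have hB : ∀ k : ℕ, ∃ n : ℤ, ((D1 * D2 : ℤ) : ℚ) * (-PT).coeff k = n := by
    intro k
    obtain ⟨n, hn⟩ := h2 k
    refine ⟨-(D1 * n), ?_⟩
    push_cast
    rw [← hn, Polynomial.coeff_neg]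
    ring
  obtain ⟨C₄, hC₄⟩ := h72f_exists_int_poly (-PH) c₄
    (by rw [Polynomial.coeff_neg, h4, neg_neg]) (D1 * D2) hA
  obtain ⟨C₆, hC₆⟩ := h72f_exists_int_poly (-PT) c₆
    (by rw [Polynomial.coeff_neg, h6, neg_neg]) (D1 * D2) hB
  refine ⟨D1 * D2, C₄, C₆, mul_ne_zero hD1 hD2, fun s => ?_, fun s => ?_⟩
  · rw [h72f_aeval_of_map (-PH) C₄ (D1 * D2) hC₄ s, map_neg]
  · rw [h72f_aeval_of_map (-PT) C₆ (D1 * D2) hC₆ s, map_neg]

/-- A primitive fifth root of unity in `ℚ̄`, as a root of `X⁴ + X³ + X² + X + 1`. -/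
theorem h72f_exists_zeta :
    ∃ ζ : AlgebraicClosure ℚ, ζ ^ 4 + ζ ^ 3 + ζ ^ 2 + ζ + 1 = 0 := by
  obtain ⟨ζ, hζ⟩ := HasEnoughRootsOfUnity.exists_primitiveRoot (AlgebraicClosure ℚ) 5
  refine ⟨ζ, ?_⟩
  have h1 : ζ ≠ 1 := hζ.ne_one (by norm_num)
  have h5 : ζ ^ 5 = 1 := hζ.pow_eq_one
  have h2 : (ζ - 1) * (ζ ^ 4 + ζ ^ 3 + ζ ^ 2 + ζ + 1) = 0 := by
    linear_combination h5
  rcases mul_eq_zero.mp h2 with h | h
  · exact absurd (sub_eq_zero.mp h) h1
  · exact h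

/-- `Δ ≠ 0` gives `c₄³ ≠ c₆²`. -/
theorem h72f_c_ne (W : WeierstrassCurve ℤ) (hΔ : W.Δ ≠ 0) : W.c₄ ^ 3 ≠ W.c₆ ^ 2 := by
  intro h
  apply hΔ
  have hrel := W.c_relation
  have h0 : 1728 * W.Δ = 0 := by rw [hrel, h, sub_self]
  rcases mul_eq_zero.mp h0 with h1 | h1
  · norm_num at h1
  · exact h1

/-- **(FAMASM)** Assembly of the icosahedral family through a semistable `W`. -/
theorem h72f_famAsmZ : IfaceFamAsmZ := by
  intro hShort hNZ hRat hSep hIso hIn hCop W hΔ hW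
  obtain ⟨hc₄, hc₆⟩ := hNZ W hΔ hW
  have hAB : W.c₄ ^ 3 ≠ W.c₆ ^ 2 := h72f_c_ne W hΔ
  obtain ⟨ζ, hζ⟩ := h72f_exists_zeta
  obtain ⟨i, hi⟩ := IsAlgClosed.exists_pow_nat_eq (-1 : AlgebraicClosure ℚ) (n := 2) two_pos
  have hA0 : (-(W.c₄ : ℚ)) ≠ 0 := neg_ne_zero.mpr (by exact_mod_cast hc₄)
  have hB0 : (-(W.c₆ : ℚ)) ≠ 0 := neg_ne_zero.mpr (by exact_mod_cast hc₆)
  have hΔ0 : (-(W.c₆ : ℚ)) ^ 2 + (-(W.c₄ : ℚ)) ^ 3 ≠ 0 := by
    intro h
    apply hAB
    have h' : ((W.c₄ ^ 3 : ℤ) : ℚ) = ((W.c₆ ^ 2 : ℤ) : ℚ) := by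
      push_cast
      linear_combination -h
    exact_mod_cast h'
  obtain ⟨u0, v0, t, hH, hT, -, -, htT, -, hct, hfix⟩ :=
    h42rr_main_explicit (-(W.c₄ : ℚ)) (-(W.c₆ : ℚ)) hA0 hB0 hΔ0 ζ i hζ hi
  have hH' : h42rr_H u0 v0 = -((W.c₄ : ℤ) : AlgebraicClosure ℚ) := by
    rw [hH]; push_cast; rfl
  have hT' : h42rr_T u0 v0 = -((W.c₆ : ℤ) : AlgebraicClosure ℚ) := by
    rw [hT]; push_cast; rfl
  obtain ⟨PH, PT, hP⟩ := hRat W.c₄ W.c₆ hAB u0 v0 hH' hT'
  have hinj := (algebraMap ℚ (AlgebraicClosure ℚ)).injective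
  have h4 : PH.coeff 0 = -(W.c₄ : ℚ) := by
    apply hinj
    rw [Polynomial.coeff_zero_eq_aeval_zero', ← (hP 0).1, zero_mul, zero_mul, add_zero,
      add_zero, hH']
    simp
  have h6 : PT.coeff 0 = -(W.c₆ : ℚ) := by
    apply hinj
    rw [Polynomial.coeff_zero_eq_aeval_zero', ← (hP 0).2, zero_mul, zero_mul, add_zero,
      add_zero, hT']
    simp
  obtain ⟨D, C₄, C₆, hD, hC₄, hC₆⟩ := h72f_exists_family PH PT W.c₄ W.c₆ h4 h6
  have hHs : ∀ s : ℤ,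
      h42rr_H (u0 + ((D * s : ℤ) : AlgebraicClosure ℚ) * h42rr_fv u0 v0)
        (v0 + ((D * s : ℤ) : AlgebraicClosure ℚ) * -h42rr_fu u0 v0)
        = -((C₄.eval s : ℤ) : AlgebraicClosure ℚ) := by
    intro s
    rw [(hP _).1, ← h72f_aeval_intCast, hC₄, neg_neg]
    push_cast
    rfl
  have hTs : ∀ s : ℤ,
      h42rr_T (u0 + ((D * s : ℤ) : AlgebraicClosure ℚ) * h42rr_fv u0 v0)
        (v0 + ((D * s : ℤ) : AlgebraicClosure ℚ) * -h42rr_fu u0 v0)
        = -((C₆.eval s : ℤ) : AlgebraicClosure ℚ) := by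
    intro s
    rw [(hP _).2, ← h72f_aeval_intCast, hC₆, neg_neg]
    push_cast
    rfl
  have hC₄0 : C₄.eval 0 = W.c₄ := by
    have h := hHs 0
    rw [mul_zero, Int.cast_zero, zero_mul, zero_mul, add_zero, add_zero, hH', neg_inj] at h
    exact_mod_cast h.symm
  have hC₆0 : C₆.eval 0 = W.c₆ := by
    have h := hTs 0
    rw [mul_zero, Int.cast_zero, zero_mul, zero_mul, add_zero, add_zero, hT', neg_inj] at h
    exact_mod_cast h.symm
  refine ⟨C₄, C₆, hC₄0, hC₆0, ?_, ?_, ?_⟩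
  · -- the mod-5 representation is constant along the family
    intro s W' h4' h6' hΔ'
    have hAB' : W'.c₄ ^ 3 ≠ W'.c₆ ^ 2 := h72f_c_ne W' hΔ'
    have h1 := hShort W 5
    have h2 := hShort W' 5
    have h3 := hIso W.c₄ W.c₆ hAB u0 v0 hH' hT' ((D * s : ℤ) : ℚ) W'.c₄ W'.c₆ hAB'
      (by rw [Rat.cast_intCast, hHs s, h4']) (by rw [Rat.cast_intCast, hTs s, h6'])
    exact h72f_sameModRep_trans h1 (h72f_sameModRep_trans h3 (h72f_sameModRep_symm h2))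
  · -- coprimality away from `30 (c₄³ - c₆²)`
    refine ⟨(30 * (W.c₄ ^ 3 - W.c₆ ^ 2)).natAbs, ?_, ?_⟩
    · rw [Ne, Int.natAbs_eq_zero]
      exact mul_ne_zero (by norm_num) (sub_ne_zero.mpr hAB)
    · rintro p hp hpN s ⟨ha, hb⟩
      have hnd : ¬ (p : ℤ) ∣ 30 * (W.c₄ ^ 3 - W.c₆ ^ 2) := by
        rw [Int.natCast_dvd]
        exact hpN
      exact hCop W.c₄ W.c₆ u0 v0 hH' hT' p hp hnd (D * s) (-(C₄.eval s)) (-(C₆.eval s))
        (by rw [hHs s, Int.cast_neg]) (by rw [hTs s, Int.cast_neg])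
        ⟨(dvd_neg).mpr ha, (dvd_neg).mpr hb⟩
  · -- the auxiliary primes
    intro S
    obtain ⟨τ, hτW, hτz, hτi, hτs⟩ := hIn W hΔ hW
    have hτshort : ∀ y : h86_Tors (h86_shortZ W.c₄ W.c₆) 5, τ • y = y :=
      h72f_trivial_of_sameModRep (hShort W 5) τ hτW
    obtain ⟨lam, hlam, hu, hv⟩ := hSep W.c₄ W.c₆ hAB u0 v0 hH' hT' τ hτshort hτz
    have hζ5 : ζ ^ 5 = 1 := by linear_combination (ζ - 1) * hζ
    have hτt : τ t = t := hfix τ lam hlam hu hv (hτz ζ hζ5) (hτi i hi)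
    have hDq : (D : AlgebraicClosure ℚ) ≠ 0 := by exact_mod_cast hD
    have hroot : aeval (t / (D : AlgebraicClosure ℚ)) C₆ = 0 := by
      rw [hC₆, mul_div_cancel₀ _ hDq, ← (hP t).2, htT, neg_zero]
    have hC₆ne : C₆ ≠ 0 := by
      intro h
      apply hc₆
      rw [← hC₆0, h, Polynomial.eval_zero]
    obtain ⟨r, hr, hrS, hr12, t1, ht1, -⟩ :=
      h19g_exists_aux_prime' C₆ 1 (t / (D : AlgebraicClosure ℚ)) hC₆ne hroot
        (by rw [map_one]; exact one_ne_zero)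
        (by rw [map_div₀, hct, map_intCast]) τ
        (by rw [map_div₀, hτt, map_intCast]) hτi hτs S
    exact ⟨r, hr, hrS, hr12, t1, ht1⟩

end Fermat.Agent.S52
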