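import Fermat.Agent.S52.Skeleton2

/-!
# S52: frozen interfaces, version Z (integral short models) -- THE TARGETS

Architect: helper86.  This file supersedes the `ℚ`-curve interfaces of `Skeleton2.lean`
(`IfaceShort`, `IfaceCoreDesc`, `IfaceCoreSep`, `IfaceCoreIso`, `IfaceInertia3`, `IfaceRat`,
`IfaceRatOf`, `IfaceFamAsm`): everything is stated for the *integral* short model
`h86_shortZ A B : y² = x³ - 27 A x - 54 B` (`A, B ∈ ℤ`), so that all P-EFROB theorems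
(`EFrob.galoisDet_eq_of_zeta`, `EFrob.finalU`, ...) apply directly, and the inertia interface
no longer mentions the roots of `T(z, 1)` (`h42rr_main_explicit` makes that clause unnecessary).
`IfaceSSNZ` and `IfaceCoprime` of `Skeleton2.lean` are unchanged.

DAG:
  CORE (FORMULAS + `EFrob.galoisDet_eq_of_zeta`) → `IfaceCoreDescZ`, `IfaceCoreSepZ`,
    `IfaceCoreIsoZ`;   `IfaceCoreDescZ` → (RATOF) → `IfaceRatZ`;
  `IfaceShortZ`, `IfaceSSNZ`, `IfaceRatZ`, `IfaceCoreSepZ`, `IfaceCoreIsoZ`, `IfaceInertia3w`,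
    `IfaceCoprime`, `h42rr_main_explicit`, `h19g_exists_aux_prime'` → (FAMASM) → `IfaceFam`;
  `IfaceFam` → (MODEL) → `IfaceSwitch`;  `IfaceSwitch`, `IfaceCongr`, `IfaceIrr3` → S52.
-/

set_option autoImplicit false

namespace Fermat.Agent.S52

open WeierstrassCurve WeierstrassCurve.Affine

/-- The integral short Weierstrass curve `y² = x³ - 27 A x - 54 B`. -/
def h86_shortZ (A B : ℤ) : WeierstrassCurve ℤ := ⟨0, 0, 0, -27 * A, -54 * B⟩

/-- **(SHORT-Z)** `W` and its short model `y² = x³ - 27 c₄ x - 54 c₆` have isomorphic mod-`p`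
representations (variable change `X = 36 x + 3 b₂`, `Y = 108 (2 y + a₁ x + a₃)` over `ℚ`;
`S05/VarChange.lean`, `EFrob/CongrVC.lean`).  No hypothesis on `Δ`. -/
def IfaceShortZ : Prop :=
  ∀ (W : WeierstrassCurve ℤ) (p : ℕ), SameModRep p W (h86_shortZ W.c₄ W.c₆)

/-- **(CORE-DESC-Z)** Galois descent of the base point: every `σ ∈ G_ℚ` moves a base point of
`(A, B)` by a Klein symmetry and a `10`-th root of unity. -/
def IfaceCoreDescZ : Prop :=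
  ∀ A B : ℤ, A ^ 3 ≠ B ^ 2 → ∀ u₀ v₀ : AlgebraicClosure ℚ,
    h42rr_H u₀ v₀ = -(A : AlgebraicClosure ℚ) → h42rr_T u₀ v₀ = -(B : AlgebraicClosure ℚ) →
    ∀ σ : AlgebraicClosure ℚ ≃ₐ[ℚ] AlgebraicClosure ℚ,
      ∃ a b c d lam : AlgebraicClosure ℚ, IsKleinSym a b c d ∧ lam ^ 10 = 1 ∧
        σ u₀ = lam * (a * u₀ + b * v₀) ∧ σ v₀ = lam * (c * u₀ + d * v₀)

/-- **(CORE-SEP-Z)** Separation: a `σ ∈ G_ℚ` which fixes the `5`-torsion of `h86_shortZ A B`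
pointwise and fixes the `5`-th roots of unity moves a base point by a `10`-th root of unity. -/
def IfaceCoreSepZ : Prop :=
  ∀ A B : ℤ, A ^ 3 ≠ B ^ 2 → ∀ u₀ v₀ : AlgebraicClosure ℚ,
    h42rr_H u₀ v₀ = -(A : AlgebraicClosure ℚ) → h42rr_T u₀ v₀ = -(B : AlgebraicClosure ℚ) →
    ∀ σ : AlgebraicClosure ℚ ≃ₐ[ℚ] AlgebraicClosure ℚ,
      (∀ x : h86_Tors (h86_shortZ A B) 5, σ • x = x) →
      (∀ z : AlgebraicClosure ℚ, z ^ 5 = 1 → σ z = z) →
      ∃ lam : AlgebraicClosure ℚ, lam ^ 10 = 1 ∧ σ u₀ = lam * u₀ ∧ σ v₀ = lam * v₀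

/-- **(CORE-ISO-Z)** Two points of the covariant line through a base point with integral
invariants carry isomorphic mod-5 representations. -/
def IfaceCoreIsoZ : Prop :=
  ∀ A B : ℤ, A ^ 3 ≠ B ^ 2 → ∀ u₀ v₀ : AlgebraicClosure ℚ,
    h42rr_H u₀ v₀ = -(A : AlgebraicClosure ℚ) → h42rr_T u₀ v₀ = -(B : AlgebraicClosure ℚ) →
    ∀ (s : ℚ) (A' B' : ℤ), A' ^ 3 ≠ B' ^ 2 →
      h42rr_H (u₀ + s * h42rr_fv u₀ v₀) (v₀ + s * -h42rr_fu u₀ v₀)
        = -(A' : AlgebraicClosure ℚ) →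
      h42rr_T (u₀ + s * h42rr_fv u₀ v₀) (v₀ + s * -h42rr_fu u₀ v₀)
        = -(B' : AlgebraicClosure ℚ) →
      SameModRep 5 (h86_shortZ A B) (h86_shortZ A' B')

/-- **(INERTIA3-w)** For a semistable `W` there is `τ ∈ G_ℚ` (the fifth power of an inertia
element at `3` which moves `√-3`) acting trivially on `W[5]`, on the fifth roots of unity and on
`√-1`, and negating a square root of `-3`. -/
def IfaceInertia3w : Prop :=
  ∀ W : WeierstrassCurve ℤ, W.Δ ≠ 0 → W.IsSemistableModel →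
    ∃ τ : AlgebraicClosure ℚ ≃ₐ[ℚ] AlgebraicClosure ℚ,
      (∀ x : h86_Tors W 5, τ • x = x) ∧
      (∀ z : AlgebraicClosure ℚ, z ^ 5 = 1 → τ z = z) ∧
      (∀ i : AlgebraicClosure ℚ, i ^ 2 = -1 → τ i = i) ∧
      ∃ s : AlgebraicClosure ℚ, s ^ 2 = -3 ∧ τ s = -s

/-- **(RAT-Z)** Rationality of the family: the restrictions of `H` and `T` to the covariant
line through a base point are polynomials with rational coefficients. -/
def IfaceRatZ : Prop :=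
  ∀ A B : ℤ, A ^ 3 ≠ B ^ 2 → ∀ u₀ v₀ : AlgebraicClosure ℚ,
    h42rr_H u₀ v₀ = -(A : AlgebraicClosure ℚ) → h42rr_T u₀ v₀ = -(B : AlgebraicClosure ℚ) →
    ∃ PH PT : Polynomial ℚ, ∀ s : AlgebraicClosure ℚ,
      h42rr_H (u₀ + s * h42rr_fv u₀ v₀) (v₀ + s * -h42rr_fu u₀ v₀)
        = Polynomial.aeval s PH ∧
      h42rr_T (u₀ + s * h42rr_fv u₀ v₀) (v₀ + s * -h42rr_fu u₀ v₀)
        = Polynomial.aeval s PT

/-- **(RATOF-Z)** `IfaceCoreDescZ → IfaceRatZ` (the coefficients are fixed by `G_ℚ`). -/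
def IfaceRatOfZ : Prop := IfaceCoreDescZ → IfaceRatZ

/-- **(FAMASM-Z)** Assembly of the family. -/
def IfaceFamAsmZ : Prop :=
  IfaceShortZ → IfaceSSNZ → IfaceRatZ → IfaceCoreSepZ → IfaceCoreIsoZ → IfaceInertia3w →
    IfaceCoprime → IfaceFam

/-- **Assembly of S52** from all the leaves of version Z. -/
theorem s52_of_leaves (hC : IfaceCongr) (hI : IfaceIrr3) (hM : IfaceModel)
    (hFA : IfaceFamAsmZ) (hRO : IfaceRatOfZ) (hSh : IfaceShortZ) (hNZ : IfaceSSNZ)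
    (hD : IfaceCoreDescZ) (hSep : IfaceCoreSepZ) (hIso : IfaceCoreIsoZ)
    (hIn : IfaceInertia3w) (hCop : IfaceCoprime)
    (W : WeierstrassCurve ℤ) (hΔ : W.Δ ≠ 0) (hW : W.IsSemistableModel) :
    ∃ W' : WeierstrassCurve ℤ, W'.Δ ≠ 0 ∧ W'.IsSemistableModel ∧ W'.ModRepIsIrreducible 3 ∧
      ∀ ℓ : ℕ, ℓ.Prime → W.IsGoodPrimeFor ℓ → W'.IsGoodPrimeFor ℓ → ℓ ≠ 5 →
        (5 : ℤ) ∣ (W'.apOfModel ℓ - W.apOfModel ℓ) :=
  s52_of hC hI (hM (hFA hSh hNZ (hRO hD) hSep hIso hIn hCop)) W hΔ hW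

end Fermat.Agent.S52
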