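import Fermat.Agent.S52.Short
import Fermat.Agent.S52.Skeleton3

/-!
# S52, row SHORTZ: `IfaceShortZ` from `ifaceShort`

helper72 (second seat).  The base change to `ℚ` of the integral short model
`h86_shortZ A B` is the rational short curve `h86_short A B`, so `ifaceShort` (helper82) gives
`SameModRep p W (h86_shortZ W.c₄ W.c₆)`.
-/

set_option autoImplicit false

namespace Fermat.Agent.S52

open WeierstrassCurve WeierstrassCurve.Affine

/-- Equal curves over `ℚ` have the same mod-`p` representation. -/
theorem h72z_sameModRepQ_of_eq (p : ℕ) {E E' : WeierstrassCurve ℚ} (h : E = E') :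
    SameModRepQ p E E' := by
  subst h
  exact ⟨AddEquiv.refl _, fun _ _ => rfl⟩

/-- The base change of the integral short model is the rational short curve. -/
theorem h72z_shortZ_map (A B : ℤ) :
    (h86_shortZ A B).map (Int.castRingHom ℚ) = h86_short (A : ℚ) (B : ℚ) := by
  ext <;> simp [h86_shortZ, h86_short]

/-- **(SHORT-Z)** -/
theorem h72z_shortZ : IfaceShortZ := by
  intro W p
  obtain ⟨e, he⟩ := ifaceShort W p
  obtain ⟨e', he'⟩ :=
    h72z_sameModRepQ_of_eq p (h72z_shortZ_map W.c₄ W.c₆).symm
  exact ⟨e.trans e', fun σ x => by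
    rw [AddEquiv.trans_apply, AddEquiv.trans_apply, he, he']⟩

end Fermat.Agent.S52
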