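import Fermat.Agent.S52.H78Nodal
import Fermat.Agent.S13.L2Frey

/-!
# S52, inertia leaf, part 4 (helper78): semistable curves have unipotent inertia

For an integral model `W` with `Δ ≠ 0` which is semistable at an odd prime `ℓ`
(`ℓ ∣ Δ → ℓ ∤ c₄`), a valuation subring `A` of `ℚ̄` over `ℓ` and `σ` in the inertia group of `A`:

* `h78_unipotent_int` : `σ • (σ • P - P) = σ • P - P` for every point `P` killed by `n`, `ℓ ∤ n`;
* `h78_pow_smul_eq` : `σ ^ p • P = P` for every point `P` killed by a prime `p ≠ ℓ`.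
-/

set_option autoImplicit false
set_option linter.unusedSectionVars false

namespace Fermat.Agent.S52

open WeierstrassCurve Fermat.Agent.S05 Fermat.Agent.S05.H76 Fermat.Agent.S13
open scoped WeierstrassCurve.Affine

local notation "Qbar" => AlgebraicClosure ℚ

/-- Coefficients of the base change of an integral model. -/
theorem h78_coeff_mem (W : WeierstrassCurve ℤ) (A : ValuationSubring Qbar) :
    ((W.map (Int.castRingHom ℚ))⁄Qbar).a₁ ∈ A ∧ ((W.map (Int.castRingHom ℚ))⁄Qbar).a₂ ∈ A ∧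
    ((W.map (Int.castRingHom ℚ))⁄Qbar).a₃ ∈ A ∧ ((W.map (Int.castRingHom ℚ))⁄Qbar).a₄ ∈ A ∧
    ((W.map (Int.castRingHom ℚ))⁄Qbar).a₆ ∈ A := by
  refine ⟨?_, ?_, ?_, ?_, ?_⟩ <;>
  · simp only [WeierstrassCurve.baseChange, WeierstrassCurve.map_a₁, WeierstrassCurve.map_a₂,
      WeierstrassCurve.map_a₃, WeierstrassCurve.map_a₄, WeierstrassCurve.map_a₆,
      eq_intCast, map_intCast]
    exact _root_.intCast_mem A _

theorem h78_Δ_eq (W : WeierstrassCurve ℤ) :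
    ((W.map (Int.castRingHom ℚ))⁄Qbar).Δ = ((W.Δ : ℤ) : Qbar) := by
  simp [WeierstrassCurve.baseChange, WeierstrassCurve.map_Δ]

theorem h78_c₄_eq (W : WeierstrassCurve ℤ) :
    ((W.map (Int.castRingHom ℚ))⁄Qbar).c₄ = ((W.c₄ : ℤ) : Qbar) := by
  simp [WeierstrassCurve.baseChange, WeierstrassCurve.map_c₄]

/-- **Unipotent inertia** for an integral model semistable at the odd prime `ℓ`. -/
theorem h78_unipotent_int (W : WeierstrassCurve ℤ) (hΔ : W.Δ ≠ 0) {ℓ : ℕ} (hℓ : ℓ.Prime)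
    (hℓ2 : ℓ ≠ 2) (hss : (ℓ : ℤ) ∣ W.Δ → ¬ (ℓ : ℤ) ∣ W.c₄) (A : ValuationSubring Qbar)
    (hA : A.LiesOverPrime ℓ) {n : ℕ} (hn : ¬ ℓ ∣ n) {σ : Qbar ≃ₐ[ℚ] Qbar}
    (hσ : σ ∈ A.inertiaSubgroupIn ℚ) (P : ((W.map (Int.castRingHom ℚ))⁄Qbar).Point)
    (hP : n • P = 0) : σ • (σ • P - P) = σ • P - P := by
  have hAq : ((ℓ : ℕ) : Qbar) ∈ A.nonunits := hA
  obtain ⟨ha₁, ha₂, ha₃, ha₄, ha₆⟩ := h78_coeff_mem W A
  have h2 : A.valuation (2 : Qbar) = 1 := two_isUnitOf hℓ hAq hℓ2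
  have hnu : ((n : ℕ) : Qbar) ∉ A.nonunits := by
    have h : ¬ (ℓ : ℤ) ∣ (n : ℤ) := by
      intro h; exact hn (by exact_mod_cast h)
    have := intCast_isUnitOf_of_not_dvd (K := Qbar) hℓ hAq h
    have h' := this.not_nonunit A
    simpa using h'
  have hII := kernelTorsionFree A (W := ((W.map (Int.castRingHom ℚ))⁄Qbar)) ha₁ ha₂ ha₃ ha₄ ha₆
    hnu
  by_cases hdvd : (ℓ : ℤ) ∣ W.Δ
  · -- multiplicative reduction
    have hc₄ : A.valuation ((W.map (Int.castRingHom ℚ))⁄Qbar).c₄ = 1 := by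
      rw [h78_c₄_eq]
      exact intCast_isUnitOf_of_not_dvd (K := Qbar) hℓ hAq (hss hdvd)
    have hΔ0 : ((W.map (Int.castRingHom ℚ))⁄Qbar).Δ ≠ 0 := by
      rw [h78_Δ_eq]
      exact_mod_cast hΔ
    have hΔm : A.valuation ((W.map (Int.castRingHom ℚ))⁄Qbar).Δ < 1 := by
      rw [h78_Δ_eq]
      obtain ⟨k, hk⟩ := hdvd
      rw [hk]
      push_cast
      rw [map_mul]
      have h1 : A.valuation ((ℓ : ℕ) : Qbar) < 1 := A.mem_nonunits_iff.mp hAq
      have h2' : A.valuation ((k : ℤ) : Qbar) ≤ 1 :=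
        (A.valuation_le_one_iff _).mpr (_root_.intCast_mem A k)
      calc A.valuation ((ℓ : ℕ) : Qbar) * A.valuation ((k : ℤ) : Qbar)
          ≤ A.valuation ((ℓ : ℕ) : Qbar) * 1 := by gcongr
        _ < 1 := by rw [mul_one]; exact h1
    obtain ⟨e, t, r₁, r₂, he, hV⟩ := h78_exists_nodal A ((W.map (Int.castRingHom ℚ))⁄Qbar)
      ha₁ ha₂ ha₃ ha₄ ha₆ h2 hΔ0 hΔm hc₄
    exact h78_inertia_unipotent (R := ℚ) (S := ℚ) (W.map (Int.castRingHom ℚ)) A ha₁ ha₂ ha₃ ha₄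
      ha₆ hV h2 he hσ (L2.inertia_valuation_eq A hℓ hA hσ) hnu P hP
  · -- good reduction
    have hΔu : ((W.map (Int.castRingHom ℚ))⁄Qbar).Δ ∉ A.nonunits := by
      rw [h78_Δ_eq]
      exact (intCast_isUnitOf_of_not_dvd (K := Qbar) hℓ hAq hdvd).not_nonunit A
    have key : ∀ Q : ((W.map (Int.castRingHom ℚ))⁄Qbar).Point, n • Q = 0 → σ • Q = Q :=
      fun Q hQ => H86.inertia_smul_eq_of_good (R := ℚ) (S := ℚ) (W.map (Int.castRingHom ℚ)) A
        ha₁ ha₂ ha₃ ha₄ ha₆ hΔu n hII hσ Q hQ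
    rw [key P hP, sub_self]
    exact smul_zero σ

/-- If `(σ - 1)² = 0` on a point killed by `p`, then `σ ^ p` fixes it. -/
theorem h78_pow_smul_eq {R : Type*} {S : Type*} {K : Type*} [CommRing R] [Field S] [Field K]
    [DecidableEq K] [Algebra R S] [Algebra R K] [Algebra S K] [IsScalarTower R S K]
    (W' : Affine R) (σ : K ≃ₐ[S] K) (p : ℕ)
    (P : (W'⁄K).Point) (hP : p • P = 0)
    (hσ : σ • (σ • P - P) = σ • P - P) : σ ^ p • P = P := by
  have key : ∀ k : ℕ, σ ^ k • P = P + k • (σ • P - P) := by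
    intro k
    induction k with
    | zero => simp
    | succ k ih =>
      have h1 : σ • (k • (σ • P - P)) = k • (σ • P - P) := by
        rw [smul_comm, hσ]
      rw [pow_succ', mul_smul, ih, smul_add, h1, succ_nsmul]
      abel
  have h3 : p • (σ • P - P) = 0 := by
    rw [smul_sub, hP, ← smul_comm, hP, smul_zero, sub_zero]
  rw [key p, h3, add_zero]

/-- **Inertia at `ℓ` acts on the `p`-torsion through a `p`-group** (semistable at the odd prime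
`ℓ ≠ p`): the `p`-th power of every inertia element fixes every point killed by `p`. -/
theorem h78_inertia_pow_int (W : WeierstrassCurve ℤ) (hΔ : W.Δ ≠ 0) {ℓ : ℕ} (hℓ : ℓ.Prime)
    (hℓ2 : ℓ ≠ 2) (hss : (ℓ : ℤ) ∣ W.Δ → ¬ (ℓ : ℤ) ∣ W.c₄) (A : ValuationSubring Qbar)
    (hA : A.LiesOverPrime ℓ) {p : ℕ} (hp : p.Prime) (hpℓ : ℓ ≠ p) {σ : Qbar ≃ₐ[ℚ] Qbar}
    (hσ : σ ∈ A.inertiaSubgroupIn ℚ) (P : ((W.map (Int.castRingHom ℚ))⁄Qbar).Point)
    (hP : p • P = 0) : σ ^ p • P = P := by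
  have hn : ¬ ℓ ∣ p := fun h => hpℓ ((Nat.prime_dvd_prime_iff_eq hℓ hp).mp h)
  exact h78_pow_smul_eq (R := ℚ) (S := ℚ) (W.map (Int.castRingHom ℚ)) σ p P hP
    (h78_unipotent_int W hΔ hℓ hℓ2 hss A hA hn hσ P hP)

end Fermat.Agent.S52
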