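import Mathlib
import Fermat.Prelude.Def_FLTPrelim_Ramification
import Fermat.Agent.S13.MinkLift
import Fermat.Agent.S05.H86Good

/-!
# S52, inertia leaf, part 5 (helper78): an inertia element at `3` moving `√-3`

* `h78_root_of_unity_fixed` : an element of the inertia group of `A` fixes every root of unity
  whose order is a unit of `A`;
* `h78_exists_inertia_neg_sqrt` : for every valuation subring `A` of `ℚ̄` over `3` there is an
  element of the inertia group of `A` which negates the square roots of `-3`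
  (`3` is ramified in `ℚ(√-3)`; lifting by `S13.M2_lift`).
-/

set_option autoImplicit false
set_option linter.unusedSectionVars false
set_option linter.style.haveILetI false

namespace Fermat.Agent.S52

open Fermat.Agent.S05 Polynomial

local notation "Qbar" => AlgebraicClosure ℚ

section RootsOfUnity

variable {k : Type*} {L : Type*} [Field k] [Field L] [Algebra k L]

/-- Inertia fixes the roots of unity of order prime to the residue characteristic. -/
theorem h78_root_of_unity_fixed (A : ValuationSubring L) {σ : L ≃ₐ[k] L}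
    (hσ : σ ∈ A.inertiaSubgroupIn k) {n : ℕ} (hn : A.valuation ((n : ℕ) : L) = 1) {z : L}
    (hz : z ^ n = 1) : σ z = z := by
  have hn0 : n ≠ 0 := by
    rintro rfl
    simp at hn
  have hz0 : z ≠ 0 := by
    rintro rfl
    rw [zero_pow hn0] at hz
    exact zero_ne_one hz
  have hzv : A.valuation z = 1 := by
    have := congrArg A.valuation hz
    rw [map_pow, map_one] at this
    exact (pow_eq_one_iff_of_nonneg zero_le hn0).mp this
  have hzA : z ∈ A := (A.valuation_le_one_iff _).mp hzv.le
  obtain ⟨hσz, hσz'⟩ := H86.inertia_apply_mem A hσ hzA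
  set u : L := σ z / z with hu
  have hun : u ^ n = 1 := by
    rw [hu, div_pow, ← map_pow, hz, map_one, div_one]
  have hu1 : A.valuation (u - 1) < 1 := by
    have e : u - 1 = (σ z - z) / z := by rw [hu]; field_simp
    rw [e, map_div₀, hzv, div_one]
    exact A.mem_nonunits_iff.mp hσz'
  have huA : A.valuation u ≤ 1 := by
    have e : u = (u - 1) + 1 := by ring
    rw [e]
    exact Valuation.map_add_le _ hu1.le (by rw [map_one])
  have hpow : ∀ j : ℕ, A.valuation (u ^ j - 1) < 1 := by
    intro j
    induction j with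
    | zero => simp
    | succ j ih =>
      have e : u ^ (j + 1) - 1 = u * (u ^ j - 1) + (u - 1) := by ring
      rw [e]
      refine Valuation.map_add_lt _ ?_ hu1
      rw [map_mul]
      calc A.valuation u * A.valuation (u ^ j - 1) ≤ 1 * A.valuation (u ^ j - 1) := by gcongr
        _ < 1 := by rw [one_mul]; exact ih
  have hsum : A.valuation (∑ j ∈ Finset.range n, u ^ j) = 1 := by
    have e : ∑ j ∈ Finset.range n, u ^ j = (n : L) + ∑ j ∈ Finset.range n, (u ^ j - 1) := by
      rw [Finset.sum_sub_distrib]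
      simp
    rw [e, Valuation.map_add_eq_of_lt_left, hn]
    rw [hn]
    exact Valuation.map_sum_lt _ one_ne_zero (fun j _ => hpow j)
  have hprod : (u - 1) * ∑ j ∈ Finset.range n, u ^ j = 0 := by
    rw [mul_geom_sum, hun, sub_self]
  rcases mul_eq_zero.mp hprod with h | h
  · have : u = 1 := sub_eq_zero.mp h
    rw [hu, div_eq_one_iff_eq hz0] at this
    exact this
  · rw [h, map_zero] at hsum
    exact absurd hsum zero_ne_one

end RootsOfUnity

section Sqrt

/-- Two Galois automorphisms which agree on a square root `s` of `-3` agree on the field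
generated by the roots of `X² + 3`. -/
theorem h78_agree (p : ℚ[X]) (hp : p = X ^ 2 + C 3) {s : Qbar} (hs : s ^ 2 = -3)
    (g h : Qbar ≃ₐ[ℚ] Qbar) (hgh : g s = h s) :
    ∀ w ∈ IntermediateField.adjoin ℚ (p.rootSet Qbar), g w = h w := by
  intro w hw
  have key : (g : Qbar →ₐ[ℚ] Qbar).comp (IntermediateField.adjoin ℚ (p.rootSet Qbar)).val =
      (h : Qbar →ₐ[ℚ] Qbar).comp (IntermediateField.adjoin ℚ (p.rootSet Qbar)).val := by
    apply IntermediateField.adjoin_algHom_ext
    intro x hx
    have hx2 : x ^ 2 = -3 := by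
      rw [Polynomial.mem_rootSet] at hx
      have := hx.2
      rw [hp] at this
      simp only [map_add, map_pow, aeval_X, aeval_C, eq_ratCast] at this
      have h3 : ((3 : ℚ) : Qbar) = 3 := by norm_num
      rw [h3] at this
      linear_combination this
    have hxs : x = s ∨ x = -s := sq_eq_sq_iff_eq_or_eq_neg.mp (hx2.trans hs.symm)
    simp only [AlgHom.comp_apply, IntermediateField.val_mk]
    rcases hxs with rfl | rfl
    · exact hgh
    · show g (-s) = h (-s)
      rw [map_neg, map_neg, hgh]
  have := congrArg (fun φ => φ ⟨w, hw⟩) key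
  simpa using this

/-- **An inertia element at `3` negating `√-3`.** -/
theorem h78_exists_inertia_neg_sqrt (A : ValuationSubring Qbar) (hA : A.LiesOverPrime 3) :
    ∃ σ : Qbar ≃ₐ[ℚ] Qbar, σ ∈ A.inertiaSubgroupIn ℚ ∧ ∀ s : Qbar, s ^ 2 = -3 → σ s = -s := by
  classical
  haveI := Fermat.Agent.S54.isGalois_Qbar
  obtain ⟨s, hs⟩ := IsAlgClosed.exists_pow_nat_eq (-3 : Qbar) (n := 2) (by norm_num)
  have hs0 : s ≠ 0 := by
    rintro rfl
    norm_num at hs
  have h3m : (3 : Qbar) ∈ A.nonunits := by
    have : ((3 : ℕ) : Qbar) ∈ A.nonunits := hA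
    simpa using this
  have hg3 : ∀ g : Qbar ≃ₐ[ℚ] Qbar, (g s) ^ 2 = s ^ 2 := by
    intro g
    rw [← map_pow, hs, map_neg, map_ofNat]
  -- the field `F = ℚ(√-3)`
  set p : ℚ[X] := X ^ 2 + C 3 with hp
  have hp0 : p ≠ 0 := by
    intro h
    have := congrArg (fun q => q.coeff 2) h
    simp [hp, coeff_X_pow] at this
  set F : IntermediateField ℚ Qbar := IntermediateField.adjoin ℚ (p.rootSet Qbar) with hF
  haveI hsplit : p.IsSplittingField ℚ F :=
    IntermediateField.adjoin_rootSet_isSplittingField (IsAlgClosed.splits _)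
  haveI : FiniteDimensional ℚ F := Polynomial.IsSplittingField.finiteDimensional F p
  haveI hnormal : Normal ℚ F := Normal.of_isSplittingField p
  haveI : IsGalois ℚ F := { to_isSeparable := inferInstance, to_normal := hnormal }
  have hsF : s ∈ F := by
    apply IntermediateField.subset_adjoin
    rw [Polynomial.mem_rootSet]
    refine ⟨hp0, ?_⟩
    rw [hp]
    simp only [map_add, map_pow, aeval_X, aeval_C, eq_ratCast]
    have h3 : ((3 : ℚ) : Qbar) = 3 := by norm_num
    rw [h3, hs]; ring
  -- an automorphism moving `s`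
  obtain ⟨σ0, hσ0⟩ : ∃ σ0 : Qbar ≃ₐ[ℚ] Qbar, σ0 s = -s := by
    by_contra hcon
    push Not at hcon
    have hfix : ∀ g : Qbar ≃ₐ[ℚ] Qbar, g s = s := by
      intro g
      have h2 : (g s) ^ 2 = s ^ 2 := hg3 g
      rcases sq_eq_sq_iff_eq_or_eq_neg.mp h2 with h | h
      · exact h
      · exact absurd h (hcon g)
    obtain ⟨q, hq⟩ := (InfiniteGalois.mem_range_algebraMap_iff_fixed (k := ℚ) s).mpr hfix
    have hq2 : (algebraMap ℚ Qbar) (q ^ 2 + 3) = 0 := by
      rw [map_add, map_pow, hq, hs]; simp
    have hq3 : q ^ 2 + 3 = 0 := by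
      have := (map_eq_zero (algebraMap ℚ Qbar)).mp hq2
      exact this
    nlinarith [sq_nonneg q]
  have hagree := h78_agree p hp hs
  set τ₀ : F ≃ₐ[ℚ] F := AlgEquiv.restrictNormalHom F σ0 with hτ₀
  have hτ₀x : ∀ x : F, ((τ₀ x : F) : Qbar) = σ0 (x : Qbar) := fun x =>
    AlgEquiv.restrictNormal_commutes σ0 F x
  have hσ0F : ∀ w ∈ F, σ0 w ∈ F := fun w hw => by
    rw [← hτ₀x ⟨w, hw⟩]; exact (τ₀ ⟨w, hw⟩).2
  -- the congruence
  have hτ : ∀ x : F, IsIntegral ℤ x → ((τ₀ x : F) : Qbar) - (x : Qbar) ∈ A.nonunits := by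
    intro x hx
    rw [hτ₀x]
    set X : Qbar := (x : Qbar) with hX
    have hXF : X ∈ F := x.2
    have hXint : IsIntegral ℤ X := by
      have := hx.map (IsScalarTower.toAlgHom ℤ F Qbar)
      simpa using this
    set d : Qbar := σ0 X - X with hd
    have hdint : IsIntegral ℤ d := (map_isIntegral_int σ0 hXint).sub hXint
    have hdF : d ∈ F := sub_mem (hσ0F X hXF) hXF
    -- `d / s` is rational
    have hfix : ∀ g : Qbar ≃ₐ[ℚ] Qbar, g (d / s) = d / s := by
      intro g
      have h2 : (g s) ^ 2 = s ^ 2 := hg3 g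
      rcases sq_eq_sq_iff_eq_or_eq_neg.mp h2 with h | h
      · -- `g` agrees with the identity on `F`
        have hg : ∀ w ∈ F, g w = w := fun w hw => by
          have := hagree g 1 (by simpa using h) w hw
          simpa using this
        rw [map_div₀, hg d hdF, h]
      · -- `g` agrees with `σ0` on `F`
        have hg : ∀ w ∈ F, g w = σ0 w := fun w hw => hagree g σ0 (by rw [h, hσ0]) w hw
        have hσσ : ∀ w ∈ F, σ0 (σ0 w) = w := fun w hw => by
          have := hagree (σ0 * σ0) 1 (by simp [hσ0]) w hw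
          simpa using this
        have hgd : g d = -d := by
          rw [hd, map_sub, hg _ (hσ0F X hXF), hg X hXF, hσσ X hXF]; ring
        rw [map_div₀, hgd, h, neg_div_neg_eq]
    obtain ⟨b, hb⟩ := (InfiniteGalois.mem_range_algebraMap_iff_fixed (k := ℚ) (d / s)).mpr hfix
    have hdb : d = algebraMap ℚ Qbar b * s := by
      rw [hb]; field_simp
    have hd2 : d ^ 2 = algebraMap ℚ Qbar (-3 * b ^ 2) := by
      rw [hdb, mul_pow, hs, map_mul, map_neg, map_pow]
      simp
      ring
    -- `-3 b²` is an integer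
    have hint2 : IsIntegral ℤ (-3 * b ^ 2 : ℚ) := by
      have h1 : IsIntegral ℤ (algebraMap ℚ Qbar (-3 * b ^ 2)) := by
        rw [← hd2]; exact hdint.pow 2
      exact (isIntegral_algebraMap_iff (FaithfulSMul.algebraMap_injective ℚ Qbar)).mp h1
    obtain ⟨m, hm⟩ := IsIntegrallyClosed.isIntegral_iff.mp hint2
    have hm' : (m : ℚ) = -3 * b ^ 2 := by simpa using hm
    -- `3 ∣ m`
    have h3m' : (3 : ℤ) ∣ m := by
      by_cases hb0 : b = 0
      · rw [hb0] at hm'
        have : m = 0 := by exact_mod_cast (by simpa using hm' : (m : ℚ) = 0)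
        rw [this]; exact dvd_zero _
      · by_contra hndvd
        haveI : Fact (Nat.Prime 3) := ⟨Nat.prime_three⟩
        have hm0 : m ≠ 0 := by
          rintro rfl
          simp at hm'
          exact hb0 hm'
        have h1 : padicValRat 3 (m : ℚ) = 0 := by
          rw [padicValRat.of_int]
          exact_mod_cast padicValInt.eq_zero_of_not_dvd hndvd
        have h2 : padicValRat 3 (-3 * b ^ 2 : ℚ) = 1 + 2 * padicValRat 3 b := by
          rw [padicValRat.mul (by norm_num) (pow_ne_zero 2 hb0), padicValRat.pow b,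
            padicValRat.neg]
          have : padicValRat 3 (3 : ℚ) = 1 := by
            have := padicValRat.self (p := 3) (by norm_num)
            exact_mod_cast this
          rw [this]
          push_cast
          ring
        rw [hm', h2] at h1
        omega
    obtain ⟨k, hk⟩ := h3m'
    have hd2m : d ^ 2 ∈ A.nonunits := by
      rw [hd2, ← hm']
      have : (algebraMap ℚ Qbar) ((m : ℤ) : ℚ) = (3 : Qbar) * ((k : ℤ) : Qbar) := by
        rw [hk]; push_cast; simp
      rw [this]
      rw [A.mem_nonunits_iff, map_mul]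
      have h1 : A.valuation (3 : Qbar) < 1 := A.mem_nonunits_iff.mp h3m
      have h2 : A.valuation ((k : ℤ) : Qbar) ≤ 1 :=
        (A.valuation_le_one_iff _).mpr (_root_.intCast_mem A k)
      calc A.valuation (3 : Qbar) * A.valuation ((k : ℤ) : Qbar)
          ≤ A.valuation (3 : Qbar) * 1 := by gcongr
        _ < 1 := by rw [mul_one]; exact h1
    rw [A.mem_nonunits_iff] at hd2m ⊢
    rw [map_pow] at hd2m
    by_contra hcon
    push Not at hcon
    exact absurd hd2m (not_lt.mpr (one_le_pow₀ hcon))
  obtain ⟨σ, hσI, hσF⟩ := Fermat.Agent.S13.M2_lift F A Nat.prime_three hA τ₀ hτ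
  refine ⟨σ, hσI, ?_⟩
  have hσs : σ s = -s := by
    have := hσF ⟨s, hsF⟩
    rw [hτ₀x] at this
    simpa [hσ0] using this
  intro s' hs'
  rcases sq_eq_sq_iff_eq_or_eq_neg.mp (hs'.trans hs.symm) with rfl | rfl
  · exact hσs
  · rw [map_neg, hσs]

end Sqrt

end Fermat.Agent.S52
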