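import Fermat.Agent.S52.Skeleton3
import Fermat.Agent.S52.H78Inertia
import Fermat.Agent.S52.H78Sqrt
import Fermat.Agent.S54.Frobenius

/-!
# S52, inertia leaf, final part (helper78): `IfaceInertia3w`

`h78_ifaceInertia3w : IfaceInertia3w` -- for a semistable integral model `W` with `Δ ≠ 0` the
fifth power `τ = σ ^ 5` of an inertia element `σ` at `3` which negates `√-3`
(`h78_exists_inertia_neg_sqrt`) acts trivially on `W[5]` (`h78_inertia_pow_int`: inertia at the
odd semistable prime `3 ≠ 5` is unipotent on `W[5]`), fixes the fifth roots of unity and `√-1`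
(`h78_root_of_unity_fixed`: `5` and `4` are units at `3`) and still negates `√-3`.
-/

set_option autoImplicit false
set_option linter.unusedSectionVars false

namespace Fermat.Agent.S52

open WeierstrassCurve Fermat.Agent.S05
open scoped WeierstrassCurve.Affine

local notation "Qbar" => AlgebraicClosure ℚ

/-- If `σ` fixes `z`, so does every power of `σ`. -/
theorem h78_pow_apply_fixed {k : Type*} {L : Type*} [Field k] [Field L] [Algebra k L]
    (σ : L ≃ₐ[k] L) {z : L} (hz : σ z = z) (n : ℕ) : (σ ^ n) z = z := by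
  induction n with
  | zero => simp
  | succ n ih => rw [pow_succ, AlgEquiv.mul_apply, hz, ih]

/-- If `σ` negates `s`, then `σ ^ n` multiplies `s` by `(-1) ^ n`. -/
theorem h78_pow_apply_neg {k : Type*} {L : Type*} [Field k] [Field L] [Algebra k L]
    (σ : L ≃ₐ[k] L) {s : L} (hs : σ s = -s) (n : ℕ) : (σ ^ n) s = (-1) ^ n * s := by
  induction n with
  | zero => simp
  | succ n ih =>
    rw [pow_succ, AlgEquiv.mul_apply, hs, map_neg, ih]
    ring

/-- The four clauses of `IfaceInertia3w` for the fifth power of an inertia element at `3`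
negating the square roots of `-3`. -/
theorem h78_inertia3_of (W : WeierstrassCurve ℤ) (hΔ : W.Δ ≠ 0) (hW : W.IsSemistableModel)
    (A : ValuationSubring Qbar) (hA : A.LiesOverPrime 3) {σ : Qbar ≃ₐ[ℚ] Qbar}
    (hσI : σ ∈ A.inertiaSubgroupIn ℚ) (hσs : ∀ s : Qbar, s ^ 2 = -3 → σ s = -s) :
    (∀ x : h86_Tors W 5, (σ ^ 5) • x = x) ∧
      (∀ z : Qbar, z ^ 5 = 1 → (σ ^ 5) z = z) ∧
      (∀ i : Qbar, i ^ 2 = -1 → (σ ^ 5) i = i) ∧
      ∃ s : Qbar, s ^ 2 = -3 ∧ (σ ^ 5) s = -s := by
  have h3m : ((3 : ℕ) : Qbar) ∈ A.nonunits := hA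
  have h5u : A.valuation (((5 : ℕ) : ℕ) : Qbar) = 1 :=
    prime_isUnitOf Nat.prime_three h3m Nat.prime_five (by norm_num)
  have h2u : A.valuation (2 : Qbar) = 1 :=
    two_isUnitOf Nat.prime_three h3m (by norm_num)
  have h4u : A.valuation (((4 : ℕ) : ℕ) : Qbar) = 1 := by
    have h : (((4 : ℕ) : ℕ) : Qbar) = 2 * 2 := by norm_num
    rw [h, map_mul, h2u, mul_one]
  refine ⟨?_, ?_, ?_, ?_⟩
  · intro x
    apply Subtype.ext
    have hx := (Submodule.mem_torsionBy_iff _ _).mp x.2
    have hP : (5 : ℕ) • (x.1 : ((W.map (Int.castRingHom ℚ))⁄Qbar).Point) = 0 := by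
      rw [← hx]
      exact (natCast_zsmul _ _).symm
    exact h78_inertia_pow_int W hΔ Nat.prime_three (by norm_num) (hW 3 Nat.prime_three) A hA
      Nat.prime_five (by norm_num) hσI x.1 hP
  · intro z hz
    exact h78_pow_apply_fixed σ (h78_root_of_unity_fixed A hσI h5u hz) 5
  · intro i hi
    have hi4 : i ^ 4 = 1 := by
      have : i ^ 4 = (i ^ 2) ^ 2 := by ring
      rw [this, hi]
      norm_num
    exact h78_pow_apply_fixed σ (h78_root_of_unity_fixed A hσI h4u hi4) 5
  · obtain ⟨s, hs⟩ := IsAlgClosed.exists_pow_nat_eq (-3 : Qbar) (n := 2) (by norm_num)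
    refine ⟨s, hs, ?_⟩
    rw [h78_pow_apply_neg σ (hσs s hs) 5]
    ring

/-- **(INERTIA3-w)**, the frozen interface of `Skeleton3.lean`. -/
theorem h78_ifaceInertia3w : IfaceInertia3w := by
  intro W hΔ hW
  obtain ⟨A, hA⟩ := Fermat.Agent.S54.exists_liesOverPrime Nat.prime_three
  obtain ⟨σ, hσI, hσs⟩ := h78_exists_inertia_neg_sqrt A hA
  exact ⟨σ ^ 5, h78_inertia3_of W hΔ hW A hA hσI hσs⟩

end Fermat.Agent.S52

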