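import Mathlib
import Fermat.Prelude.Def_FLTPrelim_Modularity

/-!
# S52 (C3): the point count of a curve with `c₆ = 0` over a field with `q ≡ 3 (mod 4)` elements

Let `E` be a Weierstrass curve over a finite field `F` in which `6` is invertible, with `Δ ≠ 0`
and `c₆ = 0` (so `E` is isomorphic to `y² = x³ + A x`).  If `#F ≡ 3 (mod 4)` then
`#E(F) = #F + 1`, i.e. the trace of Frobenius vanishes.

Proof: completing the square, `E` is `Y² = g(x)`, `g = 4x³ + b₂x² + 2b₄x + b₆`, and
`g(-x - b₂/6) = -g(x) - c₆/108`.  Hence `x ↦ -x - b₂/6` changes the sign of the quadratic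
character of `g(x)` (as `-1` is not a square), and `∑ₓ χ(g(x)) = 0`.

Consequence for integral models: `h50s52_apOfModel_eq_zero`.
-/

set_option autoImplicit false

namespace Fermat.Agent.S52

open WeierstrassCurve WeierstrassCurve.Affine

section Count

variable {F : Type*} [Field F] (E : WeierstrassCurve F)

/-- The cubic `g(x) = 4x³ + b₂x² + 2b₄x + b₆` (`E` is `Y² = g(x)` with `Y = 2y + a₁x + a₃`). -/
def h50s52_g (x : F) : F := 4 * x ^ 3 + E.b₂ * x ^ 2 + 2 * E.b₄ * x + E.b₆

lemma h50s52_equation_iff (h2 : (2 : F) ≠ 0) (x y : F) :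
    E.toAffine.Equation x y ↔ (2 * y + E.a₁ * x + E.a₃) ^ 2 = h50s52_g E x := by
  rw [Affine.equation_iff]
  simp only [h50s52_g, WeierstrassCurve.b₂, WeierstrassCurve.b₄, WeierstrassCurve.b₆]
  have h4 : (4 : F) ≠ 0 := by
    have : (4 : F) = 2 * 2 := by norm_num
    rw [this]
    exact mul_ne_zero h2 h2
  constructor
  · intro h
    linear_combination 4 * h
  · intro h
    apply mul_left_cancel₀ h4
    linear_combination h

lemma h50s52_g_neg (h6 : (6 : F) ≠ 0) (hc6 : E.c₆ = 0) (x : F) :
    h50s52_g E (-x - E.b₂ / 6) = -h50s52_g E x := by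
  have h216 : (216 : F) ≠ 0 := by
    have : (216 : F) = 6 * 6 * 6 := by norm_num
    rw [this]
    exact mul_ne_zero (mul_ne_zero h6 h6) h6
  obtain ⟨d, hd⟩ : ∃ d : F, E.b₂ = 6 * d := ⟨E.b₂ / 6, by field_simp⟩
  have hd' : E.b₂ / 6 = d := by
    rw [hd]
    field_simp
  have hc : E.c₆ = -E.b₂ ^ 3 + 36 * E.b₂ * E.b₄ - 216 * E.b₆ := rfl
  rw [hc, hd] at hc6
  have hc6' : d ^ 3 - d * E.b₄ + E.b₆ = 0 := by
    apply mul_left_cancel₀ h216
    linear_combination -hc6
  simp only [h50s52_g]
  rw [hd', hd]
  linear_combination 2 * hc6'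

variable [Fintype F] [DecidableEq F]

/-- The number of points above a given `x`. -/
lemma h50s52_card_fibre (h2 : (2 : F) ≠ 0) (x : F) :
    (Nat.card {y : F // E.toAffine.Equation x y} : ℤ) =
      quadraticChar F (h50s52_g E x) + 1 := by
  have hF : ringChar F ≠ 2 := by
    intro h
    apply h2
    have := ringChar.Nat.cast_ringChar (R := F)
    rw [h] at this
    exact_mod_cast this
  rw [← quadraticChar_card_sqrts hF]
  rw [Set.toFinset_card, ← Nat.card_eq_fintype_card]
  congr 1
  refine Nat.card_congr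
    { toFun := fun y => (⟨2 * y.1 + E.a₁ * x + E.a₃,
        (h50s52_equation_iff E h2 x y.1).mp y.2⟩ : {Y : F | Y ^ 2 = h50s52_g E x})
      invFun := fun Y => (⟨(Y.1 - E.a₁ * x - E.a₃) / 2, by
        rw [h50s52_equation_iff E h2]
        have hY : Y.1 ^ 2 = h50s52_g E x := Y.2
        have e : 2 * ((Y.1 - E.a₁ * x - E.a₃) / 2) + E.a₁ * x + E.a₃ = Y.1 := by
          field_simp
          ring
        rw [e]
        exact hY⟩ : {y : F // E.toAffine.Equation x y})
      left_inv := fun y => by
        apply Subtype.ext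
        simp only
        field_simp
        ring
      right_inv := fun Y => by
        apply Subtype.ext
        simp only
        field_simp
        ring }

/-- The character sum of `g` vanishes. -/
lemma h50s52_sum_char (h6 : (6 : F) ≠ 0) (hc6 : E.c₆ = 0) (h34 : Fintype.card F % 4 = 3) :
    ∑ x : F, quadraticChar F (h50s52_g E x) = 0 := by
  have h2 : (2 : F) ≠ 0 := by
    intro h2
    apply h6
    have : (6 : F) = 2 * 3 := by norm_num
    rw [this, h2, zero_mul]
  have hF : ringChar F ≠ 2 := by
    intro h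
    apply h2
    have := ringChar.Nat.cast_ringChar (R := F)
    rw [h] at this
    exact_mod_cast this
  have hm1 : quadraticChar F (-1) = -1 := by
    rw [quadraticChar_neg_one hF]
    exact ZMod.χ₄_nat_three_mod_four h34
  let ι : F ≃ F :=
    { toFun := fun x => -x - E.b₂ / 6
      invFun := fun x => -x - E.b₂ / 6
      left_inv := fun x => by ring
      right_inv := fun x => by ring }
  have h1 : ∑ x : F, quadraticChar F (h50s52_g E (ι x)) =
      ∑ x : F, quadraticChar F (h50s52_g E x) :=
    Equiv.sum_comp ι (fun x => quadraticChar F (h50s52_g E x))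
  have h3 : ∑ x : F, quadraticChar F (h50s52_g E (ι x)) =
      -∑ x : F, quadraticChar F (h50s52_g E x) := by
    rw [← Finset.sum_neg_distrib]
    refine Finset.sum_congr rfl (fun x _ => ?_)
    show quadraticChar F (h50s52_g E (-x - E.b₂ / 6)) = _
    rw [h50s52_g_neg E h6 hc6, neg_eq_neg_one_mul, map_mul, hm1]
    ring
  rw [h1] at h3
  linarith

/-- **The point count**: `#E(F) = #F + 1` if `c₆ = 0`, `Δ ≠ 0`, `6 ≠ 0` and
`#F ≡ 3 (mod 4)`. -/
theorem h50s52_card_points (hΔ : E.Δ ≠ 0) (h6 : (6 : F) ≠ 0) (hc6 : E.c₆ = 0)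
    (h34 : Fintype.card F % 4 = 3) :
    Nat.card E.toAffine.Point = Fintype.card F + 1 := by
  have h2 : (2 : F) ≠ 0 := by
    intro h2
    apply h6
    have : (6 : F) = 2 * 3 := by norm_num
    rw [this, h2, zero_mul]
  -- points = `Option` of the solutions
  let e : E.toAffine.Point ≃ Option (Σ x : F, {y : F // E.toAffine.Equation x y}) :=
    { toFun := fun P => match P with
        | .zero => none
        | .some x y h => some ⟨x, ⟨y, h.1⟩⟩
      invFun := fun o => match o with
        | none => .zero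
        | some ⟨x, ⟨y, h⟩⟩ =>
          .some x y ((E.toAffine.equation_iff_nonsingular_of_Δ_ne_zero hΔ).mp h)
      left_inv := fun P => by
        cases P with
        | zero => rfl
        | some x y h => rfl
      right_inv := fun o => by
        cases o with
        | none => rfl
        | some s => rfl }
  rw [Nat.card_congr e, Finite.card_option, Nat.card_sigma]
  congr 1
  have h := h50s52_sum_char E h6 hc6 h34
  have hcast : ((∑ x : F, Nat.card {y : F // E.toAffine.Equation x y} : ℕ) : ℤ) =
      (Fintype.card F : ℤ) := by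
    rw [Nat.cast_sum]
    simp only [h50s52_card_fibre E h2]
    rw [Finset.sum_add_distrib, h, zero_add]
    simp
  exact_mod_cast hcast

end Count

/-- **Vanishing of `a_r`.**  For a prime `r ≡ 3 (mod 4)`, `r ≠ 3`, of good reduction of the
integral Weierstrass curve `W` with `r ∣ c₆(W)`, the trace of Frobenius `a_r(W)` is `0`. -/
theorem h50s52_apOfModel_eq_zero (W : WeierstrassCurve ℤ) {r : ℕ} (hr : r.Prime)
    (hr4 : r % 4 = 3) (hr3 : r ≠ 3) (hgood : W.IsGoodPrimeFor r) (hc6 : (r : ℤ) ∣ W.c₆) :
    W.apOfModel r = 0 := by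
  have : Fact r.Prime := ⟨hr⟩
  have hr2 : r ≠ 2 := by
    rintro rfl
    norm_num at hr4
  have h6 : ((6 : ℕ) : ZMod r) ≠ 0 := by
    intro h
    rw [ZMod.natCast_eq_zero_iff] at h
    have h' : r ∣ 2 * 3 := h
    rcases (Nat.Prime.dvd_mul hr).mp h' with h2 | h3
    · exact hr2 ((Nat.prime_dvd_prime_iff_eq hr Nat.prime_two).mp h2)
    · exact hr3 ((Nat.prime_dvd_prime_iff_eq hr Nat.prime_three).mp h3)
  have h6' : (6 : ZMod r) ≠ 0 := by exact_mod_cast h6
  have hΔ : (W.reductionMod r).Δ ≠ 0 := by
    rw [WeierstrassCurve.reductionMod, WeierstrassCurve.map_Δ]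
    intro h
    apply hgood
    exact (ZMod.intCast_zmod_eq_zero_iff_dvd _ r).mp h
  have hc : (W.reductionMod r).c₆ = 0 := by
    rw [WeierstrassCurve.reductionMod, WeierstrassCurve.map_c₆]
    exact (ZMod.intCast_zmod_eq_zero_iff_dvd _ r).mpr hc6
  have hcard := h50s52_card_points (W.reductionMod r) hΔ h6' hc (by rw [ZMod.card]; exact hr4)
  rw [WeierstrassCurve.apOfModel, WeierstrassCurve.traceOfFrobenius, WeierstrassCurve.card,
    hcard, Nat.card_eq_fintype_card]
  push_cast
  ring

end Fermat.Agent.S52
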