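import Fermat.Agent.S52.IrrFrob
import Fermat.Agent.S52.CountOdd

/-!
# S52 (C3): `E[3]` is irreducible as soon as `c₆` vanishes modulo one prime `r ≡ 7 (mod 12)`
of good reduction
-/

set_option autoImplicit false

namespace Fermat.Agent.S52

/-- **Irreducibility mod 3 from one auxiliary prime.**  If `r ≡ 7 (mod 12)` is a prime of good
reduction of the integral Weierstrass curve `W` and `r ∣ c₆(W)`, then `a_r(W) = 0`, Frobenius
at `r` satisfies `σ² = -r = -1` on `E[3]`, and `E[3]` is an irreducible Galois module. -/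
theorem h50s52_modRepIsIrreducible_three_of_c₆ (W : WeierstrassCurve ℤ) {r : ℕ} (hr : r.Prime)
    (hr12 : r % 12 = 7) (hgood : W.IsGoodPrimeFor r) (hc6 : (r : ℤ) ∣ W.c₆) :
    W.ModRepIsIrreducible 3 := by
  have h4 : r % 4 = 3 := by omega
  have h3 : r % 3 = 1 := by omega
  have hne3 : r ≠ 3 := by omega
  have ha := h50s52_apOfModel_eq_zero W hr h4 hne3 hgood hc6
  exact h50s52_modRepIsIrreducible_three W hr h3 hgood (by rw [ha]; exact dvd_zero _)

end Fermat.Agent.S52
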