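import Fermat.Agent.S52.Skeleton

/-!
# S52, row MODEL: `IfaceFam → IfaceSwitch` (integral-model bookkeeping)

Author: helper49.  Pure integer arithmetic: given the icosahedral family `(C₄, C₆)` through `W`,
choose `s ≡ 0` modulo `M = 1728 * 6 * N` and `s ≡ s₁` modulo an auxiliary prime `r ∤ M`
(`r ≡ 7 mod 12`, `r ∣ C₆(s₁)`), and shift `a₄`, `a₆` of `W` so that the new curve has invariants
`(C₄(s), C₆(s))`.
-/

set_option autoImplicit false

namespace Fermat.Agent.S52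

open WeierstrassCurve

/-- The shifted curve. -/
def h49_shift (W : WeierstrassCurve ℤ) (d e : ℤ) : WeierstrassCurve ℤ :=
  ⟨W.a₁, W.a₂, W.a₃, W.a₄ - d, W.a₆ - e⟩

theorem h49_shift_c₄ (W : WeierstrassCurve ℤ) (d e : ℤ) :
    (h49_shift W d e).c₄ = W.c₄ + 48 * d := by
  simp only [h49_shift, WeierstrassCurve.c₄, WeierstrassCurve.b₂, WeierstrassCurve.b₄]
  ring

theorem h49_shift_c₆ (W : WeierstrassCurve ℤ) (d e : ℤ) :
    (h49_shift W d e).c₆ = W.c₆ - 72 * W.b₂ * d + 864 * e := by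
  simp only [h49_shift, WeierstrassCurve.c₆, WeierstrassCurve.b₂, WeierstrassCurve.b₄,
    WeierstrassCurve.b₆]
  ring

/-- Modulo a prime dividing both shifts the curve is unchanged. -/
theorem h49_shift_map (W : WeierstrassCurve ℤ) (d e : ℤ) (p : ℕ)
    (hd : (p : ℤ) ∣ d) (he : (p : ℤ) ∣ e) :
    (h49_shift W d e).map (Int.castRingHom (ZMod p)) = W.map (Int.castRingHom (ZMod p)) := by
  have hd0 : ((d : ℤ) : ZMod p) = 0 := (ZMod.intCast_zmod_eq_zero_iff_dvd d p).2 hd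
  have he0 : ((e : ℤ) : ZMod p) = 0 := (ZMod.intCast_zmod_eq_zero_iff_dvd e p).2 he
  ext <;> simp [h49_shift, WeierstrassCurve.map, hd0, he0]

theorem h49_shift_Δ_dvd_iff (W : WeierstrassCurve ℤ) (d e : ℤ) (p : ℕ)
    (hd : (p : ℤ) ∣ d) (he : (p : ℤ) ∣ e) :
    (p : ℤ) ∣ (h49_shift W d e).Δ ↔ (p : ℤ) ∣ W.Δ := by
  have h := congrArg WeierstrassCurve.Δ (h49_shift_map W d e p hd he)
  rw [WeierstrassCurve.map_Δ, WeierstrassCurve.map_Δ] at h
  simp only [eq_intCast] at h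
  rw [← ZMod.intCast_zmod_eq_zero_iff_dvd, ← ZMod.intCast_zmod_eq_zero_iff_dvd, h]

/-- Chinese remainder theorem in the form needed. -/
theorem h49_crt (M r : ℕ) (hr : r.Prime) (hrM : ¬ r ∣ M) (s₁ : ℤ) :
    ∃ s : ℤ, (M : ℤ) ∣ s ∧ (r : ℤ) ∣ s - s₁ := by
  have hcop : IsCoprime (M : ℤ) (r : ℤ) := by
    rw [Nat.isCoprime_iff_coprime]
    exact ((Nat.Prime.coprime_iff_not_dvd hr).2 hrM).symm
  obtain ⟨u, v, huv⟩ := hcop
  refine ⟨s₁ * (u * M), Dvd.intro_left (s₁ * u) (by ring), ⟨-(s₁ * v), ?_⟩⟩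
  have : u * (M : ℤ) = 1 - v * r := by linarith
  rw [this]; ring

/-- **(MODEL)** -/
theorem h49_model : IfaceModel := by
  intro hFam W hΔ hW
  obtain ⟨C₄, C₆, h40, h60, hiso, ⟨N, hN, hcop⟩, haux⟩ := hFam W hΔ hW
  have hM : 1728 * (6 * N) ≠ 0 := by positivity
  obtain ⟨r, hr, hrS, hr12, s₁, hs₁⟩ := haux (1728 * (6 * N)).primeFactors
  have hrM : ¬ r ∣ 1728 * (6 * N) := fun h => hrS (Nat.mem_primeFactors.2 ⟨hr, h, hM⟩)
  have hrN : ¬ r ∣ N := fun h => hrM (Dvd.dvd.mul_left (Dvd.dvd.mul_left h 6) 1728)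
  obtain ⟨s, hsM, hsr⟩ := h49_crt (1728 * (6 * N)) r hr hrM s₁
  -- congruences of the invariants
  have h4 : ((1728 * (6 * N) : ℕ) : ℤ) ∣ C₄.eval s - W.c₄ := by
    have := Polynomial.sub_dvd_eval_sub s 0 C₄
    rw [h40, sub_zero] at this
    exact hsM.trans this
  have h6 : ((1728 * (6 * N) : ℕ) : ℤ) ∣ C₆.eval s - W.c₆ := by
    have := Polynomial.sub_dvd_eval_sub s 0 C₆
    rw [h60, sub_zero] at this
    exact hsM.trans this
  have h6r : (r : ℤ) ∣ C₆.eval s := by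
    have := Polynomial.sub_dvd_eval_sub s s₁ C₆
    have h2 := (hsr.trans this)
    have h3 := dvd_add h2 hs₁
    simpa using h3
  obtain ⟨k4, hk4⟩ := h4
  obtain ⟨k6, hk6⟩ := h6
  push_cast at hk4 hk6
  -- the new curve
  set d : ℤ := 216 * N * k4 with hd
  set e : ℤ := 12 * N * k6 + 18 * W.b₂ * N * k4 with he
  have hc4 : (h49_shift W d e).c₄ = C₄.eval s := by
    rw [h49_shift_c₄, hd]; linarith
  have hc6 : (h49_shift W d e).c₆ = C₆.eval s := by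
    rw [h49_shift_c₆, hd, he]; linarith
  -- primes dividing `6 N` divide both shifts
  have hdiv : ∀ p : ℕ, p.Prime → p ∣ 6 * N → (p : ℤ) ∣ d ∧ (p : ℤ) ∣ e := by
    intro p _ hp
    have hp' : (p : ℤ) ∣ 6 * (N : ℤ) := by exact_mod_cast hp
    constructor
    · rw [hd]
      exact hp'.trans ⟨36 * k4, by ring⟩
    · rw [he]
      exact hp'.trans ⟨2 * k6 + 3 * W.b₂ * k4, by ring⟩
  -- good reduction at `r`
  have hcopr : ∀ p : ℕ, p.Prime → ¬ p ∣ 6 * N → (p : ℤ) ∣ (h49_shift W d e).Δ →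
      ¬ (p : ℤ) ∣ (h49_shift W d e).c₄ := by
    intro p hp hpN hpΔ hpc4
    have hpN' : ¬ p ∣ N := fun h => hpN (Dvd.dvd.mul_left h 6)
    have hrel := (h49_shift W d e).c_relation
    have hpc6 : (p : ℤ) ∣ (h49_shift W d e).c₆ := by
      have hpp : Prime (p : ℤ) := Nat.prime_iff_prime_int.1 hp
      have h1 : (p : ℤ) ∣ (h49_shift W d e).c₆ ^ 2 := by
        have h2 : (h49_shift W d e).c₆ ^ 2
            = (h49_shift W d e).c₄ ^ 3 - 1728 * (h49_shift W d e).Δ := by linarith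
        rw [h2]
        exact dvd_sub (dvd_pow hpc4 (by norm_num)) (Dvd.dvd.mul_left hpΔ 1728)
      exact hpp.dvd_of_dvd_pow h1
    rw [hc4] at hpc4
    rw [hc6] at hpc6
    exact hcop p hp hpN' s ⟨hpc4, hpc6⟩
  have hr6N : ¬ r ∣ 6 * N := fun h => hrM (Dvd.dvd.mul_left h 1728)
  have hgood : ¬ (r : ℤ) ∣ (h49_shift W d e).Δ := by
    intro hrΔ
    have hrc4 : ¬ (r : ℤ) ∣ (h49_shift W d e).c₄ := hcopr r hr hr6N hrΔ
    have hrel := (h49_shift W d e).c_relation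
    have hpp : Prime (r : ℤ) := Nat.prime_iff_prime_int.1 hr
    have h1 : (r : ℤ) ∣ (h49_shift W d e).c₄ ^ 3 := by
      have h2 : (h49_shift W d e).c₄ ^ 3
          = 1728 * (h49_shift W d e).Δ + (h49_shift W d e).c₆ ^ 2 := by linarith
      rw [h2]
      exact dvd_add (Dvd.dvd.mul_left hrΔ 1728) (dvd_pow (hc6 ▸ h6r) (by norm_num))
    exact hrc4 (hpp.dvd_of_dvd_pow h1)
  have hΔ' : (h49_shift W d e).Δ ≠ 0 := by
    intro h0
    exact hgood (h0 ▸ dvd_zero _)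
  refine ⟨h49_shift W d e, hΔ', ?_, ⟨r, hr, hr12, hgood, hc6 ▸ h6r⟩, hiso s _ hc4 hc6 hΔ'⟩
  -- semistability
  intro p hp hpΔ
  by_cases hpN : p ∣ 6 * N
  · obtain ⟨hpd, hpe⟩ := hdiv p hp hpN
    have hpΔW : (p : ℤ) ∣ W.Δ := (h49_shift_Δ_dvd_iff W d e p hpd hpe).1 hpΔ
    have hpc4 : ¬ (p : ℤ) ∣ W.c₄ := hW p hp hpΔW
    intro h
    rw [h49_shift_c₄] at h
    apply hpc4
    have : W.c₄ = W.c₄ + 48 * d - 48 * d := by ring
    rw [this]
    exact dvd_sub h (Dvd.dvd.mul_left hpd 48)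
  · exact hcopr p hp hpN hpΔ

end Fermat.Agent.S52
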