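import Fermat.Agent.S52.Skeleton2

/-!
# S52, interface SSNZ: a semistable integral model has `c₄ ≠ 0` and `c₆ ≠ 0`

If `c₄ = 0` or `c₆ = 0` then no prime divides `Δ` (semistability and `1728 Δ = c₄³ - c₆²`), so
`Δ = ±1`.  For `c₄ = 0` this gives `c₆² = ∓1728`, impossible.  For `c₆ = 0` it gives
`c₄³ = ±1728`, so `c₄ = ±12`, hence `b₂² ≡ 4 mod 8`, impossible for `b₂ = a₁² + 4 a₂`.
-/

set_option autoImplicit false

namespace Fermat.Agent.S52

open WeierstrassCurve

/-- If no prime divides the integer `n`, then `n = 1` or `n = -1`. -/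
theorem h19s_eq_one_or_neg_one (n : ℤ) (h : ∀ p : ℕ, p.Prime → ¬ (p : ℤ) ∣ n) :
    n = 1 ∨ n = -1 := by
  have habs : n.natAbs = 1 := by
    apply Nat.eq_one_iff_not_exists_prime_dvd.mpr
    intro p hp hdvd
    exact h p hp (Int.natCast_dvd.mpr hdvd)
  rcases Int.natAbs_eq n with h1 | h1 <;> rw [habs] at h1
  · left; exact_mod_cast h1
  · right; exact_mod_cast h1

/-- `1728` and `-1728` are not squares of integers. -/
theorem h19s_sq_ne (x : ℤ) : x ^ 2 ≠ 1728 ∧ x ^ 2 ≠ -1728 := by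
  constructor
  · intro h
    have h1 : x.natAbs ^ 2 = 1728 := by
      have := congrArg Int.natAbs h
      rw [Int.natAbs_pow] at this
      simpa using this
    have hlt : x.natAbs < 42 := by
      by_contra hge
      have hge' : 42 ≤ x.natAbs := Nat.le_of_not_lt hge
      have : 42 ^ 2 ≤ x.natAbs ^ 2 := Nat.pow_le_pow_left hge' 2
      omega
    have hgt : 41 < x.natAbs := by
      by_contra hle
      have hle' : x.natAbs ≤ 41 := Nat.le_of_not_lt hle
      have : x.natAbs ^ 2 ≤ 41 ^ 2 := Nat.pow_le_pow_left hle' 2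
      omega
    omega
  · intro h
    have := sq_nonneg x
    omega

/-- The cube roots of `±1728` are `±12`. -/
theorem h19s_cube (x : ℤ) (h : x ^ 3 = 1728 ∨ x ^ 3 = -1728) : x = 12 ∨ x = -12 := by
  rcases h with h | h
  · left
    have h1 : (x - 12) * (x ^ 2 + 12 * x + 144) = 0 := by linear_combination h
    rcases mul_eq_zero.mp h1 with h2 | h2
    · omega
    · exfalso; nlinarith [sq_nonneg (x + 6)]
  · right
    have h1 : (x + 12) * (x ^ 2 - 12 * x + 144) = 0 := by linear_combination h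
    rcases mul_eq_zero.mp h1 with h2 | h2
    · omega
    · exfalso; nlinarith [sq_nonneg (x - 6)]

/-- No square of the shape `(a₁² + 4 a₂)²` is `4` modulo `8`. -/
theorem h19s_mod_eight : ∀ a₁ a₂ : ZMod 8, (a₁ ^ 2 + 4 * a₂) ^ 2 ≠ 4 := by
  decide

/-- `c₄ = ±12` is impossible for an integral Weierstrass curve. -/
theorem h19s_c4_ne_twelve (W : WeierstrassCurve ℤ) : W.c₄ ≠ 12 ∧ W.c₄ ≠ -12 := by
  have key : ∀ c : ℤ, ((c : ℤ) : ZMod 8) = 4 → W.c₄ ≠ c := by
    intro c hc h
    have h1 : (W.a₁ ^ 2 + 4 * W.a₂) ^ 2 - 24 * (2 * W.a₄ + W.a₁ * W.a₃) = c := by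
      rw [← h, WeierstrassCurve.c₄, WeierstrassCurve.b₂, WeierstrassCurve.b₄]
    have h2 := congrArg (Int.cast : ℤ → ZMod 8) h1
    push_cast at h2
    rw [hc] at h2
    have h24 : (24 : ZMod 8) = 0 := by decide
    rw [h24, zero_mul, sub_zero] at h2
    exact h19s_mod_eight _ _ h2
  exact ⟨key 12 (by decide), key (-12) (by decide)⟩

/-- **(SSNZ)** A semistable integral model has `c₄ ≠ 0` and `c₆ ≠ 0`. -/
theorem ifaceSSNZ : IfaceSSNZ := by
  intro W _ hW
  have hrel : 1728 * W.Δ = W.c₄ ^ 3 - W.c₆ ^ 2 := W.c_relation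
  constructor
  · intro hc
    have hno : ∀ p : ℕ, p.Prime → ¬ (p : ℤ) ∣ W.Δ := by
      intro p hp hd
      exact hW p hp hd (by rw [hc]; exact dvd_zero _)
    rw [hc] at hrel
    rcases h19s_eq_one_or_neg_one _ hno with h | h <;> rw [h] at hrel
    · exact (h19s_sq_ne W.c₆).2 (by linear_combination hrel)
    · exact (h19s_sq_ne W.c₆).1 (by linear_combination hrel)
  · intro hc
    rw [hc] at hrel
    have hno : ∀ p : ℕ, p.Prime → ¬ (p : ℤ) ∣ W.Δ := by
      intro p hp hd
      apply hW p hp hd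
      have h1 : (p : ℤ) ∣ W.c₄ ^ 3 := by
        have : W.c₄ ^ 3 = 1728 * W.Δ := by linear_combination -hrel
        rw [this]
        exact Dvd.dvd.mul_left hd _
      exact (Nat.prime_iff_prime_int.mp hp).dvd_of_dvd_pow h1
    have h12 : W.c₄ = 12 ∨ W.c₄ = -12 := by
      apply h19s_cube
      rcases h19s_eq_one_or_neg_one _ hno with h | h <;> rw [h] at hrel
      · left; linear_combination -hrel
      · right; linear_combination -hrel
    rcases h12 with h | h
    · exact (h19s_c4_ne_twelve W).1 h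
    · exact (h19s_c4_ne_twelve W).2 h

end Fermat.Agent.S52
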