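import Mathlib
import Fermat.Prelude.Def_FLTPrelim_Modularity

/-!
# S52, block (I): `a_r = 0` for `r ≡ 3 mod 4` and `c₆ ≡ 0 mod r`

For a Weierstrass curve `W` over a finite field `F` of characteristic `≠ 2, 3` with `Δ ≠ 0`,
`c₆ = 0` and `#F ≡ 3 mod 4`, the number of points is `#F + 1`.  Consequently, for an integral
Weierstrass curve `W`, a prime `r ≡ 3 mod 4`, `r ≠ 3`, of good reduction with `r ∣ c₆`:
`W.apOfModel r = 0`.
-/

set_option autoImplicit false

namespace Fermat.Agent.S52

open WeierstrassCurve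

noncomputable section

section Field

variable {F : Type} [Field F] [Fintype F] [DecidableEq F]

/-- The number of solutions of `y² + b y = c` is `1 + χ(b² + 4 c)`. -/
lemma h72_card_quad (hF : ringChar F ≠ 2) (b c : F) :
    ((Finset.univ.filter (fun y : F => y ^ 2 + b * y = c)).card : ℤ) =
      quadraticChar F (b ^ 2 + 4 * c) + 1 := by
  have h2 : (2 : F) ≠ 0 := Ring.two_ne_zero hF
  rw [← quadraticChar_card_sqrts hF (b ^ 2 + 4 * c)]
  congr 1
  refine Finset.card_bij' (fun y _ => 2 * y + b) (fun z _ => (z - b) / 2) ?_ ?_ ?_ ?_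
  · intro y hy
    simp only [Finset.mem_filter, Finset.mem_univ, true_and] at hy
    simp only [Set.mem_toFinset, Set.mem_ofPred_eq]
    rw [← hy]; ring
  · intro z hz
    simp only [Set.mem_toFinset, Set.mem_ofPred_eq] at hz
    simp only [Finset.mem_filter, Finset.mem_univ, true_and]
    field_simp
    linear_combination hz
  · intro y _
    field_simp
    ring
  · intro z _
    field_simp
    ring

/-- A character sum over an odd function vanishes when `χ(-1) = -1`. -/
lemma h72_sum_odd (hneg : quadraticChar F (-1) = -1) (g : F → F) (hg : ∀ x, g (-x) = - g x) :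
    ∑ x : F, quadraticChar F (g x) = 0 := by
  have h1 : ∑ x : F, quadraticChar F (g x) = ∑ x : F, quadraticChar F (g (-x)) :=
    (Equiv.sum_comp (Equiv.neg F) (fun x => quadraticChar F (g x))).symm
  have h2 : ∑ x : F, quadraticChar F (g (-x)) = - ∑ x : F, quadraticChar F (g x) := by
    rw [← Finset.sum_neg_distrib]
    refine Finset.sum_congr rfl fun x _ => ?_
    rw [hg, ← neg_one_mul (g x), map_mul, hneg, neg_one_mul]
  omega

/-- Affine points of a Weierstrass curve with `Δ ≠ 0`: the point at infinity together with the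
solutions of the Weierstrass equation. -/
def h72_pointEquiv (W : WeierstrassCurve F) (hΔ : W.Δ ≠ 0) :
    W.toAffine.Point ≃ Option {p : F × F // W.toAffine.Equation p.1 p.2} where
  toFun P := match P with
    | .zero => none
    | .some x y h => some ⟨(x, y), h.1⟩
  invFun o := match o with
    | none => .zero
    | some ⟨(x, y), h⟩ =>
      .some x y ((WeierstrassCurve.Affine.equation_iff_nonsingular_of_Δ_ne_zero hΔ).1 h)
  left_inv := by rintro (_ | _) <;> rfl
  right_inv := by rintro (_ | ⟨⟨x, y⟩, h⟩) <;> rfl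

open scoped Classical in
omit [DecidableEq F] in
/-- The number of points is `1 + ∑ₓ #{y | equation}`. -/
lemma h72_card_point (W : WeierstrassCurve F) (hΔ : W.Δ ≠ 0) :
    Nat.card W.toAffine.Point =
      (∑ x : F, (Finset.univ.filter (fun y : F => W.toAffine.Equation x y)).card) + 1 := by
  classical
  rw [Nat.card_congr (h72_pointEquiv W hΔ), Nat.card_eq_fintype_card, Fintype.card_option,
    Fintype.card_subtype]
  congr 1
  rw [← Finset.card_sigma]
  refine Finset.card_bij' (fun p _ => ⟨p.1, p.2⟩) (fun q _ => (q.1, q.2)) ?_ ?_ ?_ ?_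
  · intro p hp
    simp only [Finset.mem_filter, Finset.mem_univ, true_and] at hp
    simp only [Finset.mem_sigma, Finset.mem_univ, Finset.mem_filter, true_and]
    exact hp
  · intro q hq
    simp only [Finset.mem_sigma, Finset.mem_univ, Finset.mem_filter, true_and] at hq
    simp only [Finset.mem_filter, Finset.mem_univ, true_and]
    exact hq
  · intro p _; rfl
  · intro q _; rfl

/-- Point count of a Weierstrass curve over a finite field of characteristic `≠ 2` as a
character sum. -/
lemma h72_card_point_eq_sum (hF : ringChar F ≠ 2) (W : WeierstrassCurve F) (hΔ : W.Δ ≠ 0) :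
    (Nat.card W.toAffine.Point : ℤ) =
      (Fintype.card F : ℤ) + 1 +
        ∑ x : F, quadraticChar F (4 * x ^ 3 + W.b₂ * x ^ 2 + 2 * W.b₄ * x + W.b₆) := by
  classical
  rw [h72_card_point W hΔ]
  push_cast
  have key : ∀ x : F, ((Finset.univ.filter (fun y : F => W.toAffine.Equation x y)).card : ℤ) =
      quadraticChar F (4 * x ^ 3 + W.b₂ * x ^ 2 + 2 * W.b₄ * x + W.b₆) + 1 := by
    intro x
    have h1 := h72_card_quad hF (W.a₁ * x + W.a₃) (x ^ 3 + W.a₂ * x ^ 2 + W.a₄ * x + W.a₆)
    have h2 : (W.a₁ * x + W.a₃) ^ 2 + 4 * (x ^ 3 + W.a₂ * x ^ 2 + W.a₄ * x + W.a₆) =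
        4 * x ^ 3 + W.b₂ * x ^ 2 + 2 * W.b₄ * x + W.b₆ := by
      simp only [WeierstrassCurve.b₂, WeierstrassCurve.b₄, WeierstrassCurve.b₆]; ring
    rw [h2] at h1
    rw [← h1]
    congr 2
    ext y
    simp only [Finset.mem_filter, Finset.mem_univ, true_and]
    rw [WeierstrassCurve.Affine.equation_iff]
    constructor
    · intro h; linear_combination h
    · intro h; linear_combination h
  rw [Finset.sum_congr rfl fun x _ => key x, Finset.sum_add_distrib]
  simp only [Finset.sum_const, Finset.card_univ, nsmul_eq_mul, mul_one]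
  ring

/-- **Point count for `c₆ = 0`, `q ≡ 3 mod 4`**: the curve has exactly `q + 1` points. -/
theorem h72_card_point_of_c₆_eq_zero (h2 : (2 : F) ≠ 0) (h3 : (3 : F) ≠ 0)
    (hq : Fintype.card F % 4 = 3) (W : WeierstrassCurve F) (hΔ : W.Δ ≠ 0) (hc₆ : W.c₆ = 0) :
    Nat.card W.toAffine.Point = Fintype.card F + 1 := by
  classical
  have hF : ringChar F ≠ 2 := by
    intro h
    apply h2
    have := ringChar.Nat.cast_ringChar (R := F)
    rw [h] at this
    exact_mod_cast this
  have hneg : quadraticChar F (-1) = -1 := by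
    rw [quadraticChar_neg_one hF, ZMod.χ₄_nat_three_mod_four hq]
  have h432 : (432 : F) ≠ 0 := by
    have : (432 : F) = 2 ^ 4 * 3 ^ 3 := by norm_num
    rw [this]
    exact mul_ne_zero (pow_ne_zero _ h2) (pow_ne_zero _ h3)
  have h12 : (12 : F) ≠ 0 := by
    have : (12 : F) = 2 ^ 2 * 3 := by norm_num
    rw [this]
    exact mul_ne_zero (pow_ne_zero _ h2) h3
  have hsum : ∑ x : F, quadraticChar F (4 * x ^ 3 + W.b₂ * x ^ 2 + 2 * W.b₄ * x + W.b₆) = 0 := by
    have hG : ∀ x : F, quadraticChar F (4 * x ^ 3 + W.b₂ * x ^ 2 + 2 * W.b₄ * x + W.b₆) =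
        quadraticChar F 432 *
          quadraticChar F ((12 * x + W.b₂) ^ 3 - 3 * W.c₄ * (12 * x + W.b₂)) := by
      intro x
      have e : (12 * x + W.b₂) ^ 3 - 3 * W.c₄ * (12 * x + W.b₂) =
          432 * (4 * x ^ 3 + W.b₂ * x ^ 2 + 2 * W.b₄ * x + W.b₆) := by
        have hc : W.c₆ = -W.b₂ ^ 3 + 36 * W.b₂ * W.b₄ - 216 * W.b₆ := rfl
        have hc4 : W.c₄ = W.b₂ ^ 2 - 24 * W.b₄ := rfl
        rw [hc4]
        linear_combination (2 : F) * hc₆ - (2 : F) * hc
      rw [e, map_mul, ← mul_assoc, ← pow_two, quadraticChar_sq_one h432, one_mul]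
    rw [Finset.sum_congr rfl fun x _ => hG x, ← Finset.mul_sum]
    have hshift : ∑ x : F, quadraticChar F ((12 * x + W.b₂) ^ 3 - 3 * W.c₄ * (12 * x + W.b₂)) =
        ∑ X : F, quadraticChar F (X ^ 3 - 3 * W.c₄ * X) := by
      let e : F ≃ F :=
        { toFun := fun x => 12 * x + W.b₂
          invFun := fun X => (X - W.b₂) / 12
          left_inv := fun x => by field_simp; ring
          right_inv := fun X => by field_simp; ring }
      exact Equiv.sum_comp e (fun X => quadraticChar F (X ^ 3 - 3 * W.c₄ * X))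
    rw [hshift, h72_sum_odd hneg (fun X => X ^ 3 - 3 * W.c₄ * X) (fun X => by ring), mul_zero]
  have h := h72_card_point_eq_sum hF W hΔ
  rw [hsum, add_zero] at h
  exact_mod_cast h

end Field

/-- **`a_r = 0`**: for an integral Weierstrass curve `W` and a prime `r ≡ 3 mod 4`, `r ≠ 3`, of
good reduction with `r ∣ c₆(W)`, the trace of Frobenius `a_r(W)` (point count of the given model
modulo `r`) vanishes. -/
theorem h72_apOfModel_eq_zero (W : WeierstrassCurve ℤ) (r : ℕ) (hr : r.Prime) (hr4 : r % 4 = 3)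
    (hr3 : r ≠ 3) (hgood : W.IsGoodPrimeFor r) (hc₆ : (r : ℤ) ∣ W.c₆) : W.apOfModel r = 0 := by
  have : Fact r.Prime := ⟨hr⟩
  have hr2 : r ≠ 2 := by rintro rfl; omega
  have h2 : (2 : ZMod r) ≠ 0 := by
    intro h
    have h' : ((2 : ℕ) : ZMod r) = 0 := by exact_mod_cast h
    rw [ZMod.natCast_eq_zero_iff] at h'
    exact hr2 ((Nat.prime_dvd_prime_iff_eq hr Nat.prime_two).1 h')
  have h3 : (3 : ZMod r) ≠ 0 := by
    intro h
    have h' : ((3 : ℕ) : ZMod r) = 0 := by exact_mod_cast h
    rw [ZMod.natCast_eq_zero_iff] at h'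
    exact hr3 ((Nat.prime_dvd_prime_iff_eq hr Nat.prime_three).1 h')
  have hΔ : (W.reductionMod r).Δ ≠ 0 := by
    unfold WeierstrassCurve.reductionMod
    rw [WeierstrassCurve.map_Δ]
    intro h
    apply hgood
    have h' : ((W.Δ : ℤ) : ZMod r) = 0 := by simpa using h
    exact (ZMod.intCast_zmod_eq_zero_iff_dvd _ _).1 h'
  have hc : (W.reductionMod r).c₆ = 0 := by
    unfold WeierstrassCurve.reductionMod
    rw [WeierstrassCurve.map_c₆]
    have h' : ((W.c₆ : ℤ) : ZMod r) = 0 := (ZMod.intCast_zmod_eq_zero_iff_dvd _ _).2 hc₆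
    simpa using h'
  have hq : Fintype.card (ZMod r) % 4 = 3 := by rw [ZMod.card]; exact hr4
  have hcard := h72_card_point_of_c₆_eq_zero h2 h3 hq (W.reductionMod r) hΔ hc
  unfold WeierstrassCurve.apOfModel WeierstrassCurve.traceOfFrobenius WeierstrassCurve.card
  rw [hcard, Nat.card_eq_fintype_card]
  push_cast
  ring

end

end Fermat.Agent.S52
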