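import Fermat.Agent.S52.Skeleton3
import Fermat.Agent.S52.H19Galois
import Fermat.Agent.S52.H78Inertia
import Fermat.Agent.Bridge.MinkowskiFinal

/-!
# S52, interface INERTIA3 (second seat, helper19)

For a semistable integral model `W` there is `τ ∈ Gal(ℚ̄/ℚ)` acting trivially on `W[5]`, on the
fifth roots of unity and on `√-1`, and negating a square root of `-3`.

* `h19i_inertia_fixes_root_of_unity` (tame lemma): the inertia group of a place over `q` fixes
  every root of unity of order prime to `q`.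
* `h19i_exists_inertia_neg`: every inertia group over `3` contains an element negating `√-3`
  (Minkowski: otherwise the stabiliser of `√-3` would contain inertia groups at all primes,
  hence be everything; but complex conjugation moves `√-3`).
* `h19i_ifaceInertia3w : IfaceInertia3w`, with `τ` the fifth power of such an element
  (`h78_inertia_pow_int`: inertia at `3` acts on `W[5]` through a `5`-group).
-/

set_option autoImplicit false

namespace Fermat.Agent.S52

open WeierstrassCurve
open scoped WeierstrassCurve.Affine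

local notation "Qbar" => AlgebraicClosure ℚ

/-! ### The tame lemma -/

/-- The inertia group of a place over `q` fixes every `n`-th root of unity, `q ∤ n`. -/
theorem h19i_inertia_fixes_root_of_unity {q : ℕ} (hq : q.Prime) (A : ValuationSubring Qbar)
    (hA : A.LiesOverPrime q) {σ : Qbar ≃ₐ[ℚ] Qbar} (hσ : σ ∈ A.inertiaSubgroupIn ℚ)
    {n : ℕ} (hn : ¬ q ∣ n) {x : Qbar} (hx : x ^ n = 1) : σ x = x := by
  have hn0 : n ≠ 0 := fun h => hn (h ▸ dvd_zero q)
  have hnpos : 0 < n := Nat.pos_of_ne_zero hn0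
  have hchar : CharP (IsLocalRing.ResidueField A) q := h19g_charP hq hA
  -- `x` is integral
  have hxA : x ∈ A := h19g_mem_of_isIntegral A
    (IsIntegral.of_pow hnpos (by rw [hx]; exact isIntegral_one))
  obtain ⟨hσxA, hσx⟩ := Fermat.Agent.Cheb.F1_inertia_sub_mem_nonunits A hσ hxA
  rw [h19g_sub_mem_nonunits_iff A hσxA hxA] at hσx
  -- `w := σ x * x ^ (n - 1)`
  set w : Qbar := σ x * x ^ (n - 1) with hw
  have hxn : x * x ^ (n - 1) = 1 := by
    rw [← pow_succ', Nat.sub_add_cancel hnpos, hx]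
  have hwA : w ∈ A := mul_mem hσxA (pow_mem hxA _)
  have hwn : w ^ n = 1 := by
    rw [hw, mul_pow, ← map_pow, hx, map_one, one_mul, ← pow_mul, mul_comm, pow_mul, hx, one_pow]
  have hρw : IsLocalRing.residue A ⟨w, hwA⟩ = 1 := by
    have e : (⟨w, hwA⟩ : A) = ⟨σ x, hσxA⟩ * ⟨x, hxA⟩ ^ (n - 1) := rfl
    rw [e, map_mul, map_pow, hσx, ← map_pow, ← map_mul]
    have e1 : (⟨x, hxA⟩ : A) * ⟨x, hxA⟩ ^ (n - 1) = 1 := Subtype.ext hxn
    rw [e1, map_one]
  by_cases hw1 : w = 1
  · -- `σ x = x`
    have : σ x * x ^ (n - 1) = x * x ^ (n - 1) := by rw [← hw, hw1, hxn]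
    have hne : x ^ (n - 1) ≠ 0 := by
      intro h
      rw [h, mul_zero] at hxn
      exact zero_ne_one hxn
    exact mul_right_cancel₀ hne this
  · exfalso
    -- the geometric sum vanishes
    have hsum : ∑ k ∈ Finset.range n, w ^ k = 0 := by
      have h1 : (w - 1) * ∑ k ∈ Finset.range n, w ^ k = 0 := by
        rw [mul_geom_sum, hwn, sub_self]
      rcases mul_eq_zero.mp h1 with h | h
      · exact absurd (sub_eq_zero.mp h) hw1
      · exact h
    have hsumA : (∑ k ∈ Finset.range n, (⟨w, hwA⟩ : A) ^ k) = 0 := by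
      apply Subtype.ext
      push_cast
      exact hsum
    have := congrArg (IsLocalRing.residue A) hsumA
    rw [map_sum, map_zero] at this
    simp only [map_pow, hρw, one_pow, Finset.sum_const, Finset.card_range, nsmul_eq_mul,
      mul_one] at this
    rw [CharP.cast_eq_zero_iff (IsLocalRing.ResidueField A) q] at this
    exact hn this

/-- The inertia group of a place over `q ≠ 3` fixes every square root of `-3`. -/
theorem h19i_inertia_fixes_sqrt {q : ℕ} (hq : q.Prime) (hq3 : q ≠ 3)
    (A : ValuationSubring Qbar) (hA : A.LiesOverPrime q) {σ : Qbar ≃ₐ[ℚ] Qbar}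
    (hσ : σ ∈ A.inertiaSubgroupIn ℚ) {s : Qbar} (hs : s ^ 2 = -3) : σ s = s := by
  have hn : ¬ q ∣ 3 := fun h => hq3 ((Nat.prime_dvd_prime_iff_eq hq Nat.prime_three).mp h)
  have hω : ((-1 + s) / 2) ^ 3 = 1 := by
    field_simp
    linear_combination (s - 3) * hs
  have h1 := h19i_inertia_fixes_root_of_unity hq A hA hσ hn hω
  rw [map_div₀, map_add, map_neg, map_one, map_ofNat] at h1
  have h2 : (2 : Qbar) ≠ 0 := two_ne_zero
  field_simp at h1
  linear_combination h1

/-! ### An inertia element over `3` moving `√-3` -/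

/-- Every automorphism maps a square root of `-3` to itself or to its negative. -/
theorem h19i_pm (σ : Qbar ≃ₐ[ℚ] Qbar) {s : Qbar} (hs : s ^ 2 = -3) : σ s = s ∨ σ s = -s := by
  have h1 : (σ s) ^ 2 = -3 := by
    rw [← map_pow, hs, map_neg, map_ofNat]
  have h2 : (σ s - s) * (σ s + s) = 0 := by linear_combination h1 - hs
  rcases mul_eq_zero.mp h2 with h | h
  · left; exact sub_eq_zero.mp h
  · right; exact eq_neg_of_add_eq_zero_left h

/-- The stabiliser of a square root of `-3`. -/
def h19i_stab (s : Qbar) : Subgroup (Qbar ≃ₐ[ℚ] Qbar) where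
  carrier := {σ | σ s = s}
  mul_mem' := by
    intro a b ha hb
    show (a * b) s = s
    rw [AlgEquiv.mul_apply, show b s = s from hb, show a s = s from ha]
  one_mem' := rfl
  inv_mem' := by
    intro a ha
    show a⁻¹ s = s
    have h : a s = s := ha
    calc a⁻¹ s = a⁻¹ (a s) := by rw [h]
      _ = s := a.symm_apply_apply s

theorem h19i_mem_stab {s : Qbar} {σ : Qbar ≃ₐ[ℚ] Qbar} : σ ∈ h19i_stab s ↔ σ s = s :=
  Iff.rfl

/-- The stabiliser of a square root of `-3` is normal. -/
theorem h19i_stab_normal {s : Qbar} (hs : s ^ 2 = -3) : (h19i_stab s).Normal := by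
  refine ⟨fun σ hσ g => ?_⟩
  rw [h19i_mem_stab] at hσ ⊢
  show g (σ (g⁻¹ s)) = s
  have hg : g (g⁻¹ s) = s := g.apply_symm_apply s
  rcases h19i_pm g⁻¹ hs with h | h
  · rw [h, hσ]
    rw [h] at hg
    exact hg
  · rw [h, map_neg, hσ]
    rw [h] at hg
    exact hg

/-- **Every inertia group over `3` contains an element negating `√-3`.** -/
theorem h19i_exists_inertia_neg (A : ValuationSubring Qbar) (hA : A.LiesOverPrime 3)
    {s : Qbar} (hs : s ^ 2 = -3) :
    ∃ τ0 : Qbar ≃ₐ[ℚ] Qbar, τ0 ∈ A.inertiaSubgroupIn ℚ ∧ τ0 s = -s := by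
  by_contra hcon0
  have hcon : ∀ τ0 : Qbar ≃ₐ[ℚ] Qbar, τ0 ∈ A.inertiaSubgroupIn ℚ → τ0 s ≠ -s :=
    fun τ0 h1 h2 => hcon0 ⟨τ0, h1, h2⟩
  have htop : h19i_stab s = ⊤ := by
    refine Fermat.Agent.Bridge.minkowski_one_finset (h19i_stab s) (h19i_stab_normal hs)
      ⟨{s}, fun σ h => h s (Finset.mem_singleton_self s)⟩ ?_
    intro q hq
    by_cases hq3 : q = 3
    · subst hq3
      refine ⟨A, hA, fun σ hσ => ?_⟩
      rw [h19i_mem_stab]
      rcases h19i_pm σ hs with h | h
      · exact h
      · exact absurd h (hcon σ hσ)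
    · obtain ⟨B, hB⟩ := Fermat.Agent.S54.exists_liesOverPrime hq
      exact ⟨B, hB, fun σ hσ => h19i_inertia_fixes_sqrt hq hq3 B hB hσ hs⟩
  have hc : complexConjugation ∈ h19i_stab s := by rw [htop]; exact Subgroup.mem_top _
  rw [h19i_mem_stab] at hc
  have hc' : complexConjugation s = -s :=
    h19g_conj_of_sq_neg s 3 (by norm_num) (by rw [hs, map_ofNat])
  rw [hc] at hc'
  have hs0 : s = 0 := by
    have h2 : (2 : Qbar) * s = 0 := by linear_combination hc'
    rcases mul_eq_zero.mp h2 with h | h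
    · exact absurd h two_ne_zero
    · exact h
  rw [hs0] at hs
  norm_num at hs

/-! ### The interface -/

/-- **(INERTIA3-w)** -/
theorem h19i_ifaceInertia3w : IfaceInertia3w := by
  intro W hΔ hW
  obtain ⟨A, hA⟩ := Fermat.Agent.S54.exists_liesOverPrime Nat.prime_three
  obtain ⟨s, hs⟩ := IsAlgClosed.exists_pow_nat_eq (-3 : Qbar) (n := 2) two_pos
  obtain ⟨τ0, hτ0, hτ0s⟩ := h19i_exists_inertia_neg A hA hs
  refine ⟨τ0 ^ 5, ?_, ?_, ?_, s, hs, ?_⟩
  · intro x
    apply Subtype.ext
    have hx : (5 : ℕ) • (x : ((W.map (Int.castRingHom ℚ))⁄Qbar).Point) = 0 := by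
      have := x.2
      rw [Submodule.mem_torsionBy_iff] at this
      rw [← natCast_zsmul]
      exact this
    exact h78_inertia_pow_int W hΔ Nat.prime_three (by norm_num) (hW 3 Nat.prime_three) A hA
      Nat.prime_five (by norm_num) hτ0 _ hx
  · intro z hz
    exact h19g_pow_apply_fixed τ0
      (h19i_inertia_fixes_root_of_unity Nat.prime_three A hA hτ0 (n := 5) (by norm_num) hz) 5
  · intro i hi
    have hi4 : i ^ 4 = 1 := by
      have : i ^ 4 = (i ^ 2) ^ 2 := by ring
      rw [this, hi]; ring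
    exact h19g_pow_apply_fixed τ0
      (h19i_inertia_fixes_root_of_unity Nat.prime_three A hA hτ0 (n := 4) (by norm_num) hi4) 5
  · rw [h19g_pow_apply_neg τ0 hτ0s]
    ring

end Fermat.Agent.S52
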