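import Fermat.Agent.S52.Skeleton2
import Fermat.Agent.S05.VarChange

/-!
# S52, row SHORT: the short Weierstrass model has the same mod-`p` representation

For an integral Weierstrass curve `W` (no hypothesis on the discriminant) the variable change
`C₀ = (u, r, s, t) = (1/6, -b₂/12, -a₁/2, -(a₃ + a₁ r)/2)`, defined over `ℚ`, transforms
`W_ℚ` into the short curve `y² = x³ - 27 c₄ x - 54 c₆`.  The induced map on `ℚ̄`-points
(`S05/VarChange.lean`, `vcPointBC`) is a Galois-equivariant group isomorphism, which we restrict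
to the `p`-torsion.

Main result: `ifaceShort : IfaceShort`.

Author: helper82.
-/

set_option autoImplicit false

namespace Fermat.Agent.S52

open WeierstrassCurve WeierstrassCurve.Affine Fermat.Agent.S05

section General

variable {F₀ K : Type*} [Field F₀] [Field K] [Algebra F₀ K] [DecidableEq K]

/-- Transport of points along an equality of curves is surjective. -/
theorem h82_pointCast_surjective {W₁ W₂ : WeierstrassCurve K} (h : W₁ = W₂) :
    Function.Surjective (pointCast h) := by
  subst h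
  rintro (_ | ⟨x, y, hxy⟩)
  · exact ⟨0, rfl⟩
  · exact ⟨.some x y hxy, rfl⟩

/-- The point map of a variable change is surjective. -/
theorem h82_vcPoint_surjective (W : WeierstrassCurve K) (C : VariableChange K) :
    Function.Surjective (vcPoint W C) := by
  have hu : (C.u : K) ≠ 0 := C.u.ne_zero
  rintro (_ | ⟨X, Y, hXY⟩)
  · exact ⟨0, rfl⟩
  · set x : K := (X - C.r) / (C.u : K) ^ 2 with hx
    set y : K := (Y - (C.u : K) ^ 2 * C.s * x - C.t) / (C.u : K) ^ 3 with hy
    have hX : vcX C x = X := by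
      simp only [vcX, hx]
      field_simp
      ring
    have hY : vcY C x y = Y := by
      simp only [vcY, hy]
      field_simp
      ring
    have hns : (C • W).toAffine.Nonsingular x y := by
      rw [vc_nonsingular_iff, hX, hY]
      exact hXY
    refine ⟨.some x y hns, ?_⟩
    rw [vcPoint_some]
    simp only [Affine.Point.some.injEq]
    exact ⟨hX, hY⟩

/-- The base-changed point map of a variable change is surjective. -/
theorem h82_vcPointBC_surjective (W₀ : WeierstrassCurve F₀) (C₀ : VariableChange F₀) :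
    Function.Surjective (vcPointBC (K := K) W₀ C₀) := by
  unfold vcPointBC
  rw [AddMonoidHom.coe_comp]
  exact (h82_vcPoint_surjective _ _).comp (h82_pointCast_surjective _)

/-- The base-changed point map of a variable change, as an additive equivalence. -/
noncomputable def h82_vcEquiv (W₀ : WeierstrassCurve F₀) (C₀ : VariableChange F₀) :
    ((C₀ • W₀).baseChange K).toAffine.Point ≃+ (W₀.baseChange K).toAffine.Point :=
  AddEquiv.ofBijective (vcPointBC (K := K) W₀ C₀)
    ⟨vcPointBC_injective W₀ C₀, h82_vcPointBC_surjective W₀ C₀⟩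

theorem h82_vcEquiv_apply (W₀ : WeierstrassCurve F₀) (C₀ : VariableChange F₀)
    (P : ((C₀ • W₀).baseChange K).toAffine.Point) :
    h82_vcEquiv (K := K) W₀ C₀ P = vcPointBC W₀ C₀ P := rfl

end General

section Torsion

/-- An additive equivalence restricts to the `n`-torsion. -/
noncomputable def h82_torsionEquiv {A B : Type*} [AddCommGroup A] [AddCommGroup B] (φ : A ≃+ B)
    (n : ℤ) : Submodule.torsionBy ℤ A n ≃+ Submodule.torsionBy ℤ B n where
  toFun x := ⟨φ x.1, by
    rw [Submodule.mem_torsionBy_iff, ← map_zsmul, (Submodule.mem_torsionBy_iff _ _).1 x.2,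
      map_zero]⟩
  invFun y := ⟨φ.symm y.1, by
    rw [Submodule.mem_torsionBy_iff, ← map_zsmul, (Submodule.mem_torsionBy_iff _ _).1 y.2,
      map_zero]⟩
  left_inv x := Subtype.ext (φ.symm_apply_apply x.1)
  right_inv y := Subtype.ext (φ.apply_symm_apply y.1)
  map_add' x y := Subtype.ext (map_add φ x.1 y.1)

theorem h82_torsionEquiv_coe {A B : Type*} [AddCommGroup A] [AddCommGroup B] (φ : A ≃+ B)
    (n : ℤ) (x : Submodule.torsionBy ℤ A n) :
    ((h82_torsionEquiv φ n x : Submodule.torsionBy ℤ B n) : B) = φ x.1 := rfl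

end Torsion

/-- Curves over `ℚ` related by a variable change over `ℚ` have Galois-equivariantly isomorphic
`p`-torsion over `ℚ̄`. -/
theorem h82_sameModRepQ_of_variableChange (W₀ E : WeierstrassCurve ℚ) (C₀ : VariableChange ℚ)
    (h : C₀ • W₀ = E) (p : ℕ) :
    ∃ e : h86_TorsQ W₀ p ≃+ h86_TorsQ E p,
      ∀ (σ : AlgebraicClosure ℚ ≃ₐ[ℚ] AlgebraicClosure ℚ) (x : h86_TorsQ W₀ p),
        e (σ • x) = σ • e x := by
  subst h
  refine ⟨(h82_torsionEquiv (h82_vcEquiv (K := AlgebraicClosure ℚ) W₀ C₀) (p : ℤ)).symm, ?_⟩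
  intro σ x
  apply (h82_torsionEquiv (h82_vcEquiv (K := AlgebraicClosure ℚ) W₀ C₀) (p : ℤ)).injective
  rw [AddEquiv.apply_symm_apply]
  apply Subtype.ext
  rw [h82_torsionEquiv_coe]
  set y := (h82_torsionEquiv (h82_vcEquiv (K := AlgebraicClosure ℚ) W₀ C₀) (p : ℤ)).symm x
    with hy
  have hx : ((x : h86_TorsQ W₀ p) : (W₀⁄(AlgebraicClosure ℚ)).Point) =
      vcPointBC W₀ C₀ (y : ((C₀ • W₀)⁄(AlgebraicClosure ℚ)).Point) := by
    have := congrArg Subtype.val
      ((h82_torsionEquiv (h82_vcEquiv (K := AlgebraicClosure ℚ) W₀ C₀) (p : ℤ)).apply_symm_apply x)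
    rw [h82_torsionEquiv_coe] at this
    exact this.symm
  show ((σ • x : h86_TorsQ W₀ p) : (W₀⁄(AlgebraicClosure ℚ)).Point) =
    vcPointBC W₀ C₀ ((σ • y : h86_TorsQ (C₀ • W₀) p) : ((C₀ • W₀)⁄(AlgebraicClosure ℚ)).Point)
  show Affine.Point.map (W' := W₀) σ.toAlgHom (x : (W₀⁄(AlgebraicClosure ℚ)).Point) =
    vcPointBC W₀ C₀ (Affine.Point.map (W' := (C₀ • W₀)) σ.toAlgHom
      (y : ((C₀ • W₀)⁄(AlgebraicClosure ℚ)).Point))
  rw [vcPointBC_map, hx]

/-- The variable change to the short model. -/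
noncomputable def h82_shortChange (W₀ : WeierstrassCurve ℚ) : VariableChange ℚ where
  u := Units.mk0 (1 / 6 : ℚ) (by norm_num)
  r := -W₀.b₂ / 12
  s := -W₀.a₁ / 2
  t := -(W₀.a₃ + W₀.a₁ * (-W₀.b₂ / 12)) / 2

theorem h82_shortChange_smul (W₀ : WeierstrassCurve ℚ) :
    h82_shortChange W₀ • W₀ = h86_short W₀.c₄ W₀.c₆ := by
  have hu : (((h82_shortChange W₀).u⁻¹ : ℚˣ) : ℚ) = 6 := by
    simp [h82_shortChange]
  ext
  · rw [variableChange_a₁, hu]
    simp only [h82_shortChange, h86_short]
    ring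
  · rw [variableChange_a₂, hu]
    simp only [h82_shortChange, h86_short, WeierstrassCurve.b₂]
    ring
  · rw [variableChange_a₃, hu]
    simp only [h82_shortChange, h86_short]
    ring
  · rw [variableChange_a₄, hu]
    simp only [h82_shortChange, h86_short, WeierstrassCurve.c₄, WeierstrassCurve.b₂,
      WeierstrassCurve.b₄]
    ring
  · rw [variableChange_a₆, hu]
    simp only [h82_shortChange, h86_short, WeierstrassCurve.c₆, WeierstrassCurve.b₂,
      WeierstrassCurve.b₄, WeierstrassCurve.b₆]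
    ring

/-- **(SHORT)** -/
theorem ifaceShort : IfaceShort := by
  intro W p
  have h := h82_shortChange_smul (W.map (Int.castRingHom ℚ))
  have hc4 : (W.map (Int.castRingHom ℚ)).c₄ = (W.c₄ : ℚ) := by
    rw [WeierstrassCurve.map_c₄]; rfl
  have hc6 : (W.map (Int.castRingHom ℚ)).c₆ = (W.c₆ : ℚ) := by
    rw [WeierstrassCurve.map_c₆]; rfl
  rw [hc4, hc6] at h
  exact h82_sameModRepQ_of_variableChange (W.map (Int.castRingHom ℚ))
    (h86_short (W.c₄ : ℚ) (W.c₆ : ℚ)) (h82_shortChange (W.map (Int.castRingHom ℚ))) h p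

end Fermat.Agent.S52
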