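import Fermat.Agent.S52.Skeleton3
import Fermat.Agent.S52.Short

/-!
# S52, interface SHORT-Z (second seat, helper19)

`IfaceShortZ` from the landed `ifaceShort : IfaceShort`: the base change to `ℚ` of the integral
short model `h86_shortZ A B` is the rational short model `h86_short A B`.
-/

set_option autoImplicit false

namespace Fermat.Agent.S52

open WeierstrassCurve WeierstrassCurve.Affine

/-- The base change to `ℚ` of the integral short model. -/
theorem h19z_map_shortZ (A B : ℤ) :
    (h86_shortZ A B).map (Int.castRingHom ℚ) = h86_short (A : ℚ) (B : ℚ) := by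
  unfold h86_shortZ h86_short
  ext <;> simp [WeierstrassCurve.map]

/-- Transport of the statement along an equality of curves. -/
theorem h19z_transport (W : WeierstrassCurve ℤ) (p : ℕ) {E E' : WeierstrassCurve ℚ}
    (h : E = E')
    (H : ∃ e : h86_Tors W p ≃+ h86_TorsQ E p,
      ∀ (σ : AlgebraicClosure ℚ ≃ₐ[ℚ] AlgebraicClosure ℚ) (x : h86_Tors W p),
        e (σ • x) = σ • e x) :
    ∃ e : h86_Tors W p ≃+ h86_TorsQ E' p,
      ∀ (σ : AlgebraicClosure ℚ ≃ₐ[ℚ] AlgebraicClosure ℚ) (x : h86_Tors W p),
        e (σ • x) = σ • e x := by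
  subst h
  exact H

/-- **(SHORT-Z)** -/
theorem h19z_ifaceShortZ : IfaceShortZ := by
  intro W p
  exact h19z_transport W p (h19z_map_shortZ W.c₄ W.c₆).symm (ifaceShort W p)

end Fermat.Agent.S52
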