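import Fermat.Agent.S52.Short
import Fermat.Agent.S52.Skeleton3

/-!
# S52, leaf SHORT-Z: `IfaceShortZ` from `ifaceShort`

helper5 (second seat).  The integral short model `h86_shortZ A B`, mapped to `ℚ`, is the rational
short model `h86_short A B`.
-/

set_option autoImplicit false

namespace Fermat.Agent.S52

open WeierstrassCurve WeierstrassCurve.Affine

theorem h5sz_map_shortZ (A B : ℤ) :
    (h86_shortZ A B).map (Int.castRingHom ℚ) = h86_short (A : ℚ) (B : ℚ) := by
  ext <;> simp [h86_shortZ, h86_short]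

/-- Equal curves over `ℚ` have isomorphic mod-`p` representations. -/
theorem h5sz_sameModRepQ_of_eq (p : ℕ) {E E' : WeierstrassCurve ℚ} (h : E = E') :
    SameModRepQ p E E' := by
  subst h
  exact ⟨AddEquiv.refl _, fun _ _ => rfl⟩

/-- **(SHORT-Z)** -/
theorem h5sz_ifaceShortZ : IfaceShortZ := by
  intro W p
  obtain ⟨e, he⟩ := ifaceShort W p
  obtain ⟨e', he'⟩ := h5sz_sameModRepQ_of_eq p (h5sz_map_shortZ W.c₄ W.c₆).symm
  exact ⟨e.trans e', fun σ x => by
    show e' (e (σ • x)) = σ • e' (e x)
    rw [he, he']⟩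

end Fermat.Agent.S52
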