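import Fermat.Agent.S52.Skeleton
import Fermat.Agent.EFrob.Congr

/-!
# S52, row CONGR: `IfaceCongr`

Curves with isomorphic mod-`p` representations have congruent `a_ℓ` at all common good primes
`ℓ ≠ p`: a direct consequence of `Fermat.Agent.EFrob.apOfModel_congr_of_equivariant`.
-/

set_option autoImplicit false

namespace Fermat.Agent.S52

/-- **(CONGR)** -/
theorem h6_ifaceCongr : IfaceCongr := by
  intro p hp W W' hsame ℓ hℓ hg hg' hne
  obtain ⟨e, he⟩ := hsame
  exact Fermat.Agent.EFrob.apOfModel_congr_of_equivariant W W' hp e.toAddMonoidHom e.injective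
    he ℓ hℓ hg hg' hne

end Fermat.Agent.S52
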