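import Mathlib
import Fermat.Prelude.Def_FLTPrelim_Modularity

/-!
# S52, point-count leaf (helper78)

For a Weierstrass curve over a finite field `F` of characteristic `≠ 2, 3` with `Δ ≠ 0`,
`c₆ = 0` and `-1` a non-square, the number of points is `#F + 1`, i.e. the trace of
Frobenius vanishes.  Specialised to an integral model `W` and a prime `r ≡ 3 mod 4`, `r ≠ 3`,
`r ∣ c₆(W)`, `r ∤ Δ(W)`: `W.apOfModel r = 0`.
-/

set_option autoImplicit false

namespace Fermat.Agent.S52

open WeierstrassCurve Finset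

section FiniteField

variable {F : Type*} [Field F]

/-- The cubic `4x³ + b₂x² + 2b₄x + b₆` (the discriminant in `y` of the Weierstrass equation). -/
def h78_cubic (W : WeierstrassCurve F) (x : F) : F :=
  4 * x ^ 3 + W.b₂ * x ^ 2 + 2 * W.b₄ * x + W.b₆

lemma h78_equation_iff (W : WeierstrassCurve F) (h2 : (2 : F) ≠ 0) (x y : F) :
    W.toAffine.Equation x y ↔ (2 * y + W.a₁ * x + W.a₃) ^ 2 = h78_cubic W x := by
  rw [WeierstrassCurve.Affine.equation_iff]
  simp only [h78_cubic, WeierstrassCurve.b₂, WeierstrassCurve.b₄, WeierstrassCurve.b₆]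
  have h4 : (4 : F) ≠ 0 := by
    have : (4 : F) = 2 * 2 := by norm_num
    rw [this]; exact mul_ne_zero h2 h2
  constructor
  · intro h
    linear_combination 4 * h
  · intro h
    apply mul_left_cancel₀ h4
    linear_combination h

/-- For fixed `x`, the `y` on the curve correspond to the square roots of the cubic. -/
noncomputable def h78_fibreEquiv (W : WeierstrassCurve F) (h2 : (2 : F) ≠ 0) (x : F) :
    {y : F // W.toAffine.Equation x y} ≃ {z : F // z ^ 2 = h78_cubic W x} where
  toFun y := ⟨2 * y.1 + W.a₁ * x + W.a₃, (h78_equation_iff W h2 x y.1).1 y.2⟩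
  invFun z := ⟨(z.1 - W.a₁ * x - W.a₃) / 2, by
    rw [h78_equation_iff W h2]
    have e : 2 * ((z.1 - W.a₁ * x - W.a₃) / 2) + W.a₁ * x + W.a₃ = z.1 := by
      field_simp
      ring
    rw [e]
    exact z.2⟩
  left_inv y := by
    apply Subtype.ext
    simp only
    field_simp
    ring
  right_inv z := by
    apply Subtype.ext
    simp only
    field_simp
    ring

/-- The key symmetry: if `c₆ = 0` then the cubic is odd about `-b₂/12`. -/
lemma h78_cubic_reflect (W : WeierstrassCurve F) (h2 : (2 : F) ≠ 0) (h3 : (3 : F) ≠ 0)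
    (hc6 : W.c₆ = 0) (x : F) :
    h78_cubic W (-x - W.b₂ / 6) = - h78_cubic W x := by
  have h6 : (6 : F) ≠ 0 := by
    have : (6 : F) = 2 * 3 := by norm_num
    rw [this]; exact mul_ne_zero h2 h3
  have h108 : (108 : F) ≠ 0 := by
    have : (108 : F) = 2 * 2 * 3 * 3 * 3 := by norm_num
    rw [this]
    exact mul_ne_zero (mul_ne_zero (mul_ne_zero (mul_ne_zero h2 h2) h3) h3) h3
  obtain ⟨s, hs⟩ : ∃ s : F, W.b₂ = 6 * s := ⟨W.b₂ / 6, by field_simp⟩
  have hd : W.b₂ / 6 = s := by rw [hs]; field_simp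
  simp only [WeierstrassCurve.c₆] at hc6
  simp only [h78_cubic]
  rw [hd]
  rw [hs] at hc6 ⊢
  apply mul_left_cancel₀ h108
  linear_combination (-1 : F) * hc6

variable [Fintype F] [DecidableEq F]

lemma h78_card_fibre_int (W : WeierstrassCurve F) (hF : ringChar F ≠ 2) (x : F) :
    (Nat.card {y : F // W.toAffine.Equation x y} : ℤ) =
      quadraticChar F (h78_cubic W x) + 1 := by
  classical
  have h2 : (2 : F) ≠ 0 := Ring.two_ne_zero hF
  rw [Nat.card_congr (h78_fibreEquiv W h2 x), ← quadraticChar_card_sqrts hF,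
    Nat.card_eq_fintype_card, Set.toFinset_card]
  congr 1

lemma h78_sum_char_eq_zero (W : WeierstrassCurve F) (hF : ringChar F ≠ 2) (h3 : (3 : F) ≠ 0)
    (hm1 : quadraticChar F (-1) = -1) (hc6 : W.c₆ = 0) :
    ∑ x : F, quadraticChar F (h78_cubic W x) = 0 := by
  have h2 : (2 : F) ≠ 0 := Ring.two_ne_zero hF
  have e : (∑ x : F, quadraticChar F (h78_cubic W (-x - W.b₂ / 6))) =
      ∑ x : F, quadraticChar F (h78_cubic W x) := by
    refine Fintype.sum_equiv ⟨fun x => -x - W.b₂ / 6, fun x => -x - W.b₂ / 6, ?_, ?_⟩ _ _ ?_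
    · intro x; ring
    · intro x; ring
    · intro x; rfl
  have key : (∑ x : F, quadraticChar F (h78_cubic W x)) =
      -∑ x : F, quadraticChar F (h78_cubic W x) := by
    calc (∑ x : F, quadraticChar F (h78_cubic W x))
        = ∑ x : F, quadraticChar F (h78_cubic W (-x - W.b₂ / 6)) := e.symm
      _ = ∑ x : F, -quadraticChar F (h78_cubic W x) := by
          refine Finset.sum_congr rfl fun x _ => ?_
          rw [h78_cubic_reflect W h2 h3 hc6, ← neg_one_mul (h78_cubic W x), map_mul, hm1]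
          ring
      _ = -∑ x : F, quadraticChar F (h78_cubic W x) := Finset.sum_neg_distrib _
  omega

/-- Points of an affine Weierstrass curve with `Δ ≠ 0`: the point at infinity plus the solutions
of the equation. -/
noncomputable def h78_pointEquiv (W : WeierstrassCurve F) (hΔ : W.Δ ≠ 0) :
    W.toAffine.Point ≃ Option (Σ x : F, {y : F // W.toAffine.Equation x y}) where
  toFun
    | .zero => none
    | .some (x := x) (y := y) h => some ⟨x, y, h.1⟩
  invFun
    | none => .zero
    | some p => Affine.Point.some (x := p.1) (y := p.2.1)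
        ((W.toAffine.equation_iff_nonsingular_of_Δ_ne_zero hΔ).1 p.2.2)
  left_inv := by
    rintro (_ | ⟨h⟩) <;> rfl
  right_inv := by
    rintro (_ | ⟨x, y, hp⟩) <;> rfl

lemma h78_card_point (W : WeierstrassCurve F) (hF : ringChar F ≠ 2) (h3 : (3 : F) ≠ 0)
    (hm1 : quadraticChar F (-1) = -1) (hΔ : W.Δ ≠ 0) (hc6 : W.c₆ = 0) :
    Nat.card W.toAffine.Point = Fintype.card F + 1 := by
  classical
  rw [Nat.card_congr (h78_pointEquiv W hΔ), Nat.card_eq_fintype_card, Fintype.card_option]
  congr 1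
  rw [Fintype.card_sigma]
  have h2 : ((∑ x : F, Fintype.card {y : F // W.toAffine.Equation x y} : ℕ) : ℤ)
      = (Fintype.card F : ℤ) := by
    push_cast
    have : ∀ x : F, (Fintype.card {y : F // W.toAffine.Equation x y} : ℤ) =
        quadraticChar F (h78_cubic W x) + 1 := by
      intro x
      rw [← h78_card_fibre_int W hF x, Nat.card_eq_fintype_card]
    simp only [this]
    rw [Finset.sum_add_distrib, h78_sum_char_eq_zero W hF h3 hm1 hc6]
    simp
  exact_mod_cast h2

end FiniteField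

/-- **Point count.** If `r ≡ 3 mod 4` is a prime `≠ 3` of good reduction for the integral model
`W` with `r ∣ c₆(W)`, then `a_r(W) = 0`. -/
theorem h78_apOfModel_eq_zero (W : WeierstrassCurve ℤ) (r : ℕ) (hr : r.Prime) (h4 : r % 4 = 3)
    (h3 : r ≠ 3) (hc6 : (r : ℤ) ∣ W.c₆) (hΔ : ¬ (r : ℤ) ∣ W.Δ) : W.apOfModel r = 0 := by
  have : Fact r.Prime := ⟨hr⟩
  have hchar : ringChar (ZMod r) ≠ 2 := by
    rw [ZMod.ringChar_zmod_n]
    rintro rfl
    omega
  have h3' : (3 : ZMod r) ≠ 0 := by
    intro h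
    have h' : ((3 : ℕ) : ZMod r) = 0 := by exact_mod_cast h
    rw [ZMod.natCast_eq_zero_iff] at h'
    have := (Nat.prime_dvd_prime_iff_eq hr Nat.prime_three).1 h'
    exact h3 this
  have hm1 : quadraticChar (ZMod r) (-1) = -1 := by
    rw [quadraticChar_neg_one hchar, ZMod.card]
    exact ZMod.χ₄_nat_three_mod_four h4
  have hΔ' : (W.reductionMod r).Δ ≠ 0 := by
    rw [WeierstrassCurve.reductionMod, WeierstrassCurve.map_Δ]
    intro h
    exact hΔ ((ZMod.intCast_zmod_eq_zero_iff_dvd _ _).1 h)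
  have hc6' : (W.reductionMod r).c₆ = 0 := by
    rw [WeierstrassCurve.reductionMod, WeierstrassCurve.map_c₆]
    exact (ZMod.intCast_zmod_eq_zero_iff_dvd _ _).2 hc6
  unfold WeierstrassCurve.apOfModel WeierstrassCurve.traceOfFrobenius WeierstrassCurve.card
  rw [h78_card_point (W.reductionMod r) hchar h3' hm1 hΔ' hc6', Nat.card_eq_fintype_card]
  push_cast
  ring

end Fermat.Agent.S52
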