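import Fermat.Agent.S52.H78Unip

/-!
# S52, inertia leaf, part 3 (helper78): existence of a nodal translate

Let `W` be a Weierstrass curve over an algebraically closed field `K`, with coefficients in a
valuation subring `A` in which `2` is a unit.  If `Δ ≠ 0` is a non-unit and `c₄` is a unit
(multiplicative reduction), then a translate of `W` by a `2`-torsion point `(e, t)`, `e ∈ A`,
is a nodal model in the sense of `H76.NodalVal`.
-/

set_option autoImplicit false
set_option linter.unusedSectionVars false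

namespace Fermat.Agent.S52

open WeierstrassCurve Fermat.Agent.S05 Fermat.Agent.S05.H76

variable {K : Type*} [Field K] [DecidableEq K]

/-- A root of a monic-up-to-a-unit cubic with integral coefficients is integral. -/
theorem h78_root_mem (A : ValuationSubring K) {b c d r : K} (hb : b ∈ A) (hc : c ∈ A)
    (hd : d ∈ A) (h4 : A.valuation (4 : K) = 1) (hr : 4 * r ^ 3 + b * r ^ 2 + c * r + d = 0) :
    r ∈ A := by
  by_contra hrA
  have hv : 1 < A.valuation r := by
    by_contra h
    push Not at h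
    exact hrA ((A.valuation_le_one_iff r).mp h)
  have hr0 : A.valuation r ≠ 0 := fun h => by rw [h] at hv; exact not_lt_zero hv
  have hpos : 0 < A.valuation r := zero_lt_iff.mpr hr0
  have e : 4 * r ^ 3 = -(b * r ^ 2 + c * r + d) := by linear_combination hr
  have h1 : A.valuation (4 * r ^ 3) = A.valuation r ^ 3 := by
    rw [map_mul, h4, one_mul, map_pow]
  have hb' := (A.valuation_le_one_iff b).mpr hb
  have hc' := (A.valuation_le_one_iff c).mpr hc
  have hd' := (A.valuation_le_one_iff d).mpr hd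
  have hsq : A.valuation r ^ 2 < A.valuation r ^ 3 := by
    rw [pow_succ (A.valuation r) 2]
    exact lt_mul_of_one_lt_right (pow_pos hpos 2) hv
  have h1r : A.valuation r < A.valuation r ^ 2 := by
    rw [pow_two]
    exact lt_mul_of_one_lt_right hpos hv
  have h2 : A.valuation (-(b * r ^ 2 + c * r + d)) < A.valuation r ^ 3 := by
    rw [Valuation.map_neg]
    refine Valuation.map_add_lt _ (Valuation.map_add_lt _ ?_ ?_) ?_
    · rw [map_mul, map_pow]
      exact lt_of_le_of_lt (mul_le_of_le_one_left (pow_pos hpos 2).le hb') hsq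
    · rw [map_mul]
      exact lt_of_le_of_lt (mul_le_of_le_one_left hpos.le hc') (h1r.trans hsq)
    · exact lt_of_le_of_lt hd' (hv.trans (h1r.trans hsq))
  rw [← e, h1] at h2
  exact lt_irrefl _ h2

/-- The nodal translate at a root `e` of the `2`-division cubic which is congruent to another
root `e'`. -/
theorem h78_nodal_of_roots [IsAlgClosed K] (A : ValuationSubring K) (W : WeierstrassCurve K)
    (ha₁ : W.a₁ ∈ A) (h2 : A.valuation (2 : K) = 1) (hc₄ : A.valuation W.c₄ = 1)
    {e e' e'' : K} (he : e ∈ A) (_he' : e' ∈ A) (he'' : e'' ∈ A)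
    (hb : W.b₂ = 4 * -(e + e' + e'')) (hc : 2 * W.b₄ = 4 * (e * e' + e * e'' + e' * e''))
    (hd : W.b₆ = 4 * -(e * e' * e'')) (hne' : e ≠ e') (hne'' : e ≠ e'')
    (hclose : A.valuation (e - e') < 1) :
    ∃ t r₁ r₂ : K, NodalVal A.valuation (h78_vc e t • W) r₁ r₂ := by
  have h20 : (2 : K) ≠ 0 := fun h => by rw [h, map_zero] at h2; exact zero_ne_one h2
  have h2A : (2 : K) ∈ A := (A.valuation_le_one_iff _).mp h2.le
  have h2inv : (2 : K)⁻¹ ∈ A := by
    apply (A.valuation_le_one_iff _).mp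
    rw [map_inv₀, h2, inv_one]
  obtain ⟨d, hdsq⟩ := IsAlgClosed.exists_pow_nat_eq (W.b₂ + 12 * e) (n := 2) (by norm_num)
  obtain ⟨t, h3⟩ : ∃ t : K, W.a₃ + e * W.a₁ + 2 * t = 0 :=
    ⟨-(W.a₃ + e * W.a₁) / 2, by field_simp; ring⟩
  -- the coefficient `a₄` of the translate
  have hw : (h78_vc e t • W).a₄ = (e - e') * (e - e'') := by
    rw [h78_vc_a₄]
    apply mul_left_cancel₀ (mul_ne_zero h20 h20)
    simp only [WeierstrassCurve.b₂, WeierstrassCurve.b₄] at hb hc
    linear_combination hc + 2 * e * hb - 2 * W.a₁ * h3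
  have hw6 : (h78_vc e t • W).a₆ = 0 := by
    rw [h78_vc_a₆]
    apply mul_left_cancel₀ (mul_ne_zero h20 h20)
    simp only [WeierstrassCurve.b₂, WeierstrassCurve.b₄, WeierstrassCurve.b₆] at hb hc hd
    linear_combination hd + e * hc + e ^ 2 * hb - (W.a₃ + e * W.a₁ + 2 * t) * h3
  have hwv : A.valuation ((h78_vc e t • W).a₄) < 1 := by
    rw [hw, map_mul]
    have : A.valuation (e - e'') ≤ 1 := (A.valuation_le_one_iff _).mpr (sub_mem he he'')
    calc A.valuation (e - e') * A.valuation (e - e'') ≤ A.valuation (e - e') * 1 := by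
          gcongr
      _ < 1 := by rw [mul_one]; exact hclose
  -- the unit `d`
  have hdv : A.valuation d = 1 := by
    have e1 : (d ^ 2) ^ 2 = W.c₄ + 48 * (h78_vc e t • W).a₄ := by
      rw [hdsq, hw]
      simp only [WeierstrassCurve.c₄]
      linear_combination (24 : K) * e * hb + 12 * hc
    have h48 : A.valuation (48 * (h78_vc e t • W).a₄) < 1 := by
      rw [map_mul]
      have : A.valuation (48 : K) ≤ 1 := by
        apply (A.valuation_le_one_iff _).mpr
        have : (48 : K) = ((48 : ℕ) : K) := by norm_num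
        rw [this]; exact natCast_mem A 48
      calc A.valuation (48 : K) * A.valuation ((h78_vc e t • W).a₄)
          ≤ 1 * A.valuation ((h78_vc e t • W).a₄) := by gcongr
        _ < 1 := by rw [one_mul]; exact hwv
    have e2 : A.valuation ((d ^ 2) ^ 2) = 1 := by
      have := Valuation.map_add_eq_of_lt_left A.valuation (x := W.c₄)
        (y := 48 * (h78_vc e t • W).a₄) (by rw [hc₄]; exact h48)
      rw [e1, this, hc₄]
    rw [map_pow, map_pow, ← pow_mul] at e2
    exact (pow_eq_one_iff_of_nonneg zero_le (by norm_num)).mp e2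
  have hdA : d ∈ A := (A.valuation_le_one_iff _).mp hdv.le
  refine ⟨t, (-W.a₁ + d) / 2, (-W.a₁ - d) / 2, ?_⟩
  refine ⟨⟨?_, ?_, ?_, hw6⟩, ?_, ?_, ?_, hwv, ?_⟩
  · rw [h78_vc_a₁]; field_simp; ring
  · rw [h78_vc_a₂]
    apply mul_left_cancel₀ (mul_ne_zero h20 h20)
    simp only [WeierstrassCurve.b₂] at hdsq
    field_simp
    linear_combination -hdsq
  · rw [h78_vc_a₃]; exact h3
  · apply (A.valuation_le_one_iff _).mpr
    rw [div_eq_mul_inv]
    exact mul_mem (add_mem (neg_mem ha₁) hdA) h2inv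
  · apply (A.valuation_le_one_iff _).mpr
    rw [div_eq_mul_inv]
    exact mul_mem (sub_mem (neg_mem ha₁) hdA) h2inv
  · have : (-W.a₁ + d) / 2 - (-W.a₁ - d) / 2 = d := by field_simp; ring
    rw [this]; exact hdv
  · rw [hw]
    exact mul_ne_zero (sub_ne_zero.mpr hne') (sub_ne_zero.mpr hne'')

/-- **Existence of a nodal translate** in the case of multiplicative reduction. -/
theorem h78_exists_nodal [IsAlgClosed K] (A : ValuationSubring K) (W : WeierstrassCurve K)
    (ha₁ : W.a₁ ∈ A) (ha₂ : W.a₂ ∈ A) (ha₃ : W.a₃ ∈ A) (ha₄ : W.a₄ ∈ A) (ha₆ : W.a₆ ∈ A)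
    (h2 : A.valuation (2 : K) = 1) (hΔ : W.Δ ≠ 0) (hΔm : A.valuation W.Δ < 1)
    (hc₄ : A.valuation W.c₄ = 1) :
    ∃ e t r₁ r₂ : K, e ∈ A ∧ NodalVal A.valuation (h78_vc e t • W) r₁ r₂ := by
  have h4 : A.valuation (4 : K) = 1 := by
    have : (4 : K) = 2 * 2 := by norm_num
    rw [this, map_mul, h2, one_mul]
  have h16 : A.valuation (16 : K) = 1 := by
    have : (16 : K) = 4 * 4 := by norm_num
    rw [this, map_mul, h4, one_mul]
  have h40 : (4 : K) ≠ 0 := fun h => by rw [h, map_zero] at h4; exact zero_ne_one h4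
  have h2A : (2 : K) ∈ A := (A.valuation_le_one_iff _).mp h2.le
  have h4A : (4 : K) ∈ A := (A.valuation_le_one_iff _).mp h4.le
  have hb₂ : W.b₂ ∈ A := by
    simp only [WeierstrassCurve.b₂]
    exact add_mem (pow_mem ha₁ 2) (mul_mem h4A ha₂)
  have hb₄ : 2 * W.b₄ ∈ A := by
    simp only [WeierstrassCurve.b₄]
    exact mul_mem h2A (add_mem (mul_mem h2A ha₄) (mul_mem ha₁ ha₃))
  have hb₆ : W.b₆ ∈ A := by
    simp only [WeierstrassCurve.b₆]
    exact add_mem (pow_mem ha₃ 2) (mul_mem h4A ha₆)
  set P := W.twoTorsionPolynomial with hP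
  have ha : P.a ≠ 0 := h40
  have hsplit : (P.toPoly.map (RingHom.id K)).Splits := IsAlgClosed.splits _
  obtain ⟨x, y, z, h3⟩ := (Cubic.splits_iff_roots_eq_three ha).mp hsplit
  have hb : W.b₂ = 4 * -(x + y + z) := Cubic.b_eq_three_roots ha h3
  have hc : 2 * W.b₄ = 4 * (x * y + x * z + y * z) := Cubic.c_eq_three_roots ha h3
  have hd : W.b₆ = 4 * -(x * y * z) := Cubic.d_eq_three_roots ha h3
  have hdisc : (16 : K) * W.Δ = (4 * 4 * (x - y) * (x - z) * (y - z)) ^ 2 := by
    rw [← W.twoTorsionPolynomial_discr]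
    exact Cubic.discr_eq_prod_three_roots ha h3
  -- the roots are integral
  have hroot : ∀ r : K, (r - x) * (r - y) * (r - z) = 0 → r ∈ A := by
    intro r hr
    refine h78_root_mem A hb₂ hb₄ hb₆ h4 (r := r) ?_
    rw [hb, hc, hd]
    linear_combination 4 * hr
  have hx : x ∈ A := hroot x (by ring)
  have hy : y ∈ A := hroot y (by ring)
  have hz : z ∈ A := hroot z (by ring)
  -- the roots are distinct
  have hprod : (x - y) * (x - z) * (y - z) ≠ 0 := by
    intro h0
    apply hΔ
    have : (16 : K) * W.Δ = 0 := by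
      rw [hdisc]
      have : 4 * 4 * (x - y) * (x - z) * (y - z) = 4 * 4 * ((x - y) * (x - z) * (y - z)) := by
        ring
      rw [this, h0]; ring
    rcases mul_eq_zero.mp this with h | h
    · exact absurd h (by
        intro h'; rw [h', map_zero] at h16; exact zero_ne_one h16)
    · exact h
  have hxy : x ≠ y := fun h => hprod (by rw [h]; ring)
  have hxz : x ≠ z := fun h => hprod (by rw [h]; ring)
  have hyz : y ≠ z := fun h => hprod (by rw [h]; ring)
  -- two of the roots are congruent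
  have hval : A.valuation (x - y) * A.valuation (x - z) * A.valuation (y - z) < 1 := by
    have e1 := congrArg A.valuation hdisc
    rw [map_mul, h16, one_mul, map_pow, map_mul, map_mul, map_mul, map_mul, h4, one_mul,
      one_mul] at e1
    rw [e1] at hΔm
    by_contra hcon
    push Not at hcon
    have : (1 : A.ValueGroup) ≤ (A.valuation (x - y) * A.valuation (x - z) *
        A.valuation (y - z)) ^ 2 := one_le_pow₀ hcon
    exact absurd hΔm (not_lt.mpr this)
  have hxy' := (A.valuation_le_one_iff _).mpr (sub_mem hx hy)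
  have hxz' := (A.valuation_le_one_iff _).mpr (sub_mem hx hz)
  have hyz' := (A.valuation_le_one_iff _).mpr (sub_mem hy hz)
  have hcases : A.valuation (x - y) < 1 ∨ A.valuation (x - z) < 1 ∨ A.valuation (y - z) < 1 := by
    by_contra hcon
    push Not at hcon
    obtain ⟨h1, h2', h3'⟩ := hcon
    have e1 := le_antisymm hxy' h1
    have e2 := le_antisymm hxz' h2'
    have e3 := le_antisymm hyz' h3'
    rw [e1, e2, e3] at hval
    simp at hval
  rcases hcases with h | h | h
  · obtain ⟨t, r₁, r₂, hV⟩ := h78_nodal_of_roots A W ha₁ h2 hc₄ hx hy hz hb hc hd hxy hxz h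
    exact ⟨x, t, r₁, r₂, hx, hV⟩
  · obtain ⟨t, r₁, r₂, hV⟩ := h78_nodal_of_roots A W ha₁ h2 hc₄ hx hz hy
      (by rw [hb]; ring) (by rw [hc]; ring) (by rw [hd]; ring) hxz hxy h
    exact ⟨x, t, r₁, r₂, hx, hV⟩
  · obtain ⟨t, r₁, r₂, hV⟩ := h78_nodal_of_roots A W ha₁ h2 hc₄ hy hz hx
      (by rw [hb]; ring) (by rw [hc]; ring) (by rw [hd]; ring) hyz hxy.symm h
    exact ⟨y, t, r₁, r₂, hy, hV⟩

end Fermat.Agent.S52
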