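import Mathlib
import Fermat.Agent.S52.RealRootExplicit

/-!
# S52, inertia leaf, part 6 (helper78): the zeros of Klein's `T(z, 1)` lie in `ℚ(ζ₅, i)`

`T(z, 1) = (Z² + 1)(Z² - Y Z - 1)(Z² - Y' Z - 1)` with `Z = z⁵`, `Y = -136 - 250 φ`,
`Y' = -386 + 250 φ`, `φ² = φ + 1`; and `Z₁ = (c - φ)⁵`, `c² = φ + 2`, is a zero of
`Z² - Y Z - 1`.  Consequently every zero of `T(z, 1)` is a `20`-th root of unity or a fifth root
of unity times one of four explicit elements of `ℚ(ζ₅, i)`; in particular it is fixed by every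
field automorphism fixing the roots of unity of order dividing `20`.
-/

set_option autoImplicit false

namespace Fermat.Agent.S52

/-- Factorisation of `T(z, 1)` as a polynomial in `Z = z⁵`. -/
theorem h78_T_factor {K : Type*} [CommRing K] (φ z : K) (hφ : φ ^ 2 = φ + 1) :
    h42rr_T z 1 = ((z ^ 5) ^ 2 + 1) * ((z ^ 5) ^ 2 - (-136 - 250 * φ) * z ^ 5 - 1) *
      ((z ^ 5) ^ 2 - (-386 + 250 * φ) * z ^ 5 - 1) := by
  unfold h42rr_T
  linear_combination (62500 * ((z ^ 5) ^ 2 + 1) * (z ^ 5) ^ 2) * hφ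

/-- The fifth power of `z₁ = c - φ` is a zero of `Z² - Y Z - 1`, `Y = -136 - 250 φ`. -/
theorem h78_z1_quad {K : Type*} [CommRing K] (φ c : K) (hφ : φ ^ 2 = φ + 1)
    (hc : c ^ 2 = φ + 2) :
    ((c - φ) ^ 5) ^ 2 - (-136 - 250 * φ) * (c - φ) ^ 5 - 1 = 0 := by
  have e2 : (c - φ) * (c - φ) = 3 + 2 * φ + (-2 * φ) * c := by
    linear_combination hc + hφ
  have e4 : (3 + 2 * φ + (-2 * φ) * c) * (3 + 2 * φ + (-2 * φ) * c) =
      25 + 32 * φ + (-8 + -20 * φ) * c := by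
    linear_combination (4 * φ ^ 2) * hc + ((16 + 4 * φ) + (-8) * c) * hφ
  have e5 : (25 + 32 * φ + (-8 + -20 * φ) * c) * (c - φ) =
      -68 + -125 * φ + (45 + 60 * φ) * c := by
    linear_combination (-8 + -20 * φ) * hc + (-52 + 20 * c) * hφ
  have e10 : (-68 + -125 * φ + (45 + 60 * φ) * c) * (-68 + -125 * φ + (45 + 60 * φ) * c) =
      40499 + 65250 * φ + (-21120 + -34410 * φ) * c := by
    linear_combination (2025 + 5400 * φ + 3600 * φ ^ 2) * hc +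
      ((31825 + 3600 * φ) + (-15000) * c) * hφ
  have p2 : (c - φ) ^ 2 = 3 + 2 * φ + (-2 * φ) * c := by
    rw [← e2]; ring
  have p4 : (c - φ) ^ 4 = 25 + 32 * φ + (-8 + -20 * φ) * c := by
    rw [← e4, ← p2]; ring
  have p5 : (c - φ) ^ 5 = -68 + -125 * φ + (45 + 60 * φ) * c := by
    rw [← e5, ← p4]; ring
  have p10 : ((c - φ) ^ 5) ^ 2 = 40499 + 65250 * φ + (-21120 + -34410 * φ) * c := by
    rw [← e10, ← p5]; ring
  rw [p10, p5]
  linear_combination (-31250 + 15000 * c) * hφ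

/-- A zero `Z` of `Z² - Y Z - 1` is `Z₁` or `-1 / Z₁`, for any zero `Z₁`. -/
theorem h78_quad_roots {K : Type*} [Field K] (Y Z Z₁ : K) (h₁ : Z₁ ^ 2 - Y * Z₁ - 1 = 0)
    (h : Z ^ 2 - Y * Z - 1 = 0) : Z = Z₁ ∨ Z * Z₁ = -1 := by
  have key : (Z - Z₁) * (Z * Z₁ + 1) = 0 := by
    linear_combination Z₁ * h - Z * h₁
  rcases mul_eq_zero.mp key with h' | h'
  · exact Or.inl (sub_eq_zero.mp h')
  · exact Or.inr (by linear_combination h')

/-- If `z⁵ = w⁵` with `w ≠ 0` then `z` is `w` times a fifth root of unity. -/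
theorem h78_fifth {K : Type*} [Field K] {z w : K} (hw : w ≠ 0) (h : z ^ 5 = w ^ 5) :
    ∃ μ : K, μ ^ 5 = 1 ∧ z = μ * w := by
  refine ⟨z / w, ?_, ?_⟩
  · rw [div_pow, h, div_self (pow_ne_zero 5 hw)]
  · field_simp

/-- **The zeros of `T(z, 1)` are fixed** by every ring endomorphism `τ` of a field `K` fixing
the roots of unity of order dividing `20`; here `ζ` is a primitive fifth root of unity and
`i² = -1`. -/
theorem h78_T_root_fixed {K : Type*} [Field K] (τ : K →+* K) (ζ i : K)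
    (hζ : ζ ^ 4 + ζ ^ 3 + ζ ^ 2 + ζ + 1 = 0) (hi : i ^ 2 = -1)
    (hτ : ∀ μ : K, μ ^ 20 = 1 → τ μ = μ) {z : K} (hz : h42rr_T z 1 = 0) : τ z = z := by
  have hζ5 : ζ ^ 5 = 1 := by linear_combination (ζ - 1) * hζ
  have hτζ : τ ζ = ζ := hτ ζ (by
    have : ζ ^ 20 = (ζ ^ 5) ^ 4 := by ring
    rw [this, hζ5, one_pow])
  have hτi : τ i = i := hτ i (by
    have : i ^ 20 = (i ^ 2) ^ 10 := by ring
    rw [this, hi]; norm_num)
  have hτ5 : ∀ μ : K, μ ^ 5 = 1 → τ μ = μ := fun μ hμ => hτ μ (by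
    have : μ ^ 20 = (μ ^ 5) ^ 4 := by ring
    rw [this, hμ, one_pow])
  -- the first pair `(φ, c)`
  set φ : K := -(ζ ^ 2 + ζ ^ 3) with hφdef
  set c : K := -(i * (ζ - ζ ^ 4)) with hcdef
  have hφ : φ ^ 2 = φ + 1 := h42rr_phi_sq ζ hζ
  have hc : c ^ 2 = φ + 2 := h42rr_c_sq ζ i hζ hi
  -- the conjugate pair `(φ', c')`, attached to `ξ = ζ²`
  obtain ⟨ξ, hξ⟩ : ∃ ξ : K, ξ = ζ ^ 2 := ⟨_, rfl⟩
  have hτξ : τ ξ = ξ := by rw [hξ, map_pow, hτζ]
  have hζ' : ξ ^ 4 + ξ ^ 3 + ξ ^ 2 + ξ + 1 = 0 := by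
    rw [hξ]
    linear_combination (ζ ^ 4 - ζ ^ 3 + ζ ^ 2 - ζ + 1) * hζ
  set φ' : K := -(ξ ^ 2 + ξ ^ 3) with hφ'def
  set c' : K := -(i * (ξ - ξ ^ 4)) with hc'def
  have hφ' : φ' ^ 2 = φ' + 1 := h42rr_phi_sq ξ hζ'
  have hc' : c' ^ 2 = φ' + 2 := h42rr_c_sq ξ i hζ' hi
  have hφφ' : φ' = 1 - φ := by
    rw [hφ'def, hφdef, hξ]
    linear_combination (-1 : K) * hζ - ζ * hζ5
  -- `τ` fixes these elements
  have hτφ : τ φ = φ := by
    rw [hφdef, map_neg, map_add, map_pow, map_pow, hτζ]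
  have hτc : τ c = c := by
    rw [hcdef, map_neg, map_mul, map_sub, map_pow, hτζ, hτi]
  have hτφ' : τ φ' = φ' := by
    rw [hφ'def, map_neg, map_add, map_pow, map_pow, hτξ]
  have hτc' : τ c' = c' := by
    rw [hc'def, map_neg, map_mul, map_sub, map_pow, hτξ, hτi]
  -- generic step
  have step : ∀ (w : K), τ w = w → w ≠ 0 → ∀ Y : K, (w ^ 5) ^ 2 - Y * w ^ 5 - 1 = 0 →
      (z ^ 5) ^ 2 - Y * z ^ 5 - 1 = 0 → τ z = z := by
    intro w hτw hw Y hwY hzY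
    rcases h78_quad_roots Y (z ^ 5) (w ^ 5) hwY hzY with h | h
    · obtain ⟨μ, hμ, rfl⟩ := h78_fifth hw h
      rw [map_mul, hτ5 μ hμ, hτw]
    · have hw' : (-1 / w) ≠ 0 := div_ne_zero (by norm_num) hw
      have h5 : z ^ 5 = (-1 / w) ^ 5 := by
        rw [div_pow]
        have hw5 : w ^ 5 ≠ 0 := pow_ne_zero 5 hw
        field_simp
        linear_combination h
      obtain ⟨μ, hμ, rfl⟩ := h78_fifth hw' h5
      rw [map_mul, hτ5 μ hμ, map_div₀, map_neg, map_one, hτw]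
  have hne : ∀ φ₀ c₀ : K, φ₀ ^ 2 = φ₀ + 1 → c₀ ^ 2 = φ₀ + 2 → c₀ - φ₀ ≠ 0 := by
    intro φ₀ c₀ h1 h2 h0
    have hq := h78_z1_quad φ₀ c₀ h1 h2
    rw [h0] at hq
    norm_num at hq
  have hfac := h78_T_factor φ z hφ
  rw [hz] at hfac
  rcases mul_eq_zero.mp hfac.symm with h | h
  · rcases mul_eq_zero.mp h with h | h
    · -- `z ^ 10 = -1`
      apply hτ
      have : z ^ 20 = ((z ^ 5) ^ 2) ^ 2 := by ring
      rw [this]
      have : (z ^ 5) ^ 2 = -1 := by linear_combination h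
      rw [this]; norm_num
    · exact step (c - φ) (by rw [map_sub, hτc, hτφ]) (hne φ c hφ hc) _
        (h78_z1_quad φ c hφ hc) h
  · refine step (c' - φ') (by rw [map_sub, hτc', hτφ']) (hne φ' c' hφ' hc') _
      (h78_z1_quad φ' c' hφ' hc') ?_
    rw [hφφ']
    linear_combination h

end Fermat.Agent.S52
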