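import Fermat.Agent.S13.L2Inertia
import Fermat.Agent.S05.VarChange

/-!
# S52, inertia leaf, part 1 (helper78): twisted invariance of the component height

Let `N` be a nodal model `(y - r₁x)(y - r₂x) = x³ + a₄x` over a valued field (in the sense of
`H76.NodalVal`), obtained from a curve with `σ`-fixed coefficients by a translation
`(x, y) ↦ (x + e, y + t)` which is *not* assumed to be `σ`-stable.  In the coordinates of `N` the
action of `σ` reads `(X, Y) ↦ (σ X + δ, σ Y + δt)` with `δ = σ e - e`, `δt = σ t - t`.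
We show that this twisted action preserves the component height `H76.ht` as soon as
`δ = 0 ∨ v δ = v a₄` and `2 δt = - a₁ δ`.
-/

set_option autoImplicit false
set_option linter.unusedSectionVars false

namespace Fermat.Agent.S52

open WeierstrassCurve Fermat.Agent.S05 Fermat.Agent.S05.H76

variable {K : Type*} [Field K] [DecidableEq K]

/-- Twisted invariance of the height. -/
theorem h78_twist_ht (A : ValuationSubring K) (N : WeierstrassCurve K) (r₁ r₂ : K)
    (hV : NodalVal A.valuation N r₁ r₂) (h2 : A.valuation (2 : K) = 1)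
    (σ : K →+* K) (hσA : ∀ a ∈ A, σ a - a ∈ A.nonunits)
    (hσv : ∀ z : K, A.valuation (σ z) = A.valuation z)
    (δ δt : K) (hδ : δ = 0 ∨ A.valuation δ = A.valuation N.a₄)
    (hδt : 2 * δt = -(N.a₁ * δ))
    {X Y X' Y' : K} (h : N.toAffine.Nonsingular X Y) (h' : N.toAffine.Nonsingular X' Y')
    (hX : X' = σ X + δ) (hY : Y' = σ Y + δt) :
    ht A.valuation N r₁ (.some X' Y' h') = ht A.valuation N r₁ (.some X Y h) := by
  set v := A.valuation with hv
  have hw : v N.a₄ < 1 := hV.hw
  have hδw : v δ ≤ v N.a₄ := by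
    rcases hδ with rfl | hδ
    · rw [map_zero]; exact zero_le
    · exact hδ.le
  have hδ1 : v δ < 1 := lt_of_le_of_lt hδw hw
  -- the two linear forms
  have hr₁A : r₁ ∈ A := (A.valuation_le_one_iff _).mp hV.hr₁
  have hr₂A : r₂ ∈ A := (A.valuation_le_one_iff _).mp hV.hr₂
  have hσr₁ : v (σ r₁ - r₁) < 1 := A.mem_nonunits_iff.mp (hσA r₁ hr₁A)
  have hσr₂ : v (σ r₂ - r₂) < 1 := A.mem_nonunits_iff.mp (hσA r₂ hr₂A)
  have hd₁ : v (δt - r₁ * δ) = v δ := by
    have e : 2 * (δt - r₁ * δ) = -((r₁ - r₂) * δ) := by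
      rw [mul_sub, hδt, hV.model.a₁]; ring
    have := congrArg v e
    rw [map_mul, h2, one_mul, Valuation.map_neg, map_mul, hV.hr, one_mul] at this
    exact this
  have hd₂ : v (δt - r₂ * δ) = v δ := by
    have e : 2 * (δt - r₂ * δ) = (r₁ - r₂) * δ := by
      rw [mul_sub, hδt, hV.model.a₁]; ring
    have := congrArg v e
    rw [map_mul, h2, one_mul, map_mul, hV.hr, one_mul] at this
    exact this
  -- branch transfer
  have branch : ∀ r : K, v (σ r - r) < 1 → v (δt - r * δ) = v δ → v N.a₄ < v X →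
      v (Y - r * X) < v X → v (Y' - r * X') < v X := by
    intro r hr hd hwX hb
    have e : Y' - r * X' = σ (Y - r * X) + (σ r - r) * σ X + (δt - r * δ) := by
      rw [hX, hY, map_sub, map_mul]; ring
    rw [e]
    have hX0 : v X ≠ 0 := fun h0 => by rw [h0] at hwX; exact not_lt_zero hwX
    refine v.map_add_lt (v.map_add_lt ?_ ?_) ?_
    · rw [hσv]; exact hb
    · rw [map_mul, hσv]
      exact mul_lt_of_lt_one_left (zero_lt_iff.mpr hX0) hr
    · rw [hd]; exact lt_of_le_of_lt hδw hwX
  by_cases h1 : 1 ≤ v X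
  · -- identity component
    have hX' : 1 ≤ v X' := by
      rw [hX, v.map_add_eq_of_lt_left (by rw [hσv]; exact lt_of_lt_of_le hδ1 h1), hσv]
      exact h1
    rw [ht_Z v N r₁ h h1, ht_Z v N r₁ h' hX']
  · push Not at h1
    by_cases hM : v X ≤ v N.a₄
    · -- middle component
      have hX' : v X' ≤ v N.a₄ := by
        rw [hX]
        exact v.map_add_le (by rw [hσv]; exact hM) hδw
      rw [ht_M v N r₁ h hw hM, ht_M v N r₁ h' hw hX']
    · push Not at hM
      have hX' : v X' = v X := by
        rw [hX, v.map_add_eq_of_lt_left (by rw [hσv]; exact lt_of_le_of_lt hδw hM), hσv]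
      have h1' : v X' < 1 := by rw [hX']; exact h1
      have hM' : v N.a₄ < v X' := by rw [hX']; exact hM
      by_cases hb : v (Y - r₁ * X) < v X
      · have hb' : v (Y' - r₁ * X') < v X' := by
          rw [hX']; exact branch r₁ hσr₁ hd₁ hM hb
        rw [ht_plus v N r₁ h h1 hM hb, ht_plus v N r₁ h' h1' hM' hb', hX']
      · have hc := (hV.model.equation_iff X Y).mp h.1
        have hb₂ : v (Y - r₂ * X) < v X := by
          rcases branch_cases v hc h1 hM with h3 | h3
          · exact absurd h3 hb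
          · exact h3
        have hb₂' : v (Y' - r₂ * X') < v X' := by
          rw [hX']; exact branch r₂ hσr₂ hd₂ hM hb₂
        rw [ht_minus v N r₁ r₂ h hV.hr h1 hM hb₂, ht_minus v N r₁ r₂ h' hV.hr h1' hM' hb₂', hX']

end Fermat.Agent.S52
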