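import Fermat.Agent.S52.H78Twist

/-!
# S52, inertia leaf, part 2 (helper78): unipotent inertia through a non-rational nodal model

`W'` is a Weierstrass curve over `R` (think `R = S = ℚ`), with coefficients integral at the
valuation subring `A` of `K`.  We assume that the translate of `W'⁄K` by a point `(e, t)` of `K²`
(not assumed rational) is a nodal model in the sense of `H76.NodalVal`.  Then every element `σ` of
the inertia group of `A` acts unipotently on the torsion of order prime to the residue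
characteristic: `σ • (σ • P - P) = σ • P - P`.
-/

set_option autoImplicit false
set_option linter.unusedSectionVars false

namespace Fermat.Agent.S52

open WeierstrassCurve Fermat.Agent.S05 Fermat.Agent.S05.H76 Fermat.Agent.S13
open scoped WeierstrassCurve.Affine

section Translate

variable {K : Type*} [Field K]

/-- The translation `(x, y) ↦ (x + e, y + t)`. -/
def h78_vc (e t : K) : VariableChange K := ⟨1, e, 0, t⟩

variable (W : WeierstrassCurve K) (e t : K)

lemma h78_vc_a₁ : (h78_vc e t • W).a₁ = W.a₁ := by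
  simp [variableChange_a₁, h78_vc]

lemma h78_vc_a₂ : (h78_vc e t • W).a₂ = W.a₂ + 3 * e := by
  simp [variableChange_a₂, h78_vc]

lemma h78_vc_a₃ : (h78_vc e t • W).a₃ = W.a₃ + e * W.a₁ + 2 * t := by
  simp [variableChange_a₃, h78_vc]

lemma h78_vc_a₄ : (h78_vc e t • W).a₄ = W.a₄ + 2 * e * W.a₂ - t * W.a₁ + 3 * e ^ 2 := by
  simp [variableChange_a₄, h78_vc]

lemma h78_vc_a₆ : (h78_vc e t • W).a₆ =
    W.a₆ + e * W.a₄ + e ^ 2 * W.a₂ + e ^ 3 - t * W.a₃ - t ^ 2 - e * t * W.a₁ := by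
  simp [variableChange_a₆, h78_vc]

lemma h78_vcX (x : K) : vcX (h78_vc e t) x = x + e := by
  simp [vcX, h78_vc]

lemma h78_vcY (x y : K) : vcY (h78_vc e t) x y = y + t := by
  simp [vcY, h78_vc]

variable [DecidableEq K]

/-- The translation is surjective on points. -/
lemma h78_vcPoint_surjective : Function.Surjective (vcPoint W (h78_vc e t)) := by
  rintro (_ | ⟨x, y, h⟩)
  · exact ⟨0, rfl⟩
  · have h' : (h78_vc e t • W).toAffine.Nonsingular (x - e) (y - t) := by
      rw [vc_nonsingular_iff, h78_vcX, h78_vcY]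
      simpa using h
    refine ⟨.some (x - e) (y - t) h', ?_⟩
    rw [vcPoint_some]
    simp only [h78_vcX, h78_vcY, sub_add_cancel]

end Translate

variable {R : Type*} {S : Type*} {K : Type*} [CommRing R] [Field S] [Field K]
  [DecidableEq K] [Algebra R S] [Algebra R K] [Algebra S K] [IsScalarTower R S K]

/-- The relation between `δ = σ e - e` and the coefficient `a₄` of the translated model. -/
theorem h78_delta (W' : Affine R) (A : ValuationSubring K) {e t r₁ r₂ : K}
    (hV : NodalVal A.valuation (h78_vc e t • (W'⁄K)) r₁ r₂) (h2 : A.valuation (2 : K) = 1)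
    (he : e ∈ A) {σ : K ≃ₐ[S] K} (hσ : σ ∈ A.inertiaSubgroupIn S) :
    (σ e - e = 0 ∨ A.valuation (σ e - e) = A.valuation (h78_vc e t • (W'⁄K)).a₄) ∧
      2 * (σ t - t) = -((h78_vc e t • (W'⁄K)).a₁ * (σ e - e)) := by
  set Wk : WeierstrassCurve K := W'⁄K with hWk
  have s₁ : σ Wk.a₁ = Wk.a₁ := L2.algEquiv_algebraMap σ W'.a₁
  have s₂ : σ Wk.a₂ = Wk.a₂ := L2.algEquiv_algebraMap σ W'.a₂
  have s₃ : σ Wk.a₃ = Wk.a₃ := L2.algEquiv_algebraMap σ W'.a₃
  have s₄ : σ Wk.a₄ = Wk.a₄ := L2.algEquiv_algebraMap σ W'.a₄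
  have s₆ : σ Wk.a₆ = Wk.a₆ := L2.algEquiv_algebraMap σ W'.a₆
  have h3 : Wk.a₃ + e * Wk.a₁ + 2 * t = 0 := by
    rw [← h78_vc_a₃]; exact hV.model.a₃
  have h6 : Wk.a₆ + e * Wk.a₄ + e ^ 2 * Wk.a₂ + e ^ 3 - t * Wk.a₃ - t ^ 2 - e * t * Wk.a₁ = 0 := by
    rw [← h78_vc_a₆]; exact hV.model.a₆
  have h3' : Wk.a₃ + σ e * Wk.a₁ + 2 * σ t = 0 := by
    have := congrArg σ h3
    simpa [s₁, s₃, map_ofNat] using this
  have h6' : Wk.a₆ + σ e * Wk.a₄ + σ e ^ 2 * Wk.a₂ + σ e ^ 3 - σ t * Wk.a₃ - σ t ^ 2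
      - σ e * σ t * Wk.a₁ = 0 := by
    have := congrArg σ h6
    simpa [s₁, s₂, s₃, s₄, s₆, map_ofNat] using this
  have hδt : 2 * (σ t - t) = -((h78_vc e t • Wk).a₁ * (σ e - e)) := by
    rw [h78_vc_a₁]
    linear_combination h3' - h3
  refine ⟨?_, hδt⟩
  set δ := σ e - e with hδ
  set w := (h78_vc e t • Wk).a₄ with hw
  have hwe : w = Wk.a₄ + 2 * e * Wk.a₂ - t * Wk.a₁ + 3 * e ^ 2 := h78_vc_a₄ Wk e t
  have hB : Wk.a₁ ^ 2 + 4 * Wk.a₂ + 12 * e = (r₁ - r₂) ^ 2 := by
    have e₁ := hV.model.a₁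
    have e₂ := hV.model.a₂
    rw [h78_vc_a₁] at e₁
    rw [h78_vc_a₂] at e₂
    rw [e₁]
    linear_combination 4 * e₂
  have key : δ * (4 * w + (r₁ - r₂) ^ 2 * δ + 4 * δ ^ 2) = 0 := by
    rw [← hB, hwe, hδ]
    linear_combination 4 * h6' + (Wk.a₃ + σ e * Wk.a₁ + 2 * σ t) * h3' - 4 * h6
      - (Wk.a₃ + e * Wk.a₁ + 2 * t) * h3 - 2 * Wk.a₁ * (σ e - e) * h3
  rcases mul_eq_zero.mp key with h0 | h0
  · exact Or.inl h0
  · right
    have hδm : A.valuation δ < 1 := A.mem_nonunits_iff.mp (H86.inertia_apply_mem A hσ he).2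
    have h4 : A.valuation (4 : K) = 1 := by
      have : (4 : K) = 2 * 2 := by norm_num
      rw [this, map_mul, h2, one_mul]
    have e1 : 4 * w = -(δ * ((r₁ - r₂) ^ 2 + 4 * δ)) := by linear_combination h0
    have e2 : A.valuation ((r₁ - r₂) ^ 2 + 4 * δ) = 1 := by
      rw [Valuation.map_add_eq_of_lt_left]
      · rw [map_pow, hV.hr, one_pow]
      · rw [map_pow, hV.hr, one_pow, map_mul, h4, one_mul]
        exact hδm
    have := congrArg A.valuation e1
    rw [map_mul, h4, one_mul, Valuation.map_neg, map_mul, e2, mul_one] at this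
    exact this.symm

/-- **Unipotent inertia** for a curve with integral coefficients one of whose translates (over `K`)
is a nodal model. -/
theorem h78_inertia_unipotent (W' : Affine R) (A : ValuationSubring K)
    (ha₁ : (W'⁄K).a₁ ∈ A) (ha₂ : (W'⁄K).a₂ ∈ A) (ha₃ : (W'⁄K).a₃ ∈ A) (ha₄ : (W'⁄K).a₄ ∈ A)
    (ha₆ : (W'⁄K).a₆ ∈ A) {e t r₁ r₂ : K}
    (hV : NodalVal A.valuation (h78_vc e t • (W'⁄K)) r₁ r₂) (h2 : A.valuation (2 : K) = 1)
    (he : e ∈ A) {σ : K ≃ₐ[S] K} (hσ : σ ∈ A.inertiaSubgroupIn S)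
    (hσv : ∀ z : K, A.valuation (σ z) = A.valuation z)
    {n : ℕ} (hn : (n : K) ∉ A.nonunits) (P : (W'⁄K).Point) (hP : n • P = 0) :
    σ • (σ • P - P) = σ • P - P := by
  set N : WeierstrassCurve K := h78_vc e t • (W'⁄K) with hN
  set φ := vcPoint (W'⁄K) (h78_vc e t) with hφ
  obtain ⟨hδ, hδt⟩ := h78_delta W' A hV h2 he hσ
  have hσA : ∀ a ∈ A, (σ : K →+* K) a - a ∈ A.nonunits :=
    fun a ha => (H86.inertia_apply_mem A hσ ha).2
  -- preimages
  obtain ⟨Pe, hPe⟩ := h78_vcPoint_surjective (W'⁄K) e t P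
  obtain ⟨Pe', hPe'⟩ := h78_vcPoint_surjective (W'⁄K) e t (σ • P)
  -- the heights agree
  have hht : ht A.valuation N r₁ Pe' = ht A.valuation N r₁ Pe := by
    rcases Pe with _ | ⟨X, Y, h⟩
    · -- `P = 0`
      have hP0 : P = 0 := by rw [← hPe]; rfl
      have : φ Pe' = 0 := by rw [hPe', hP0]; exact smul_zero σ
      have hPe'0 : Pe' = 0 := vcPoint_injective (W'⁄K) (h78_vc e t) (this.trans (map_zero φ).symm)
      rw [hPe'0]; rfl
    · rcases Pe' with _ | ⟨X', Y', h'⟩
      · exfalso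
        have h0 : σ • P = 0 := by rw [← hPe']; rfl
        have hP0 : P = 0 := by
          have := congrArg (fun Q => σ⁻¹ • Q) h0
          simpa using this
        rw [← hPe] at hP0
        exact Affine.Point.some_ne_zero _ hP0
      · have e1 : φ (.some X Y h) = .some (X + e) (Y + t)
            ((vc_nonsingular_iff (W'⁄K) (h78_vc e t) X Y).mp h |> fun hh => by
              simpa [h78_vcX, h78_vcY] using hh) := by
          rw [hφ, vcPoint_some]
          simp only [h78_vcX, h78_vcY]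
        have e1' : φ (.some X' Y' h') = .some (X' + e) (Y' + t)
            ((vc_nonsingular_iff (W'⁄K) (h78_vc e t) X' Y').mp h' |> fun hh => by
              simpa [h78_vcX, h78_vcY] using hh) := by
          rw [hφ, vcPoint_some]
          simp only [h78_vcX, h78_vcY]
        rw [e1] at hPe
        rw [e1'] at hPe'
        obtain ⟨hns, hs⟩ := L2.smul_some W' σ
          (x := X + e) (y := Y + t) ((vc_nonsingular_iff (W'⁄K) (h78_vc e t) X Y).mp h |> fun hh => by
              simpa [h78_vcX, h78_vcY] using hh)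
        rw [← hPe, hs] at hPe'
        simp only [Affine.Point.some.injEq] at hPe'
        obtain ⟨hx, hy⟩ := hPe'
        refine h78_twist_ht A N r₁ r₂ hV h2 (σ : K →+* K) hσA hσv (σ e - e) (σ t - t) hδ hδt
          h h' ?_ ?_
        · have : X' = σ (X + e) - e := by rw [← hx]; ring
          rw [this, map_add]
          simp only [RingHom.coe_coe]
          ring
        · have : Y' = σ (Y + t) - t := by rw [← hy]; ring
          rw [this, map_add]
          simp only [RingHom.coe_coe]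
          ring
  -- the difference lies in the identity component of the nodal model
  have hZ : L2.TypeZ A.valuation N (Pe' - Pe) := L2.typeZ_sub_of_ht_eq hV hht
  have hφQ : φ (Pe' - Pe) = σ • P - P := by rw [map_sub, hPe, hPe']
  have hnQ : n • (σ • P - P) = 0 := by
    rw [smul_sub, hP, ← smul_comm, hP, smul_zero, sub_zero]
  have hII := kernelTorsionFree A (W := (W'⁄K)) ha₁ ha₂ ha₃ ha₄ ha₆ hn
  rw [← hφQ] at hnQ ⊢
  rcases hZ with h0 | ⟨X, Y, h, hQ, hX⟩
  · rw [h0, map_zero]; exact smul_zero σ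
  · rw [hQ] at hnQ ⊢
    have hns : (W'⁄K).toAffine.Nonsingular (X + e) (Y + t) := by
      have := (vc_nonsingular_iff (W'⁄K) (h78_vc e t) X Y).mp h
      simpa [h78_vcX, h78_vcY] using this
    have e1 : φ (.some X Y h) = .some (X + e) (Y + t) hns := by
      rw [hφ, vcPoint_some]
      simp only [h78_vcX, h78_vcY]
    rw [e1] at hnQ ⊢
    rcases eq_or_lt_of_le hX with hx1 | hx1
    · -- unit `X`
      have hXA : X ∈ A := (A.valuation_le_one_iff _).mp (le_of_eq hx1.symm)
      have hxA : X + e ∈ A := A.add_mem _ _ hXA he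
      have hnod := L2.nodal_unit_nonsingular hV h.1 hx1.symm
      have hns' : (W'⁄K).a₁ * (Y + t) - (3 * (X + e) ^ 2 + 2 * (W'⁄K).a₂ * (X + e) + (W'⁄K).a₄) ∉ A.nonunits ∨
          2 * (Y + t) + (W'⁄K).a₁ * (X + e) + (W'⁄K).a₃ ∉ A.nonunits := by
        by_contra hcon
        push Not at hcon
        apply hnod
        constructor
        · have : N.a₁ * Y - (3 * X ^ 2 + 2 * N.a₂ * X + N.a₄) =
              (W'⁄K).a₁ * (Y + t) - (3 * (X + e) ^ 2 + 2 * (W'⁄K).a₂ * (X + e) + (W'⁄K).a₄) := by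
            rw [hN, h78_vc_a₁, h78_vc_a₂, h78_vc_a₄]; ring
          rw [this]
          exact A.mem_nonunits_iff.mp hcon.1
        · have : 2 * Y + N.a₁ * X + N.a₃ = 2 * (Y + t) + (W'⁄K).a₁ * (X + e) + (W'⁄K).a₃ := by
            rw [hN, h78_vc_a₁, h78_vc_a₃]; ring
          rw [this]
          exact A.mem_nonunits_iff.mp hcon.2
      exact H86.inertia_smul_eq_of_nonsingular_reduction W' A ha₁ ha₂ ha₃ ha₄ ha₆ n hII hσ hns
        hxA hns' hnQ
    · -- `X ∉ A`: kernel of reduction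
      exfalso
      have hXA : X ∉ A := fun hx' =>
        absurd ((A.valuation_le_one_iff _).mpr hx') (not_le.mpr hx1)
      have hxA : X + e ∉ A := fun hx' => hXA (by
        have := sub_mem hx' he
        simpa using this)
      have := hII _ (Or.inr ⟨X + e, Y + t, hns, rfl, hxA⟩) hnQ
      exact Affine.Point.some_ne_zero hns this

end Fermat.Agent.S52
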