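import Fermat.Agent.S52.IrrFrob

/-!
# S52, block (I), variant `r ≡ 5 mod 12`: irreducibility modulo `3` from one auxiliary prime

Author: helper20.

Let `W` be a Weierstrass curve over a finite field `F` in which `3` is **not a square** (so the
characteristic is `≠ 2, 3`), with `Δ ≠ 0` and `c₆ = 0` (`j = 1728`).  Then `W(F)` has no point of
order `3` (`h20s52_no_point_of_order_three`): such a point has `ψ₃(x) = 0`, and the identity

  `((12 x + b₂)² - 3 c₄)² - 12 c₄² = 6912 ψ₃(x) + 8 c₆ (12 x + b₂)`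

would make `3 = (((12 x + b₂)² - 3 c₄) / (2 c₄))²` a square.  By Cauchy's theorem `3 ∤ #W(F)`.

Consequently, for an integral Weierstrass curve `W` and a prime `r ≡ 5 mod 12` of good reduction
with `r ∣ c₆(W)`: `3 ∤ a_r(W)` (`h20s52_not_dvd_apOfModel`), the polynomial `X² - a_r X + r` has
no root in `𝔽₃`, and the mod-`3` representation of `W` is irreducible
(`h20s52_modRepIsIrreducible_three`, using P-EFROB through `h50s52_modRepIsIrreducible_of_frob`).

Compared with the variant `r ≡ 7 mod 12` (`a_r = 0`), the Frobenius at `r` must fix `i` and move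
`√3`; such an element exists in an inertia group at `3`, so no real root of `c₆(t)` and no
complex conjugation are needed for the existence of `r`.
-/

set_option autoImplicit false
set_option maxHeartbeats 400000

namespace Fermat.Agent.S52

open WeierstrassCurve WeierstrassCurve.Affine

section Field

variable {F : Type} [Field F]

/-- The third division polynomial, evaluated at `x`. -/
def h20s52_psi3 (W : WeierstrassCurve F) (x : F) : F :=
  3 * x ^ 4 + W.b₂ * x ^ 3 + 3 * W.b₄ * x ^ 2 + 3 * W.b₆ * x + W.b₈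

/-- The key identity relating `ψ₃`, `c₄` and `c₆`. -/
lemma h20s52_key (W : WeierstrassCurve F) (x : F) :
    ((12 * x + W.b₂) ^ 2 - 3 * W.c₄) ^ 2 - 12 * W.c₄ ^ 2 =
      6912 * h20s52_psi3 W x + 8 * W.c₆ * (12 * x + W.b₂) := by
  simp only [h20s52_psi3, b₂, b₄, b₆, b₈, c₄, c₆]
  ring

/-- If the duplication formula gives `x(2P) = x(P)`, then `ψ₃(x(P)) = 0`. -/
lemma h20s52_dup (W : WeierstrassCurve F) (x y : F) (hE : W.toAffine.Equation x y)
    (hd : y - W.toAffine.negY x y ≠ 0)
    (h : W.toAffine.addX x x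
      ((3 * x ^ 2 + 2 * W.a₂ * x + W.a₄ - W.a₁ * y) / (y - W.toAffine.negY x y)) = x) :
    h20s52_psi3 W x = 0 := by
  rw [Affine.equation_iff] at hE
  simp only [Affine.addX, Affine.negY] at h hd
  set d : F := y - (-y - W.a₁ * x - W.a₃) with hd_def
  set n : F := 3 * x ^ 2 + 2 * W.a₂ * x + W.a₄ - W.a₁ * y with hn_def
  have key : n ^ 2 + W.a₁ * n * d - (W.a₂ + 3 * x) * d ^ 2 =
      d ^ 2 * ((n / d) ^ 2 + W.a₁ * (n / d) - W.a₂ - x - x - x) := by
    field_simp
    ring
  have h0 : (n / d) ^ 2 + W.a₁ * (n / d) - W.a₂ - x - x - x = 0 := by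
    linear_combination h
  rw [h0, mul_zero] at key
  simp only [h20s52_psi3, b₂, b₄, b₆, b₈]
  rw [hd_def, hn_def] at key
  linear_combination (-1 : F) * key + (-(W.a₁ ^ 2 + 4 * W.a₂ + 12 * x)) * hE

variable [DecidableEq F]

/-- A point of order `3` has `ψ₃(x) = 0`. -/
lemma h20s52_psi3_eq_zero (W : WeierstrassCurve F) {x y : F} (h : W.toAffine.Nonsingular x y)
    (h3 : (3 : ℕ) • (Point.some x y h : W.toAffine.Point) = 0) : h20s52_psi3 W x = 0 := by
  have hadd : (Point.some x y h : W.toAffine.Point) + Point.some x y h = -Point.some x y h := by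
    have e : (3 : ℕ) • (Point.some x y h : W.toAffine.Point) =
        (Point.some x y h + Point.some x y h) + Point.some x y h := by
      rw [show (3 : ℕ) = 2 + 1 from rfl, succ_nsmul, two_nsmul]
    rw [e] at h3
    exact eq_neg_of_add_eq_zero_left h3
  by_cases hy : y = W.toAffine.negY x y
  · exfalso
    rw [Point.add_self_of_Y_eq hy] at hadd
    have h0 : (Point.some x y h : W.toAffine.Point) = 0 := by
      have := congrArg Neg.neg hadd
      rw [neg_neg, neg_zero] at this
      exact this.symm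
    exact Point.some_ne_zero h h0
  · rw [Point.add_self_of_Y_ne hy, Point.neg_some] at hadd
    have hX := (Point.some.inj hadd).1
    rw [Affine.slope_of_Y_ne rfl hy] at hX
    exact h20s52_dup W x y h.1 (sub_ne_zero.mpr hy) hX

/-- If `3` is not a square in `F`, a curve with `c₆ = 0` and `Δ ≠ 0` has no point of order `3`. -/
theorem h20s52_no_point_of_order_three (W : WeierstrassCurve F) (hΔ : W.Δ ≠ 0) (hc₆ : W.c₆ = 0)
    (hns : ¬ IsSquare (3 : F)) (P : W.toAffine.Point) (h3 : (3 : ℕ) • P = 0) : P = 0 := by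
  have h2F : (2 : F) ≠ 0 := by
    intro h
    apply hns
    refine ⟨1, ?_⟩
    linear_combination h
  have h3F : (3 : F) ≠ 0 := by
    intro h
    apply hns
    exact ⟨0, by rw [h]; ring⟩
  have hc₄ : W.c₄ ≠ 0 := by
    intro h
    apply hΔ
    have hrel := W.c_relation
    rw [h, hc₆] at hrel
    have h1728 : (1728 : F) ≠ 0 := by
      have e : (1728 : F) = 2 ^ 6 * 3 ^ 3 := by norm_num
      rw [e]
      exact mul_ne_zero (pow_ne_zero _ h2F) (pow_ne_zero _ h3F)
    have : (1728 : F) * W.Δ = 0 := by rw [hrel]; ring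
    exact (mul_eq_zero.mp this).resolve_left h1728
  rcases P with _ | ⟨x, y, h⟩
  · rfl
  · exfalso
    have hψ := h20s52_psi3_eq_zero W h h3
    have hkey := h20s52_key W x
    rw [hψ, hc₆] at hkey
    apply hns
    refine ⟨((12 * x + W.b₂) ^ 2 - 3 * W.c₄) / (2 * W.c₄), ?_⟩
    field_simp
    linear_combination -hkey

/-- `3 ∤ #W(F)` under the same hypotheses. -/
theorem h20s52_not_three_dvd_card [Finite F] (W : WeierstrassCurve F) (hΔ : W.Δ ≠ 0)
    (hc₆ : W.c₆ = 0) (hns : ¬ IsSquare (3 : F)) : ¬ 3 ∣ Nat.card W.toAffine.Point := by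
  intro hdvd
  have : Fact (Nat.Prime 3) := ⟨Nat.prime_three⟩
  obtain ⟨P, hP⟩ := exists_prime_addOrderOf_dvd_card' (G := W.toAffine.Point) 3 hdvd
  have h3 : (3 : ℕ) • P = 0 := by
    rw [← hP]
    exact addOrderOf_nsmul_eq_zero P
  have hP0 := h20s52_no_point_of_order_three W hΔ hc₆ hns P h3
  rw [hP0, addOrderOf_zero] at hP
  norm_num at hP

end Field

lemma h20s52_not_isSquare_two_zmod_three : ¬ IsSquare (2 : ZMod 3) := by decide

lemma h20s52_quad_ne_zero : ∀ a c : ZMod 3, a ≠ 0 → c ^ 2 - a * c + 2 ≠ 0 := by decide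

/-- `3` is not a square modulo a prime `r ≡ 5 mod 12`. -/
lemma h20s52_not_isSquare_three {r : ℕ} [Fact r.Prime] (hr12 : r % 12 = 5) :
    ¬ IsSquare (3 : ZMod r) := by
  have : Fact (Nat.Prime 3) := ⟨Nat.prime_three⟩
  have h4 : r % 4 = 1 := by omega
  have h3 : r % 3 = 2 := by omega
  have hQR := ZMod.exists_sq_eq_prime_iff_of_mod_four_eq_one (p := r) (q := 3) h4 (by norm_num)
  have e3 : ((3 : ℕ) : ZMod r) = (3 : ZMod r) := by norm_cast
  rw [e3] at hQR
  rw [hQR]
  have e : ((r : ℕ) : ZMod 3) = 2 := by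
    have : ((r : ℕ) : ZMod 3) = ((r % 3 : ℕ) : ZMod 3) := by rw [ZMod.natCast_mod]
    rw [this, h3]
    rfl
  rw [e]
  exact h20s52_not_isSquare_two_zmod_three

/-- **`3 ∤ a_r`**: for an integral Weierstrass curve `W` and a prime `r ≡ 5 mod 12` of good
reduction with `r ∣ c₆(W)`. -/
theorem h20s52_not_dvd_apOfModel (W : WeierstrassCurve ℤ) {r : ℕ} (hr : r.Prime)
    (hr12 : r % 12 = 5) (hgood : W.IsGoodPrimeFor r) (hc₆ : (r : ℤ) ∣ W.c₆) :
    ¬ (3 : ℤ) ∣ W.apOfModel r := by
  have : Fact r.Prime := ⟨hr⟩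
  have hΔ : (W.reductionMod r).Δ ≠ 0 := by
    unfold WeierstrassCurve.reductionMod
    rw [WeierstrassCurve.map_Δ]
    intro h
    apply hgood
    have h' : ((W.Δ : ℤ) : ZMod r) = 0 := by simpa using h
    exact (ZMod.intCast_zmod_eq_zero_iff_dvd _ _).1 h'
  have hc : (W.reductionMod r).c₆ = 0 := by
    unfold WeierstrassCurve.reductionMod
    rw [WeierstrassCurve.map_c₆]
    have h' : ((W.c₆ : ℤ) : ZMod r) = 0 := (ZMod.intCast_zmod_eq_zero_iff_dvd _ _).2 hc₆
    simpa using h'
  have hcard := h20s52_not_three_dvd_card (W.reductionMod r) hΔ hc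
    (h20s52_not_isSquare_three hr12)
  intro hdvd
  apply hcard
  unfold WeierstrassCurve.apOfModel WeierstrassCurve.traceOfFrobenius WeierstrassCurve.card at hdvd
  rw [Nat.card_zmod] at hdvd
  -- `3 ∣ r + 1 - N` and `3 ∣ r + 1`
  have h3 : (3 : ℤ) ∣ ((r : ℤ) + 1) := by
    have : (r : ℤ) % 12 = 5 := by exact_mod_cast hr12
    omega
  have h4 : (3 : ℤ) ∣ (Nat.card (W.reductionMod r).toAffine.Point : ℤ) := by
    have := dvd_sub h3 hdvd
    simpa using this
  exact_mod_cast h4

/-- **Irreducibility modulo `3` from one auxiliary prime `r ≡ 5 mod 12`** with `r ∣ c₆(W)` and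
good reduction at `r`. -/
theorem h20s52_modRepIsIrreducible_three (W : WeierstrassCurve ℤ) {r : ℕ} (hr : r.Prime)
    (hr12 : r % 12 = 5) (hgood : W.IsGoodPrimeFor r) (hc₆ : (r : ℤ) ∣ W.c₆) :
    W.ModRepIsIrreducible 3 := by
  have hne : r ≠ 3 := by rintro rfl; norm_num at hr12
  refine h50s52_modRepIsIrreducible_of_frob W Nat.prime_three hr hne hgood (fun c => ?_)
  have ha : ((W.apOfModel r : ℤ) : ZMod 3) ≠ 0 := by
    intro h
    exact h20s52_not_dvd_apOfModel W hr hr12 hgood hc₆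
      ((ZMod.intCast_zmod_eq_zero_iff_dvd _ 3).mp h)
  have h2 : ((r : ℕ) : ZMod 3) = 2 := by
    have h3 : r % 3 = 2 := by omega
    have : ((r : ℕ) : ZMod 3) = ((r % 3 : ℕ) : ZMod 3) := by rw [ZMod.natCast_mod]
    rw [this, h3]
    rfl
  rw [h2]
  exact h20s52_quad_ne_zero _ c ha

end Fermat.Agent.S52
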