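import Fermat.Agent.EFrob.Main
import Fermat.Agent.S54.Frobenius
import Fermat.Agent.Tors.Qbar
import Fermat.Prelude.Def_FLTPrelim_ModularRep

/-!
# S52 (C3, abstract half): irreducibility of `E[p]` from one auxiliary prime

If `r ≠ p` is a prime of good reduction of the integral Weierstrass curve `W` such that the
characteristic polynomial `X² - a_r X + r` of Frobenius has no root in `ZMod p`, then the
Galois module `E[p](Qbar)` is irreducible (`W.ModRepIsIrreducible p`).

Proof: a Galois-stable line would be stable under a Frobenius element `σ` at `r`; its generator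
`v` is an eigenvector, `σ v = c v`, and the Eichler–Shimura relation
`σ² v - a_r σ v + r v = 0` (`Fermat.Agent.EFrob.finalRelU`) gives `c² - a_r c + r = 0`.
-/

set_option autoImplicit false

namespace Fermat.Agent.S52

open WeierstrassCurve WeierstrassCurve.Affine

local notation "Qbar" => AlgebraicClosure ℚ

/-- Good reduction at some prime forces a nonzero discriminant over `ℚ`. -/
lemma h50s52_Δ_ne_zero (W : WeierstrassCurve ℤ) {r : ℕ} (hgood : W.IsGoodPrimeFor r) :
    (W.map (Int.castRingHom ℚ)).Δ ≠ 0 := by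
  have h0 : W.Δ ≠ 0 := by
    intro h
    apply hgood
    rw [h]
    exact dvd_zero _
  rw [WeierstrassCurve.map_Δ]
  simpa using h0

/-- **Irreducibility from one auxiliary prime.**  If `X² - a_r X + r` has no root in `ZMod p`
for a good prime `r ≠ p`, then `E[p]` is an irreducible Galois module. -/
theorem h50s52_modRepIsIrreducible_of_frob (W : WeierstrassCurve ℤ) {p r : ℕ} (hp : p.Prime)
    (hr : r.Prime) (hne : r ≠ p) (hgood : W.IsGoodPrimeFor r)
    (hroot : ∀ c : ZMod p, c ^ 2 - ((W.apOfModel r : ℤ) : ZMod p) * c + (r : ZMod p) ≠ 0) :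
    W.ModRepIsIrreducible p := by
  have : Fact p.Prime := ⟨hp⟩
  have hΔ := h50s52_Δ_ne_zero W hgood
  have hnt := Fermat.Agent.Tors.nontrivial_torsionBy_qbar (W.map (Int.castRingHom ℚ)) hΔ p
    hp.two_le
  have hfin := Fermat.Agent.Tors.finite_torsionBy_qbar (W.map (Int.castRingHom ℚ)) hΔ p
    hp.ne_zero
  have hrank := Fermat.Agent.Tors.finrank_torsionBy_qbar (W.map (Int.castRingHom ℚ)) hΔ p
  refine ⟨hnt, fun N hN => ?_⟩
  by_contra hcon
  rw [not_or] at hcon
  obtain ⟨hbot, htop⟩ := hcon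
  -- a Frobenius element
  obtain ⟨A, σ, hA, hσ⟩ := Fermat.Agent.S54.exists_isFrobeniusAt r hr
  -- a nonzero vector of `N`
  obtain ⟨v, hvN, hv0⟩ := (Submodule.ne_bot_iff N).mp hbot
  -- `N` is a line
  have hlt : Module.finrank (ZMod p) N < 2 := by
    rw [← hrank]
    exact Submodule.finrank_lt htop
  have hpos : 0 < Module.finrank (ZMod p) N := by
    rw [Module.finrank_pos_iff_exists_ne_zero]
    exact ⟨⟨v, hvN⟩, fun h => hv0 (congrArg Subtype.val h)⟩
  have hone : Module.finrank (ZMod p) N = 1 := by omega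
  have hv0' : (⟨v, hvN⟩ : N) ≠ 0 := fun h => hv0 (congrArg Subtype.val h)
  have hspan := (finrank_eq_one_iff_of_nonzero' (⟨v, hvN⟩ : N) hv0').mp hone
  -- `σ v = c v`
  obtain ⟨c, hc⟩ := hspan ⟨σ • v, hN σ v hvN⟩
  have hc' : σ • v = c • v := (congrArg Subtype.val hc).symm
  obtain ⟨c', rfl⟩ := ZMod.intCast_surjective c
  -- pass to the group of points
  have hvp : (p : ℤ) • (v : ((W.map (Int.castRingHom ℚ))⁄Qbar).Point) = 0 :=
    (Submodule.mem_torsionBy_iff _ _).mp v.2
  have hv0'' : (v : ((W.map (Int.castRingHom ℚ))⁄Qbar).Point) ≠ 0 :=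
    fun h => hv0 (Subtype.ext h)
  have hσv : σ • (v : ((W.map (Int.castRingHom ℚ))⁄Qbar).Point) = c' • (v : _) := by
    have h := congrArg Subtype.val hc'
    rw [Int.cast_smul_eq_zsmul] at h
    exact h
  have hrel := Fermat.Agent.EFrob.finalRelU W r p hr hp hne hgood A hA σ hσ
    (v : ((W.map (Int.castRingHom ℚ))⁄Qbar).Point) hvp
  rw [hσv, Point.algEquiv_smul_zsmul, hσv] at hrel
  have hdvd : (p : ℤ) ∣ c' ^ 2 - W.apOfModel r * c' + r := by
    apply Fermat.Agent.EFrob.L_dvd_of_smul_eq_zero p hp _ hv0'' hvp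
    rw [← hrel]
    module
  have hz := (ZMod.intCast_zmod_eq_zero_iff_dvd _ p).mpr hdvd
  push_cast at hz
  exact hroot _ hz

/-- The case `p = 3`: a good prime `r ≡ 1 (mod 3)` with `3 ∣ a_r` forces `E[3]` irreducible. -/
theorem h50s52_modRepIsIrreducible_three (W : WeierstrassCurve ℤ) {r : ℕ}
    (hr : r.Prime) (hr3 : r % 3 = 1) (hgood : W.IsGoodPrimeFor r)
    (ha : (3 : ℤ) ∣ W.apOfModel r) : W.ModRepIsIrreducible 3 := by
  have hne : r ≠ 3 := by
    rintro rfl
    norm_num at hr3
  refine h50s52_modRepIsIrreducible_of_frob W Nat.prime_three hr hne hgood (fun c => ?_)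
  have h1 : ((W.apOfModel r : ℤ) : ZMod 3) = 0 :=
    (ZMod.intCast_zmod_eq_zero_iff_dvd _ 3).mpr ha
  have h2 : ((r : ℕ) : ZMod 3) = 1 := by
    have : ((r : ℕ) : ZMod 3) = ((r % 3 : ℕ) : ZMod 3) := by
      rw [ZMod.natCast_mod]
    rw [this, hr3]
    simp
  rw [h1, h2, zero_mul, sub_zero]
  revert c
  decide

end Fermat.Agent.S52
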