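import Fermat.Agent.S52.ApZero
import Fermat.Agent.EFrob.Main
import Fermat.Agent.S54.Frobenius
import Fermat.Agent.Tors.Qbar
import Fermat.Prelude.Def_FLTPrelim_ModularRep

/-!
# S52, block (I): irreducibility modulo `3` from one auxiliary prime

If `W` is an integral Weierstrass curve with `Δ ≠ 0` and `r ≡ 7 mod 12` is a prime of good
reduction with `r ∣ c₆(W)`, then `a_r(W) = 0` (`ApZero.lean`), so a Frobenius element `σ` at `r`
satisfies `σ² = -r = -1` on `W[3](ℚ̄)` (P-EFROB).  Since `X² + 1` has no root in `𝔽₃`, no line of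
`W[3]` is stable under `σ`: the mod-`3` representation is irreducible.
-/

set_option autoImplicit false

namespace Fermat.Agent.S52

open WeierstrassCurve WeierstrassCurve.Affine

local notation "Qbar" => AlgebraicClosure ℚ

/-- Linear algebra over `𝔽₃`: an endomorphism `φ` with `φ² = -1` of a `2`-dimensional space has
no nontrivial stable subspace. -/
lemma h72_eq_top_of_sq_eq_neg {V : Type*} [AddCommGroup V] [Module (ZMod 3) V]
    [Module.Finite (ZMod 3) V] (hfin : Module.finrank (ZMod 3) V = 2)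
    (φ : V →ₗ[ZMod 3] V) (hφ : ∀ v, φ (φ v) = -v) (N : Submodule (ZMod 3) V)
    (hN : ∀ v ∈ N, φ v ∈ N) (hne : N ≠ ⊥) : N = ⊤ := by
  obtain ⟨v, hvN, hv0⟩ := (Submodule.ne_bot_iff N).1 hne
  have hli : LinearIndependent (ZMod 3) ![v, φ v] := by
    rw [LinearIndependent.pair_iff]
    intro s t hst
    have ht : t = 0 := by
      by_contra ht
      -- `φ v = c • v` with `c = -s / t`
      have hc : φ v = (-(s / t)) • v := by
        have h1 : t • φ v = -(s • v) := by
          rw [eq_neg_iff_add_eq_zero, add_comm]; exact hst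
        calc φ v = t⁻¹ • (t • φ v) := by rw [smul_smul, inv_mul_cancel₀ ht, one_smul]
          _ = (-(s / t)) • v := by
            rw [h1, smul_neg, smul_smul, neg_smul, div_eq_inv_mul]
      have h2 : φ (φ v) = ((-(s / t)) * (-(s / t))) • v := by
        rw [hc, map_smul, hc, smul_smul]
      rw [hφ] at h2
      have h3 : ((-(s / t)) * (-(s / t)) + 1) • v = 0 := by
        rw [add_smul, one_smul, ← h2, neg_add_cancel]
      rcases smul_eq_zero.1 h3 with h4 | h4
      · have : ∀ c : ZMod 3, c * c + 1 ≠ 0 := by decide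
        exact this _ h4
      · exact hv0 h4
    subst ht
    rw [zero_smul, add_zero] at hst
    rcases smul_eq_zero.1 hst with h | h
    · exact ⟨h, rfl⟩
    · exact absurd h hv0
  have hspan : Submodule.span (ZMod 3) (Set.range ![v, φ v]) ≤ N := by
    rw [Submodule.span_le]
    rintro _ ⟨i, rfl⟩
    fin_cases i
    · exact hvN
    · exact hN v hvN
  have hcard : Module.finrank (ZMod 3) (Submodule.span (ZMod 3) (Set.range ![v, φ v])) = 2 := by
    rw [finrank_span_eq_card hli]; rfl
  have h1 : 2 ≤ Module.finrank (ZMod 3) N := by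
    rw [← hcard]; exact Submodule.finrank_mono hspan
  have h2 : Module.finrank (ZMod 3) N ≤ 2 := by
    rw [← hfin]; exact Submodule.finrank_le N
  apply Submodule.eq_top_of_finrank_eq
  rw [hfin]; omega

/-- **Irreducibility modulo `3` from one auxiliary prime** `r ≡ 7 mod 12` of good reduction with
`r ∣ c₆(W)`. -/
theorem h72_modRepIsIrreducible_three (W : WeierstrassCurve ℤ) (hΔ : W.Δ ≠ 0) (r : ℕ)
    (hr : r.Prime) (hr12 : r % 12 = 7) (hgood : W.IsGoodPrimeFor r) (hc₆ : (r : ℤ) ∣ W.c₆) :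
    W.ModRepIsIrreducible 3 := by
  have : Fact (Nat.Prime 3) := ⟨Nat.prime_three⟩
  have hr3 : r ≠ 3 := by rintro rfl; omega
  have hr4 : r % 4 = 3 := by omega
  have hap : W.apOfModel r = 0 := h72_apOfModel_eq_zero W r hr hr4 hr3 hgood hc₆
  obtain ⟨A, σ, hA, hσ⟩ := Fermat.Agent.S54.exists_isFrobeniusAt r hr
  have hΔq : (W.map (Int.castRingHom ℚ)).Δ ≠ 0 := by
    rw [WeierstrassCurve.map_Δ]
    simpa using hΔ
  have hrel : ∀ Q : ((W.map (Int.castRingHom ℚ))⁄Qbar).Point, ((3 : ℕ) : ℤ) • Q = 0 →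
      σ • σ • Q = -Q := by
    intro Q hQ
    have h := Fermat.Agent.EFrob.finalRelU W r 3 hr Nat.prime_three hr3 hgood A hA σ hσ Q hQ
    rw [hap, zero_zsmul, sub_zero] at h
    have hrQ : (r : ℤ) • Q = Q := by
      have hr' : (r : ℤ) = ((r / 3 : ℕ) : ℤ) * ((3 : ℕ) : ℤ) + 1 := by
        have : r = (r / 3) * 3 + 1 := by omega
        exact_mod_cast this
      calc (r : ℤ) • Q = ((r / 3 : ℕ) : ℤ) • (((3 : ℕ) : ℤ) • Q) + Q := by
            rw [hr', add_zsmul, one_zsmul, mul_zsmul]
        _ = Q := by rw [hQ, zsmul_zero, zero_add]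
    rw [hrQ] at h
    exact eq_neg_of_add_eq_zero_left h
  refine ⟨Fermat.Agent.Tors.nontrivial_torsionBy_qbar _ hΔq 3 (by norm_num), ?_⟩
  intro N hN
  by_cases hne : N = ⊥
  · exact Or.inl hne
  right
  have := Fermat.Agent.Tors.finite_torsionBy_qbar (W.map (Int.castRingHom ℚ)) hΔq 3 (by norm_num)
  have : Module.Finite (ZMod 3)
      (Submodule.torsionBy ℤ ((W.map (Int.castRingHom ℚ))⁄Qbar).Point ((3 : ℕ) : ℤ)) :=
    Module.Finite.of_finite
  refine h72_eq_top_of_sq_eq_neg
    (Fermat.Agent.Tors.finrank_torsionBy_qbar (W.map (Int.castRingHom ℚ)) hΔq 3)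
    (Point.galoisRepModuleEnd (K := Qbar) ℚ (W.map (Int.castRingHom ℚ)).toAffine 3 σ)
    ?_ N ?_ hne
  · intro x
    apply Subtype.ext
    have hx : ((3 : ℕ) : ℤ) • (x : ((W.map (Int.castRingHom ℚ))⁄Qbar).Point) = 0 :=
      (Submodule.mem_torsionBy_iff _ _).1 x.property
    exact hrel _ hx
  · intro x hx
    exact hN σ x hx

end Fermat.Agent.S52
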