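import Fermat.Agent.S52.Skeleton
import Fermat.Agent.S52.RealRoot

/-!
# S52: frozen interfaces of the icosahedral family (`IfaceFam`)

Architect: helper86.  Every `def ... : Prop` is a frozen interface; nothing is assumed.

Notation: `f, H, T, f_u, f_v` are Klein's forms `h42rr_f, h42rr_H, h42rr_T, h42rr_fu, h42rr_fv`
(`RealRoot.lean`), `T² + H³ = 1728 f⁵`.  The universal curve at `w = (u, v)` is
`y² = x³ + 27 H(w) x + 54 T(w)`; for rational `A, B` the curve `h86_short A B` is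
`y² = x³ - 27 A x - 54 B` (so `c₄ = 6⁴ A`, `c₆ = 6⁶ B`), and a *base point* of `(A, B)` is
`w₀ = (u₀, v₀) ∈ ℚ̄²` with `H(w₀) = -A`, `T(w₀) = -B`.  The covariant line through `w₀` is
`w_s = w₀ + s (f_v(w₀), -f_u(w₀))`.

DAG:
  FORMULAS, DET → `IfaceCoreDesc`, `IfaceCoreSep`, `IfaceCoreIso`
  `IfaceShort`, `IfaceCoreDesc`, `IfaceCoreSep`, `IfaceCoreIso`, `IfaceInertia3`,
  `IfaceCoprime`, `IfaceSSNZ`, `h42rr_main`, `h19g_exists_aux_prime'` → (FAM-ASM) → `IfaceFam`.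
-/

set_option autoImplicit false

namespace Fermat.Agent.S52

open WeierstrassCurve WeierstrassCurve.Affine

/-- The short Weierstrass curve `y² = x³ - 27 A x - 54 B`. -/
def h86_short (A B : ℚ) : WeierstrassCurve ℚ := ⟨0, 0, 0, -27 * A, -54 * B⟩

/-- The `p`-torsion of a curve over `ℚ`, over `ℚ̄`. -/
abbrev h86_TorsQ (E : WeierstrassCurve ℚ) (p : ℕ) : Type :=
  Submodule.torsionBy ℤ (E⁄(AlgebraicClosure ℚ)).Point p

/-- Isomorphic mod-`p` representations, for curves over `ℚ`. -/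
def SameModRepQ (p : ℕ) (E E' : WeierstrassCurve ℚ) : Prop :=
  ∃ e : h86_TorsQ E p ≃+ h86_TorsQ E' p,
    ∀ (σ : AlgebraicClosure ℚ ≃ₐ[ℚ] AlgebraicClosure ℚ) (x : h86_TorsQ E p),
      e (σ • x) = σ • e x

/-- A *Klein symmetry*: a linear substitution `(u, v) ↦ (a u + b v, c u + d v)` which preserves
the forms `f, H, T` and under which `(f_v, -f_u)` is covariant. -/
def IsKleinSym {K : Type*} [CommRing K] (a b c d : K) : Prop :=
  ∀ u v : K,
    h42rr_f (a * u + b * v) (c * u + d * v) = h42rr_f u v ∧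
    h42rr_H (a * u + b * v) (c * u + d * v) = h42rr_H u v ∧
    h42rr_T (a * u + b * v) (c * u + d * v) = h42rr_T u v ∧
    h42rr_fv (a * u + b * v) (c * u + d * v) = a * h42rr_fv u v + b * -h42rr_fu u v ∧
    -h42rr_fu (a * u + b * v) (c * u + d * v) = c * h42rr_fv u v + d * -h42rr_fu u v

/-- **(SHORT)** The `p`-torsion of `W` and of its short model `y² = x³ - 27 c₄ x - 54 c₆` are
Galois-equivariantly isomorphic (variable change `X = 36 x + 3 b₂`,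
`Y = 108 (2 y + a₁ x + a₃)`, defined over `ℚ`; `S05/VarChange.lean`). -/
def IfaceShort : Prop :=
  ∀ (W : WeierstrassCurve ℤ) (p : ℕ),
    ∃ e : h86_Tors W p ≃+ h86_TorsQ (h86_short W.c₄ W.c₆) p,
      ∀ (σ : AlgebraicClosure ℚ ≃ₐ[ℚ] AlgebraicClosure ℚ) (x : h86_Tors W p),
        e (σ • x) = σ • e x

/-- **(SSNZ)** A semistable integral model with `Δ ≠ 0` has `c₄ ≠ 0` and `c₆ ≠ 0`.
(`c₄ = 0` or `c₆ = 0` forces `Δ = ±1`; then `c₆² = ∓1728` resp. `c₄ = ±12`, and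
`b₂² ≡ 12 mod 24` is impossible as `b₂ = a₁² + 4 a₂`.) -/
def IfaceSSNZ : Prop :=
  ∀ W : WeierstrassCurve ℤ, W.Δ ≠ 0 → W.IsSemistableModel → W.c₄ ≠ 0 ∧ W.c₆ ≠ 0

/-- **(CORE-DESC)** Galois descent of the base point: every `σ ∈ G_ℚ` moves a base point by a
Klein symmetry and a `10`-th root of unity. -/
def IfaceCoreDesc : Prop :=
  ∀ A B : ℚ, A ^ 3 ≠ B ^ 2 → ∀ u₀ v₀ : AlgebraicClosure ℚ,
    h42rr_H u₀ v₀ = -(A : AlgebraicClosure ℚ) → h42rr_T u₀ v₀ = -(B : AlgebraicClosure ℚ) →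
    ∀ σ : AlgebraicClosure ℚ ≃ₐ[ℚ] AlgebraicClosure ℚ,
      ∃ a b c d lam : AlgebraicClosure ℚ, IsKleinSym a b c d ∧ lam ^ 10 = 1 ∧
        σ u₀ = lam * (a * u₀ + b * v₀) ∧ σ v₀ = lam * (c * u₀ + d * v₀)

/-- **(CORE-SEP)** Separation: a `σ ∈ G_ℚ` which fixes the `5`-torsion of `h86_short A B`
pointwise and fixes the `5`-th roots of unity moves a base point by a `10`-th root of unity. -/
def IfaceCoreSep : Prop :=
  ∀ A B : ℚ, A ^ 3 ≠ B ^ 2 → ∀ u₀ v₀ : AlgebraicClosure ℚ,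
    h42rr_H u₀ v₀ = -(A : AlgebraicClosure ℚ) → h42rr_T u₀ v₀ = -(B : AlgebraicClosure ℚ) →
    ∀ σ : AlgebraicClosure ℚ ≃ₐ[ℚ] AlgebraicClosure ℚ,
      (∀ x : h86_TorsQ (h86_short A B) 5, σ • x = x) →
      (∀ z : AlgebraicClosure ℚ, z ^ 5 = 1 → σ z = z) →
      ∃ lam : AlgebraicClosure ℚ, lam ^ 10 = 1 ∧ σ u₀ = lam * u₀ ∧ σ v₀ = lam * v₀

/-- **(CORE-ISO)** Two rational points of the covariant line through a base point carry
isomorphic mod-5 representations. -/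
def IfaceCoreIso : Prop :=
  ∀ A B : ℚ, A ^ 3 ≠ B ^ 2 → ∀ u₀ v₀ : AlgebraicClosure ℚ,
    h42rr_H u₀ v₀ = -(A : AlgebraicClosure ℚ) → h42rr_T u₀ v₀ = -(B : AlgebraicClosure ℚ) →
    ∀ (s A' B' : ℚ), A' ^ 3 ≠ B' ^ 2 →
      h42rr_H (u₀ + s * h42rr_fv u₀ v₀) (v₀ + s * -h42rr_fu u₀ v₀)
        = -(A' : AlgebraicClosure ℚ) →
      h42rr_T (u₀ + s * h42rr_fv u₀ v₀) (v₀ + s * -h42rr_fu u₀ v₀)
        = -(B' : AlgebraicClosure ℚ) →
      SameModRepQ 5 (h86_short A B) (h86_short A' B')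

/-- **(INERTIA3)** For a semistable `W` there is `τ ∈ G_ℚ` (the fifth power of an inertia
element at `3` which moves `√-3`) acting trivially on `W[5]`, on the fifth roots of unity, on
`√-1` and on the roots of `T(z, 1)`, and negating a square root of `-3`. -/
def IfaceInertia3 : Prop :=
  ∀ W : WeierstrassCurve ℤ, W.Δ ≠ 0 → W.IsSemistableModel →
    ∃ τ : AlgebraicClosure ℚ ≃ₐ[ℚ] AlgebraicClosure ℚ,
      (∀ x : h86_Tors W 5, τ • x = x) ∧
      (∀ z : AlgebraicClosure ℚ, z ^ 5 = 1 → τ z = z) ∧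
      (∀ i : AlgebraicClosure ℚ, i ^ 2 = -1 → τ i = i) ∧
      (∀ z : AlgebraicClosure ℚ, h42rr_T z 1 = 0 → τ z = z) ∧
      ∃ s : AlgebraicClosure ℚ, s ^ 2 = -3 ∧ τ s = -s

/-- **(COPRIME)** On the integral points of the covariant line through a base point of the
integers `(A, B)`, the values of `H` and `T` have no common prime factor outside
`30 (A³ - B²)`. -/
def IfaceCoprime : Prop :=
  ∀ (A B : ℤ) (u₀ v₀ : AlgebraicClosure ℚ),
    h42rr_H u₀ v₀ = -(A : AlgebraicClosure ℚ) → h42rr_T u₀ v₀ = -(B : AlgebraicClosure ℚ) →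
    ∀ p : ℕ, p.Prime → ¬ (p : ℤ) ∣ 30 * (A ^ 3 - B ^ 2) →
    ∀ m a b : ℤ,
      h42rr_H (u₀ + m * h42rr_fv u₀ v₀) (v₀ + m * -h42rr_fu u₀ v₀)
        = (a : AlgebraicClosure ℚ) →
      h42rr_T (u₀ + m * h42rr_fv u₀ v₀) (v₀ + m * -h42rr_fu u₀ v₀)
        = (b : AlgebraicClosure ℚ) →
      ¬ ((p : ℤ) ∣ a ∧ (p : ℤ) ∣ b)

/-- **(RAT)** Rationality of the family: the restrictions of `H` and `T` to the covariant line
through a base point are polynomials with rational coefficients. -/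
def IfaceRat : Prop :=
  ∀ A B : ℚ, A ^ 3 ≠ B ^ 2 → ∀ u₀ v₀ : AlgebraicClosure ℚ,
    h42rr_H u₀ v₀ = -(A : AlgebraicClosure ℚ) → h42rr_T u₀ v₀ = -(B : AlgebraicClosure ℚ) →
    ∃ PH PT : Polynomial ℚ, ∀ s : AlgebraicClosure ℚ,
      h42rr_H (u₀ + s * h42rr_fv u₀ v₀) (v₀ + s * -h42rr_fu u₀ v₀)
        = Polynomial.aeval s PH ∧
      h42rr_T (u₀ + s * h42rr_fv u₀ v₀) (v₀ + s * -h42rr_fu u₀ v₀)
        = Polynomial.aeval s PT

/-- **(RAT-OF)** `IfaceCoreDesc → IfaceRat` (the coefficients are fixed by `G_ℚ`). -/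
def IfaceRatOf : Prop := IfaceCoreDesc → IfaceRat

/-- **(FAM-ASM)** Assembly of the family. -/
def IfaceFamAsm : Prop :=
  IfaceShort → IfaceSSNZ → IfaceRat → IfaceCoreSep → IfaceCoreIso → IfaceInertia3 →
    IfaceCoprime → IfaceFam

end Fermat.Agent.S52
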