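import Fermat.Agent.S52.Skeleton2

/-!
# S52, leaf RAT-OF: `IfaceCoreDesc → IfaceRat`

The restrictions of Klein's forms `H`, `T` to the covariant line through a base point are
polynomials in the parameter whose coefficients are fixed by `G_ℚ` (a Galois element moves the
base point by a Klein symmetry and a `10`-th root of unity, and `(f_v, -f_u)` is covariant), hence
rational.
-/

set_option autoImplicit false

namespace Fermat.Agent.S52

open Polynomial

/-- A polynomial over `ℚ̄` which is fixed by every Galois element has rational coefficients. -/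
theorem h12ro_exists_rat_of_fixed (p : Polynomial (AlgebraicClosure ℚ))
    (h : ∀ σ : AlgebraicClosure ℚ ≃ₐ[ℚ] AlgebraicClosure ℚ,
      p.map (σ : AlgebraicClosure ℚ →+* AlgebraicClosure ℚ) = p) :
    ∃ P : Polynomial ℚ, P.map (algebraMap ℚ (AlgebraicClosure ℚ)) = p := by
  have h1 : Algebra.IsAlgebraic ℚ (AlgebraicClosure ℚ) := AlgebraicClosure.isAlgebraic ℚ
  have h2 : IsAlgClosure ℚ (AlgebraicClosure ℚ) := ⟨inferInstance, h1⟩
  have : IsGalois ℚ (AlgebraicClosure ℚ) := IsAlgClosure.isGalois ℚ (AlgebraicClosure ℚ)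
  have hc : ∀ n, p.coeff n ∈ Set.range (algebraMap ℚ (AlgebraicClosure ℚ)) := by
    intro n
    refine (InfiniteGalois.mem_range_algebraMap_iff_fixed (k := ℚ) (p.coeff n)).mpr ?_
    intro σ
    have := congrArg (fun q : Polynomial (AlgebraicClosure ℚ) => q.coeff n) (h σ)
    simpa [Polynomial.coeff_map] using this
  have hl : p ∈ Polynomial.lifts (algebraMap ℚ (AlgebraicClosure ℚ)) := by
    rw [Polynomial.lifts_iff_coeff_lifts]
    intro n
    exact hc n
  obtain ⟨P, hP⟩ := (Polynomial.mem_lifts p).1 hl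
  exact ⟨P, hP⟩

/-- The restriction of a form to the covariant line, as a polynomial over `ℚ̄`. -/
noncomputable def h12ro_lineU (u₀ v₀ : AlgebraicClosure ℚ) : Polynomial (AlgebraicClosure ℚ) :=
  C u₀ + X * C (h42rr_fv u₀ v₀)

/-- Second coordinate of the covariant line. -/
noncomputable def h12ro_lineV (u₀ v₀ : AlgebraicClosure ℚ) : Polynomial (AlgebraicClosure ℚ) :=
  C v₀ + X * C (-h42rr_fu u₀ v₀)

theorem h12ro_eval_lineU (u₀ v₀ s : AlgebraicClosure ℚ) :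
    (h12ro_lineU u₀ v₀).eval s = u₀ + s * h42rr_fv u₀ v₀ := by
  simp [h12ro_lineU]
  ring

theorem h12ro_eval_lineV (u₀ v₀ s : AlgebraicClosure ℚ) :
    (h12ro_lineV u₀ v₀).eval s = v₀ + s * -h42rr_fu u₀ v₀ := by
  simp [h12ro_lineV]
  ring

/-- Galois elements move the covariant line by the Klein symmetry and the root of unity. -/
theorem h12ro_line_galois (hD : IfaceCoreDesc) (A B : ℚ) (hAB : A ^ 3 ≠ B ^ 2)
    (u₀ v₀ : AlgebraicClosure ℚ)
    (hH : h42rr_H u₀ v₀ = -(A : AlgebraicClosure ℚ))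
    (hT : h42rr_T u₀ v₀ = -(B : AlgebraicClosure ℚ))
    (σ : AlgebraicClosure ℚ ≃ₐ[ℚ] AlgebraicClosure ℚ) (t : AlgebraicClosure ℚ) :
    ∃ a b c d lam : AlgebraicClosure ℚ, IsKleinSym a b c d ∧ lam ^ 10 = 1 ∧
      σ u₀ + t * σ (h42rr_fv u₀ v₀)
        = lam * (a * (u₀ + t * h42rr_fv u₀ v₀) + b * (v₀ + t * -h42rr_fu u₀ v₀)) ∧
      σ v₀ + t * σ (-h42rr_fu u₀ v₀)
        = lam * (c * (u₀ + t * h42rr_fv u₀ v₀) + d * (v₀ + t * -h42rr_fu u₀ v₀)) := by
  obtain ⟨a, b, c, d, lam, hK, hlam, hu, hv⟩ := hD A B hAB u₀ v₀ hH hT σ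
  refine ⟨a, b, c, d, lam, hK, hlam, ?_, ?_⟩
  · have h11 : lam ^ 11 = lam := by
      rw [pow_succ, hlam, one_mul]
    have h1 : σ (h42rr_fv u₀ v₀)
        = lam * (a * h42rr_fv u₀ v₀ + b * -h42rr_fu u₀ v₀) := by
      rw [h42rr_fv_map σ u₀ v₀, hu, hv, h42rr_fv_smul, (hK u₀ v₀).2.2.2.1, h11]
    rw [h1, hu]
    ring
  · have h11 : lam ^ 11 = lam := by
      rw [pow_succ, hlam, one_mul]
    have h1 : σ (-h42rr_fu u₀ v₀)
        = lam * (c * h42rr_fv u₀ v₀ + d * -h42rr_fu u₀ v₀) := by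
      rw [map_neg, h42rr_fu_map σ u₀ v₀, hu, hv, h42rr_fu_smul, ← (hK u₀ v₀).2.2.2.2, h11]
      ring
    rw [h1, hv]
    ring

/-- **(RAT-OF)** -/
theorem ratOf : IfaceRatOf := by
  intro hD A B hAB u₀ v₀ hH hT
  -- the two polynomials over `ℚ̄`
  set pH : Polynomial (AlgebraicClosure ℚ) :=
    h42rr_H (h12ro_lineU u₀ v₀) (h12ro_lineV u₀ v₀) with hpH
  set pT : Polynomial (AlgebraicClosure ℚ) :=
    h42rr_T (h12ro_lineU u₀ v₀) (h12ro_lineV u₀ v₀) with hpT
  have evH : ∀ s : AlgebraicClosure ℚ,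
      pH.eval s = h42rr_H (u₀ + s * h42rr_fv u₀ v₀) (v₀ + s * -h42rr_fu u₀ v₀) := by
    intro s
    have := h42rr_H_map (Polynomial.evalRingHom s) (h12ro_lineU u₀ v₀) (h12ro_lineV u₀ v₀)
    simpa [Polynomial.coe_evalRingHom, h12ro_eval_lineU, h12ro_eval_lineV] using this
  have evT : ∀ s : AlgebraicClosure ℚ,
      pT.eval s = h42rr_T (u₀ + s * h42rr_fv u₀ v₀) (v₀ + s * -h42rr_fu u₀ v₀) := by
    intro s
    have := h42rr_T_map (Polynomial.evalRingHom s) (h12ro_lineU u₀ v₀) (h12ro_lineV u₀ v₀)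
    simpa [Polynomial.coe_evalRingHom, h12ro_eval_lineU, h12ro_eval_lineV] using this
  -- evaluation of the Galois conjugates
  have mapU : ∀ (σ : AlgebraicClosure ℚ ≃ₐ[ℚ] AlgebraicClosure ℚ) (t : AlgebraicClosure ℚ),
      ((h12ro_lineU u₀ v₀).map (σ : AlgebraicClosure ℚ →+* AlgebraicClosure ℚ)).eval t
        = σ u₀ + t * σ (h42rr_fv u₀ v₀) := by
    intro σ t
    simp [h12ro_lineU]
    ring
  have mapV : ∀ (σ : AlgebraicClosure ℚ ≃ₐ[ℚ] AlgebraicClosure ℚ) (t : AlgebraicClosure ℚ),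
      ((h12ro_lineV u₀ v₀).map (σ : AlgebraicClosure ℚ →+* AlgebraicClosure ℚ)).eval t
        = σ v₀ + t * σ (-h42rr_fu u₀ v₀) := by
    intro σ t
    simp [h12ro_lineV]
    ring
  have fixH : ∀ σ : AlgebraicClosure ℚ ≃ₐ[ℚ] AlgebraicClosure ℚ,
      pH.map (σ : AlgebraicClosure ℚ →+* AlgebraicClosure ℚ) = pH := by
    intro σ
    refine Polynomial.funext fun t => ?_
    have h1 : pH.map (σ : AlgebraicClosure ℚ →+* AlgebraicClosure ℚ)
        = h42rr_H ((h12ro_lineU u₀ v₀).map (σ : AlgebraicClosure ℚ →+* AlgebraicClosure ℚ))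
            ((h12ro_lineV u₀ v₀).map (σ : AlgebraicClosure ℚ →+* AlgebraicClosure ℚ)) := by
      have := h42rr_H_map (Polynomial.mapRingHom (σ : AlgebraicClosure ℚ →+* AlgebraicClosure ℚ))
        (h12ro_lineU u₀ v₀) (h12ro_lineV u₀ v₀)
      simpa [Polynomial.coe_mapRingHom] using this
    have h2 := h42rr_H_map (Polynomial.evalRingHom t)
      ((h12ro_lineU u₀ v₀).map (σ : AlgebraicClosure ℚ →+* AlgebraicClosure ℚ))
      ((h12ro_lineV u₀ v₀).map (σ : AlgebraicClosure ℚ →+* AlgebraicClosure ℚ))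
    rw [Polynomial.coe_evalRingHom] at h2
    rw [h1, h2, mapU, mapV, evH]
    obtain ⟨a, b, c, d, lam, hK, hlam, e1, e2⟩ := h12ro_line_galois hD A B hAB u₀ v₀ hH hT σ t
    rw [e1, e2, h42rr_H_smul, (hK _ _).2.1]
    have : lam ^ 20 = 1 := by
      have : lam ^ 20 = (lam ^ 10) ^ 2 := by ring
      rw [this, hlam, one_pow]
    rw [this, one_mul]
  have fixT : ∀ σ : AlgebraicClosure ℚ ≃ₐ[ℚ] AlgebraicClosure ℚ,
      pT.map (σ : AlgebraicClosure ℚ →+* AlgebraicClosure ℚ) = pT := by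
    intro σ
    refine Polynomial.funext fun t => ?_
    have h1 : pT.map (σ : AlgebraicClosure ℚ →+* AlgebraicClosure ℚ)
        = h42rr_T ((h12ro_lineU u₀ v₀).map (σ : AlgebraicClosure ℚ →+* AlgebraicClosure ℚ))
            ((h12ro_lineV u₀ v₀).map (σ : AlgebraicClosure ℚ →+* AlgebraicClosure ℚ)) := by
      have := h42rr_T_map (Polynomial.mapRingHom (σ : AlgebraicClosure ℚ →+* AlgebraicClosure ℚ))
        (h12ro_lineU u₀ v₀) (h12ro_lineV u₀ v₀)
      simpa [Polynomial.coe_mapRingHom] using this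
    have h2 := h42rr_T_map (Polynomial.evalRingHom t)
      ((h12ro_lineU u₀ v₀).map (σ : AlgebraicClosure ℚ →+* AlgebraicClosure ℚ))
      ((h12ro_lineV u₀ v₀).map (σ : AlgebraicClosure ℚ →+* AlgebraicClosure ℚ))
    rw [Polynomial.coe_evalRingHom] at h2
    rw [h1, h2, mapU, mapV, evT]
    obtain ⟨a, b, c, d, lam, hK, hlam, e1, e2⟩ := h12ro_line_galois hD A B hAB u₀ v₀ hH hT σ t
    rw [e1, e2, h42rr_T_smul, (hK _ _).2.2.1]
    have : lam ^ 30 = 1 := by
      have : lam ^ 30 = (lam ^ 10) ^ 3 := by ring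
      rw [this, hlam, one_pow]
    rw [this, one_mul]
  obtain ⟨PH, hPH⟩ := h12ro_exists_rat_of_fixed pH fixH
  obtain ⟨PT, hPT⟩ := h12ro_exists_rat_of_fixed pT fixT
  refine ⟨PH, PT, fun s => ⟨?_, ?_⟩⟩
  · rw [← evH s, ← hPH, Polynomial.eval_map, Polynomial.aeval_def]
  · rw [← evT s, ← hPT, Polynomial.eval_map, Polynomial.aeval_def]

end Fermat.Agent.S52
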