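import Mathlib
import Fermat.Prelude.Def_FLTPrelim_FreyPackage
import Fermat.Prelude.Def_FLTPrelim_GaloisRep
import Fermat.Prelude.Def_FLTPrelim_Modularity
import Fermat.Prelude.Def_FLTPrelim_ModularRep
import Fermat.Prelude.Def_FLTPrelim_Ramification
import Fermat.Prelude.Def_FLTPrelim_CofixedLine

/-!
# S52 (the 3-5 switch): frozen top-level interfaces and the assembly

Architect: helper86.  Every `def ... : Prop` below is a frozen interface; nothing is assumed.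

Route (no moduli theory, no Hilbert irreducibility): Klein's icosahedral forms give a universal
curve with explicit 5-torsion over `X(5)`; the covariant line through a base point of `W` is a
one-parameter family of curves with the same mod-5 representation (`IfaceFam`); a member of the
family which is congruent to `W` modulo a large integer and has `r ∣ c₆` at an auxiliary prime
`r ≡ 7 mod 12` is semistable with irreducible mod-3 representation.

DAG:  `IfaceFam` → (MODEL) → `IfaceSwitch`;  `IfaceSwitch`, `IfaceCongr`, `IfaceIrr3` → S52.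
-/

set_option autoImplicit false

namespace Fermat.Agent.S52

open WeierstrassCurve WeierstrassCurve.Affine

/-- The `p`-torsion of `W` over `ℚ̄`, as used by the Prelude (`ModRepIsIrreducible`,
`galoisTrace`). -/
abbrev h86_Tors (W : WeierstrassCurve ℤ) (p : ℕ) : Type :=
  Submodule.torsionBy ℤ ((W.map (Int.castRingHom ℚ))⁄(AlgebraicClosure ℚ)).Point p

/-- `W` and `W'` have isomorphic mod-`p` Galois representations: there is a Galois-equivariant
additive bijection between their `p`-torsion groups over `ℚ̄`. -/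
def SameModRep (p : ℕ) (W W' : WeierstrassCurve ℤ) : Prop :=
  ∃ e : h86_Tors W p ≃+ h86_Tors W' p,
    ∀ (σ : AlgebraicClosure ℚ ≃ₐ[ℚ] AlgebraicClosure ℚ) (x : h86_Tors W p),
      e (σ • x) = σ • e x

/-- **(CONGR)** Curves with isomorphic mod-`p` representations have congruent `a_ℓ` at all common
good primes `ℓ ≠ p`.  (P-EFROB `finalU` + existence of Frobenius elements.) -/
def IfaceCongr : Prop :=
  ∀ (p : ℕ), p.Prime → ∀ W W' : WeierstrassCurve ℤ, SameModRep p W W' →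
    ∀ ℓ : ℕ, ℓ.Prime → W.IsGoodPrimeFor ℓ → W'.IsGoodPrimeFor ℓ → ℓ ≠ p →
      (p : ℤ) ∣ (W'.apOfModel ℓ - W.apOfModel ℓ)

/-- **(IRR3)** An auxiliary prime `r ≡ 7 mod 12` of good reduction with `r ∣ c₆` forces the
mod-3 representation to be irreducible (`a_r = 0`, Frobenius has characteristic polynomial
`X² + r ≡ X² + 1` on `W[3]`). -/
def IfaceIrr3 : Prop :=
  ∀ (W : WeierstrassCurve ℤ) (r : ℕ), r.Prime → r % 12 = 7 → W.IsGoodPrimeFor r →
    (r : ℤ) ∣ W.c₆ → W.ModRepIsIrreducible 3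

/-- **(SWITCH)** The curve `W'`. -/
def IfaceSwitch : Prop :=
  ∀ W : WeierstrassCurve ℤ, W.Δ ≠ 0 → W.IsSemistableModel →
    ∃ W' : WeierstrassCurve ℤ, W'.Δ ≠ 0 ∧ W'.IsSemistableModel ∧
      (∃ r : ℕ, r.Prime ∧ r % 12 = 7 ∧ W'.IsGoodPrimeFor r ∧ (r : ℤ) ∣ W'.c₆) ∧
      SameModRep 5 W W'

/-- **(FAM)** The icosahedral family through `W`: integer polynomials `C₄`, `C₆` with
`(C₄(0), C₆(0)) = (c₄(W), c₆(W))` such that
* every integral curve with invariants `(C₄(s), C₆(s))`, `s ∈ ℤ`, and nonzero discriminant has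
  the same mod-5 representation as `W`;
* away from a fixed integer `N`, the values `C₄(s)` and `C₆(s)` are coprime;
* for every finite set `S` of primes there is a prime `r ∉ S`, `r ≡ 7 mod 12`, modulo which
  `C₆` has a root. -/
def IfaceFam : Prop :=
  ∀ W : WeierstrassCurve ℤ, W.Δ ≠ 0 → W.IsSemistableModel →
    ∃ C₄ C₆ : Polynomial ℤ,
      C₄.eval 0 = W.c₄ ∧ C₆.eval 0 = W.c₆ ∧
      (∀ (s : ℤ) (W' : WeierstrassCurve ℤ), W'.c₄ = C₄.eval s → W'.c₆ = C₆.eval s →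
        W'.Δ ≠ 0 → SameModRep 5 W W') ∧
      (∃ N : ℕ, N ≠ 0 ∧ ∀ p : ℕ, p.Prime → ¬ p ∣ N → ∀ s : ℤ,
        ¬ ((p : ℤ) ∣ C₄.eval s ∧ (p : ℤ) ∣ C₆.eval s)) ∧
      (∀ S : Finset ℕ, ∃ r : ℕ, r.Prime ∧ r ∉ S ∧ r % 12 = 7 ∧
        ∃ s₁ : ℤ, (r : ℤ) ∣ C₆.eval s₁)

/-- **(MODEL)** The integral-model bookkeeping: `IfaceFam → IfaceSwitch`.
Recipe: `N₁ := 6 * N * |Δ(W)|`, `M := 1728 * N₁`; pick `r ∉ primeFactors M` and `s₁` from the
last clause, `s ≡ 0 mod M`, `s ≡ s₁ mod r` (CRT); `c₄' := C₄(s) ≡ c₄ mod M`,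
`c₆' := C₆(s) ≡ c₆ mod M`; `W' := ⟨a₁, a₂, a₃, a₄ - (c₄' - c₄)/48,
a₆ - ((c₆' - c₆) + 72 b₂ (c₄' - c₄)/48)/864⟩`, so that `c₄(W') = c₄'`, `c₆(W') = c₆'` and
`W' ≡ W` modulo every prime dividing `M`.  Semistability: `p ∣ M` by congruence to `W`,
`p ∤ M` by the coprimality clause (`p ∣ Δ', p ∣ c₄' ⇒ p ∣ c₆'`).  `r ∤ Δ'` by the same
argument, whence `Δ' ≠ 0`. -/
def IfaceModel : Prop := IfaceFam → IfaceSwitch

/-- **Assembly of S52** from the three top-level interfaces. -/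
theorem s52_of (hC : IfaceCongr) (hI : IfaceIrr3) (hS : IfaceSwitch)
    (W : WeierstrassCurve ℤ) (hΔ : W.Δ ≠ 0) (hW : W.IsSemistableModel) :
    ∃ W' : WeierstrassCurve ℤ, W'.Δ ≠ 0 ∧ W'.IsSemistableModel ∧ W'.ModRepIsIrreducible 3 ∧
      ∀ ℓ : ℕ, ℓ.Prime → W.IsGoodPrimeFor ℓ → W'.IsGoodPrimeFor ℓ → ℓ ≠ 5 →
        (5 : ℤ) ∣ (W'.apOfModel ℓ - W.apOfModel ℓ) := by
  obtain ⟨W', hΔ', hW', ⟨r, hr, hr12, hgood, hc6⟩, hsame⟩ := hS W hΔ hW
  refine ⟨W', hΔ', hW', hI W' r hr hr12 hgood hc6, ?_⟩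
  intro ℓ hℓ hg hg' hne
  exact hC 5 Nat.prime_five W W' hsame ℓ hℓ hg hg' hne

end Fermat.Agent.S52
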